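import Mathlib

set_option autoImplicit false

open Filter Topology UpperHalfPlane ModularForm EisensteinSeries Derivative
open scoped MatrixGroups Manifold Topology ModularForm

namespace Fermat.Agent.VVMF

local notation "𝕢" => Function.Periodic.qParam

/-- the normalized derivative in terms of the cusp function. -/
lemma D_eq_qParam_mul {f : ℍ → ℂ} (hfper : Function.Periodic (f ∘ ofComplex) 1)
    (hfhol : MDiff f) (hfbdd : IsBoundedAtImInfty f) (τ : ℍ) :
    normalizedDerivOfComplex f τ = 𝕢 1 τ * deriv (cuspFunction 1 f) (𝕢 1 τ) := by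
  have h1 : (f ∘ ofComplex) =ᶠ[𝓝 (τ : ℂ)] fun z => cuspFunction 1 f (𝕢 1 z) := by
    filter_upwards [isOpen_upperHalfPlaneSet.mem_nhds τ.im_pos] with z hz
    have := eq_cuspFunction (h := 1) (f := f) ⟨z, hz⟩ one_ne_zero (by simpa using hfper)
    simp only [Function.comp_apply, ofComplex_apply_of_im_pos hz]
    exact this.symm
  have hq : ‖𝕢 1 (τ : ℂ)‖ < 1 := Function.Periodic.norm_qParam_lt_one one_pos τ.im_pos
  have hd : DifferentiableAt ℂ (cuspFunction 1 f) (𝕢 1 (τ : ℂ)) :=
    differentiableAt_cuspFunction one_pos (by simpa using hfper) hfhol hfbdd hq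
  have hqd : HasDerivAt (fun z : ℂ => 𝕢 1 z) (2 * Real.pi * Complex.I * 𝕢 1 (τ : ℂ)) (τ : ℂ) := by
    unfold Function.Periodic.qParam
    have : HasDerivAt (fun z : ℂ => 2 * Real.pi * Complex.I * z / (1 : ℝ))
      (2 * Real.pi * Complex.I) (τ : ℂ) := by
      simpa using (hasDerivAt_id (τ : ℂ)).const_mul (2 * Real.pi * Complex.I)
    have h3 := this.cexp
    rw [mul_comm (Complex.exp _)] at h3
    exact h3
  have := (hd.hasDerivAt.comp (τ : ℂ) hqd).deriv
  unfold normalizedDerivOfComplex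
  rw [h1.deriv_eq, show (fun z : ℂ => cuspFunction 1 f (𝕢 1 z)) =
    cuspFunction 1 f ∘ (fun z : ℂ => 𝕢 1 z) from rfl, this]
  have h2 : (2 * Real.pi * Complex.I : ℂ) ≠ 0 := Complex.two_pi_I_ne_zero
  field_simp

lemma tendsto_D_zero {f : ℍ → ℂ} (hfper : Function.Periodic (f ∘ ofComplex) 1)
    (hfhol : MDiff f) (hfbdd : IsBoundedAtImInfty f) :
    Tendsto (normalizedDerivOfComplex f) atImInfty (𝓝 0) := by
  have ha : AnalyticAt ℂ (cuspFunction 1 f) 0 :=
    analyticAt_cuspFunction_zero one_pos (by simpa using hfper) hfhol hfbdd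
  have h1 : Tendsto (fun τ : ℍ => 𝕢 1 (τ : ℂ)) atImInfty (𝓝 0) := qParam_tendsto_atImInfty one_pos
  have h2 : ContinuousAt (fun q : ℂ => q * deriv (cuspFunction 1 f) q) 0 :=
    continuousAt_id.mul ha.deriv.continuousAt
  have h3 := h2.tendsto.comp h1
  simp only [zero_mul] at h3
  refine h3.congr ?_
  intro τ
  exact (D_eq_qParam_mul hfper hfhol hfbdd τ).symm

lemma modularForm_tendsto_valueAtInfty {k : ℤ} (f : ModularForm 𝒮ℒ k) :
    Tendsto f atImInfty (𝓝 ((qExpansion 1 f).coeff 0)) := by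
  have hper := SlashInvariantFormClass.periodic_comp_ofComplex f one_mem_strictPeriods_SL
  have ha := ModularFormClass.analyticAt_cuspFunction_zero f one_pos one_mem_strictPeriods_SL
  have h1 : Tendsto (fun τ : ℍ => 𝕢 1 (τ : ℂ)) atImInfty (𝓝 0) := qParam_tendsto_atImInfty one_pos
  have h3 := ha.continuousAt.tendsto.comp h1
  have h4 : (qExpansion 1 f).coeff 0 = cuspFunction 1 f 0 := by
    rw [qExpansion_coeff]; simp
  rw [h4]
  refine h3.congr ?_
  intro τ
  exact eq_cuspFunction τ one_ne_zero hper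

lemma tendsto_E4 : Tendsto E₄ atImInfty (𝓝 1) := by
  have := modularForm_tendsto_valueAtInfty E₄
  rwa [E_qExpansion_coeff_zero _ ⟨2, rfl⟩] at this

lemma tendsto_E6 : Tendsto E₆ atImInfty (𝓝 1) := by
  have := modularForm_tendsto_valueAtInfty E₆
  rwa [E_qExpansion_coeff_zero _ ⟨3, rfl⟩] at this

lemma E2_periodic : Function.Periodic (E2 ∘ ofComplex) 1 := by
  intro w
  by_cases! hw : 0 < Complex.im w
  · have h1 : 0 < Complex.im (w + 1) := by simp [hw]
    simp only [Function.comp_apply, ofComplex_apply_of_im_pos h1, ofComplex_apply_of_im_pos hw]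
    have e1 := hasSum_qExpansion_E2 (z := ⟨w + 1, h1⟩)
    have e2 := hasSum_qExpansion_E2 (z := ⟨w, hw⟩)
    have e3 : Complex.exp (2 * Real.pi * Complex.I * (w + 1)) =
        Complex.exp (2 * Real.pi * Complex.I * w) := by
      rw [mul_add, mul_one, Complex.exp_add, Complex.exp_two_pi_mul_I, mul_one]
    simp only [e3] at e1
    exact e1.unique e2
  · have : Complex.im (w + 1) ≤ 0 := by simpa using hw
    simp [ofComplex_apply_of_im_nonpos this, ofComplex_apply_of_im_nonpos hw]

lemma tendsto_E2 : Tendsto E2 atImInfty (𝓝 1) := by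
  have ha : AnalyticAt ℂ (cuspFunction 1 E2) 0 :=
    analyticAt_cuspFunction_zero one_pos (by simpa using E2_periodic) E2_mdifferentiable
      isBoundedAtImInfty_E2
  have h := hasFPowerSeriesOnBall_cuspFunction one_pos ha (f := E2)
    (c := fun m : ℕ ↦ (if m = 0 then 1 else -24 * ArithmeticFunction.sigma 1 m : ℂ))
    (fun τ => by simpa only [Function.Periodic.qParam, Complex.ofReal_one, div_one] using
      hasSum_qExpansion_E2 (z := τ))
  have h0 : cuspFunction 1 E2 0 = 1 := by
    have := h.hasFPowerSeriesAt.coeff_zero (fun _ => 0)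
    rw [← this]
    simp [FormalMultilinearSeries.ofScalars]
  have h1 : Tendsto (fun τ : ℍ => 𝕢 1 (τ : ℂ)) atImInfty (𝓝 0) := qParam_tendsto_atImInfty one_pos
  have h3 := ha.continuousAt.tendsto.comp h1
  rw [h0] at h3
  refine h3.congr ?_
  intro τ
  exact eq_cuspFunction τ one_ne_zero (by simpa using E2_periodic)

/-- The Serre derivative of a level one form is a level one form. -/
noncomputable def serreForm {k : ℤ} (f : ModularForm 𝒮ℒ k) : ModularForm 𝒮ℒ (k + 2) where
  toFun := serreDerivative k f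
  slash_action_eq' := by
    rintro _ ⟨γ, rfl⟩
    exact serreDerivative_slash_invariant f.holo' (f.slash_action_eq' _ ⟨γ, rfl⟩)
  holo' := serreDerivative_mdifferentiable _ f.holo'
  bdd_at_cusps' {c} hc := by
    rw [OnePoint.isBoundedAt_iff_forall_SL2Z hc]
    intro γ _
    have h0 : serreDerivative k f ∣[k + 2] γ = serreDerivative k f :=
      serreDerivative_slash_invariant (γ := γ) f.holo' (f.slash_action_eq' _ ⟨γ, rfl⟩)
    rw [h0]
    have h1 := tendsto_D_zero (f := f)
      (by simpa using SlashInvariantFormClass.periodic_comp_ofComplex f one_mem_strictPeriods_SL)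
      f.holo' (ModularFormClass.bdd_at_infty f)
    have h2 : Tendsto (serreDerivative k f) atImInfty
        (𝓝 (0 - k * 12⁻¹ * 1 * (qExpansion 1 f).coeff 0)) := by
      apply Tendsto.sub h1
      exact (tendsto_const_nhds.mul tendsto_E2).mul (modularForm_tendsto_valueAtInfty f)
    exact h2.isBigO_one ℝ


lemma serreForm_tendsto {k : ℤ} (f : ModularForm 𝒮ℒ k) :
    Tendsto (serreForm f) atImInfty (𝓝 (0 - k * 12⁻¹ * 1 * (qExpansion 1 f).coeff 0)) := by
  have h1 := tendsto_D_zero (f := f)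
    (by simpa using SlashInvariantFormClass.periodic_comp_ofComplex f one_mem_strictPeriods_SL)
    f.holo' (ModularFormClass.bdd_at_infty f)
  apply Tendsto.sub h1
  exact (tendsto_const_nhds.mul tendsto_E2).mul (modularForm_tendsto_valueAtInfty f)

lemma serreForm_apply {k : ℤ} (f : ModularForm 𝒮ℒ k) (τ : ℍ) :
    serreForm f τ = normalizedDerivOfComplex f τ - k * 12⁻¹ * E2 τ * f τ := rfl

lemma D_E4 (τ : ℍ) : normalizedDerivOfComplex E₄ τ = (E2 τ * E₄ τ - E₆ τ) / 3 := by
  obtain ⟨c, hc⟩ : ∃ c : ℂ, c • E₆ = ModularForm.mcast (b := 6) (by norm_num) (serreForm E₄) :=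
    (finrank_eq_one_iff_of_nonzero' E₆ (E_ne_zero _ ⟨3, rfl⟩)).mp
      (Module.rank_eq_one_iff_finrank_eq_one.mp levelOne_weight_six_rank_one) _
  have hc' : ∀ τ, c * E₆ τ = serreForm E₄ τ := fun τ => congrFun (congrArg DFunLike.coe hc) τ
  have h1 : Tendsto (serreForm E₄) atImInfty (𝓝 (c * 1)) := by
    refine (tendsto_const_nhds.mul tendsto_E6).congr ?_
    intro τ; exact hc' τ
  have h2 := serreForm_tendsto E₄
  rw [E_qExpansion_coeff_zero _ ⟨2, rfl⟩] at h2
  have h3 := tendsto_nhds_unique h1 h2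
  have h4 := hc' τ
  rw [serreForm_apply] at h4
  push_cast at h3 h4
  have h5 : c = -(1 / 3) := by linear_combination h3
  rw [h5] at h4
  linear_combination -h4

lemma levelOne_weight_eight_rank_one : Module.rank ℂ (ModularForm 𝒮ℒ 8) = 1 := by
  have := ModularForm.dimension_level_one 8 ⟨4, rfl⟩
  simpa [Nat.ModEq] using this

lemma D_E6 (τ : ℍ) : normalizedDerivOfComplex E₆ τ = (E2 τ * E₆ τ - E₄ τ ^ 2) / 2 := by
  have hne : ModularForm.mcast (b := 8) (by norm_num) (E₄.mul E₄) ≠ 0 := by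
    intro h
    have h1 : Tendsto (fun τ => E₄ τ * E₄ τ) atImInfty (𝓝 (1 * 1)) := tendsto_E4.mul tendsto_E4
    have h2 : (fun τ => E₄ τ * E₄ τ) = 0 := by
      ext τ
      exact congrFun (congrArg DFunLike.coe h) τ
    rw [h2] at h1
    have h3 : (1 : ℂ) * 1 = 0 := tendsto_nhds_unique h1 tendsto_const_nhds
    rw [mul_one] at h3
    exact one_ne_zero h3
  obtain ⟨c, hc⟩ : ∃ c : ℂ, c • ModularForm.mcast (b := 8) (by norm_num) (E₄.mul E₄) =
      ModularForm.mcast (b := 8) (by norm_num) (serreForm E₆) :=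
    (finrank_eq_one_iff_of_nonzero' _ hne).mp
      (Module.rank_eq_one_iff_finrank_eq_one.mp levelOne_weight_eight_rank_one) _
  have hc' : ∀ τ, c * (E₄ τ * E₄ τ) = serreForm E₆ τ :=
    fun τ => congrFun (congrArg DFunLike.coe hc) τ
  have h1 : Tendsto (serreForm E₆) atImInfty (𝓝 (c * (1 * 1))) := by
    refine (tendsto_const_nhds.mul (tendsto_E4.mul tendsto_E4)).congr ?_
    intro τ; exact hc' τ
  have h2 := serreForm_tendsto E₆
  rw [E_qExpansion_coeff_zero _ ⟨3, rfl⟩] at h2
  have h3 := tendsto_nhds_unique h1 h2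
  have h4 := hc' τ
  rw [serreForm_apply] at h4
  push_cast at h3 h4
  have h5 : c = -(1 / 2) := by linear_combination h3
  rw [h5] at h4
  linear_combination -h4

end Fermat.Agent.VVMF
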