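import Mathlib

set_option autoImplicit false

open Filter Topology

namespace Fermat.Agent.VVMF

open PeriodPair

local notation "℘₀[" L "]" => PeriodPair.weierstrassPExcept L 0
local notation "℘₀'[" L "]" => PeriodPair.derivWeierstrassPExcept L 0

lemma wp_eq (L : PeriodPair) (z : ℂ) : L.weierstrassP z = ℘₀[L] z + 1 / z ^ 2 := by
  have := L.weierstrassPExcept_add (0 : L.lattice) z
  simp at this
  rw [← this]; simp

lemma wp'_eq (L : PeriodPair) (z : ℂ) : L.derivWeierstrassP z = ℘₀'[L] z - 2 / z ^ 3 := by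
  have := L.derivWeierstrassPExcept_def (0 : L.lattice) z
  simp at this
  rw [this]; ring

lemma wp_ode (L : PeriodPair) :
    ∀ᶠ z in 𝓝[≠] (0 : ℂ), (℘₀'[L] z - 2 / z ^ 3) ^ 2 =
      4 * (℘₀[L] z + 1 / z ^ 2) ^ 3 - L.g₂ * (℘₀[L] z + 1 / z ^ 2) - L.g₃ := by
  filter_upwards [self_mem_nhdsWithin, mem_nhdsWithin_of_mem_nhds
    (L.compl_lattice_sdiff_singleton_mem_nhds 0)] with z hz hz'
  rw [← wp_eq, ← wp'_eq]
  apply L.derivWeierstrassP_sq
  simp_all

lemma deriv_wp0 (L : PeriodPair) :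
    ∀ᶠ z in 𝓝 (0 : ℂ), deriv ℘₀[L] z = ℘₀'[L] z := by
  filter_upwards [L.compl_lattice_sdiff_singleton_mem_nhds 0] with z hz
  exact L.eqOn_deriv_weierstrassPExcept_derivWeierstrassPExcept 0 hz

/-- The key local step: if the invariants agree then the regular parts agree near `0`. -/
lemma eventually_eq_of_g (L L' : PeriodPair) (h2 : L.g₂ = L'.g₂) (h3 : L.g₃ = L'.g₃) :
    ∀ᶠ z in 𝓝 (0 : ℂ), ℘₀[L] z = ℘₀[L'] z := by
  have hpa : AnalyticAt ℂ ℘₀[L] 0 := L.analyticAt_weierstrassPExcept 0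
  have hpa' : AnalyticAt ℂ ℘₀[L'] 0 := L'.analyticAt_weierstrassPExcept 0
  have hda : AnalyticAt ℂ ℘₀'[L] 0 := L.analyticAt_derivWeierstrassPExcept 0
  have hda' : AnalyticAt ℂ ℘₀'[L'] 0 := L'.analyticAt_derivWeierstrassPExcept 0
  set u : ℂ → ℂ := fun z => ℘₀[L] z - ℘₀[L'] z with hu
  have hua : AnalyticAt ℂ u 0 := hpa.sub hpa'
  rcases hua.eventually_eq_zero_or_eventually_ne_zero with h | h
  · filter_upwards [h] with z hz
    simpa [hu, sub_eq_zero] using hz
  · exfalso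
    have hfin : analyticOrderAt u 0 ≠ ⊤ := by
      intro htop
      rw [analyticOrderAt_eq_top] at htop
      have := (htop.filter_mono nhdsWithin_le_nhds).and h
      obtain ⟨z, hz1, hz2⟩ := this.exists
      exact hz2 hz1
    obtain ⟨g, hg, hg0, hgu⟩ := (hua.analyticOrderAt_ne_top).1 hfin
    set n := analyticOrderNatAt u 0
    -- derivative of u
    have hdu : ∀ᶠ z in 𝓝 (0 : ℂ), deriv u z = ℘₀'[L] z - ℘₀'[L'] z := by
      filter_upwards [deriv_wp0 L, deriv_wp0 L', hpa.eventually_analyticAt,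
        hpa'.eventually_analyticAt] with z h1 h1' ha ha'
      rw [hu, deriv_fun_sub ha.differentiableAt ha'.differentiableAt, h1, h1']
    have hdu2 : ∀ᶠ z in 𝓝 (0 : ℂ), z * deriv u z = z ^ n * (n * g z + z * deriv g z) := by
      filter_upwards [hgu.eventually_nhds, hg.eventually_analyticAt] with z hz hgz
      have : deriv u z = deriv (fun z => (z - 0) ^ n • g z) z := Filter.EventuallyEq.deriv_eq hz
      rw [this]
      simp only [sub_zero, smul_eq_mul]
      rw [deriv_fun_mul (by fun_prop) hgz.differentiableAt]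
      simp only [differentiableAt_fun_id, deriv_fun_pow, deriv_id'', mul_one]
      rcases n with _ | n
      · simp
      · simp [pow_succ]; ring
    have key : ∀ᶠ z in 𝓝[≠] (0 : ℂ),
        (n * g z + z * deriv g z) * (z ^ 3 * (℘₀'[L] z + ℘₀'[L'] z) - 4) =
        g z * (4 * ((z ^ 2 * ℘₀[L] z + 1) ^ 2 + (z ^ 2 * ℘₀[L] z + 1) * (z ^ 2 * ℘₀[L'] z + 1)
          + (z ^ 2 * ℘₀[L'] z + 1) ^ 2) - L.g₂ * z ^ 4) := by
      filter_upwards [wp_ode L, wp_ode L', hdu.filter_mono nhdsWithin_le_nhds,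
        hdu2.filter_mono nhdsWithin_le_nhds, hgu.filter_mono nhdsWithin_le_nhds,
        self_mem_nhdsWithin] with z h1 h1' h2' h3' h4' hz
      have hz : z ≠ 0 := hz
      rw [← h2, ← h3] at h1'
      rw [h2'] at h3'
      simp only [sub_zero, smul_eq_mul, hu] at h4'
      have hzn : z ^ n ≠ 0 := pow_ne_zero _ hz
      apply mul_left_cancel₀ hzn
      rw [← mul_assoc, ← h3', ← mul_assoc, ← h4']
      have e1 : (℘₀'[L] z - 2 / z ^ 3) ^ 2 - (℘₀'[L'] z - 2 / z ^ 3) ^ 2 =
        (4 * (℘₀[L] z + 1 / z ^ 2) ^ 3 - L.g₂ * (℘₀[L] z + 1 / z ^ 2) - L.g₃) -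
        (4 * (℘₀[L'] z + 1 / z ^ 2) ^ 3 - L.g₂ * (℘₀[L'] z + 1 / z ^ 2) - L.g₃) := by
        rw [h1, h1']
      field_simp at e1
      apply mul_left_cancel₀ (pow_ne_zero 2 hz)
      linear_combination e1
    have lim1 : Tendsto (fun z : ℂ => (n * g z + z * deriv g z) *
        (z ^ 3 * (℘₀'[L] z + ℘₀'[L'] z) - 4)) (𝓝[≠] 0) (𝓝 ((n * g 0) * (-4))) := by
      have hc : ContinuousAt (fun z : ℂ => (n * g z + z * deriv g z) *
        (z ^ 3 * (℘₀'[L] z + ℘₀'[L'] z) - 4)) 0 := by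
        have := hg.continuousAt
        have := hg.deriv.continuousAt
        have := hda.continuousAt
        have := hda'.continuousAt
        fun_prop
      have := hc.tendsto.mono_left (nhdsWithin_le_nhds (s := {0}ᶜ))
      convert this using 2
      simp
    have lim2 : Tendsto (fun z : ℂ => g z * (4 * ((z ^ 2 * ℘₀[L] z + 1) ^ 2 +
          (z ^ 2 * ℘₀[L] z + 1) * (z ^ 2 * ℘₀[L'] z + 1)
          + (z ^ 2 * ℘₀[L'] z + 1) ^ 2) - L.g₂ * z ^ 4)) (𝓝[≠] 0) (𝓝 (g 0 * 12)) := by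
      have hc : ContinuousAt (fun z : ℂ => g z * (4 * ((z ^ 2 * ℘₀[L] z + 1) ^ 2 +
          (z ^ 2 * ℘₀[L] z + 1) * (z ^ 2 * ℘₀[L'] z + 1)
          + (z ^ 2 * ℘₀[L'] z + 1) ^ 2) - L.g₂ * z ^ 4)) 0 := by
        have := hg.continuousAt
        have := hpa.continuousAt
        have := hpa'.continuousAt
        fun_prop
      have := hc.tendsto.mono_left (nhdsWithin_le_nhds (s := {0}ᶜ))
      convert this using 2
      simp; norm_num
    have heq := tendsto_nhds_unique (lim1.congr' key) lim2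
    have : g 0 * (4 * (n + 3)) = 0 := by linear_combination -heq
    rw [mul_eq_zero] at this
    rcases this with h | h
    · exact hg0 h
    · have : ((n : ℂ) + 3) ≠ 0 := by
        have : ((n + 3 : ℕ) : ℂ) ≠ 0 := Nat.cast_ne_zero.2 (by omega)
        push_cast at this
        exact this
      simp_all

/-- Lattices with the same invariants coincide. -/
theorem lattice_le_of_g (L L' : PeriodPair) (h2 : L.g₂ = L'.g₂) (h3 : L.g₃ = L'.g₃) :
    L.lattice ≤ L'.lattice := by
  -- identity theorem on the complement of `L ∪ L'`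
  set U : Set ℂ := ((L.lattice : Set ℂ) ∪ (L'.lattice : Set ℂ))ᶜ with hU
  have hcount : ((L.lattice : Set ℂ) ∪ (L'.lattice : Set ℂ)).Countable := by
    apply Set.Countable.union
    · have : Countable L.lattice := L.latticeEquivProd.toEquiv.countable_iff.2 inferInstance
      exact Set.countable_coe_iff.1 this
    · have : Countable L'.lattice := L'.latticeEquivProd.toEquiv.countable_iff.2 inferInstance
      exact Set.countable_coe_iff.1 this
  have hconn : IsPreconnected U :=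
    (hcount.isPathConnected_compl_of_one_lt_rank (by simp [Complex.rank_real_complex])).isConnected.isPreconnected
  have hdense : Dense U := hcount.dense_compl ℝ
  have ha : AnalyticOnNhd ℂ L.weierstrassP U :=
    L.analyticOnNhd_weierstrassP.mono (by rw [hU]; exact Set.compl_subset_compl.2 Set.subset_union_left)
  have ha' : AnalyticOnNhd ℂ L'.weierstrassP U :=
    L'.analyticOnNhd_weierstrassP.mono (by rw [hU]; exact Set.compl_subset_compl.2 Set.subset_union_right)
  obtain ⟨V, hV0, hVo, hV⟩ : ∃ V : Set ℂ, (0 : ℂ) ∈ V ∧ IsOpen V ∧ ∀ z ∈ V, ℘₀[L] z = ℘₀[L'] z := by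
    obtain ⟨V, hV, hVo, hV0⟩ := eventually_nhds_iff.1 (eventually_eq_of_g L L' h2 h3)
    exact ⟨V, hV0, hVo, hV⟩
  obtain ⟨z₀, hz₀V, hz₀U⟩ := hdense.inter_open_nonempty V hVo ⟨0, hV0⟩ 
  have hEq : Set.EqOn L.weierstrassP L'.weierstrassP U := by
    apply ha.eqOn_of_preconnected_of_eventuallyEq ha' hconn hz₀U
    filter_upwards [hVo.mem_nhds hz₀V] with z hz
    rw [wp_eq, wp_eq, hV z hz]
  intro l hl
  by_contra hl'
  have h1 := L.order_weierstrassP l hl
  have h2 : L.weierstrassP =ᶠ[𝓝[≠] l] L'.weierstrassP := by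
    have : Uᶜ \ {l} ⊆ ((L.lattice : Set ℂ) \ {l}) ∪ ((L'.lattice : Set ℂ) \ {l}) := by
      rintro z ⟨hz, hz'⟩
      simp only [hU, compl_compl] at hz
      rcases hz with hz | hz
      · exact Or.inl ⟨hz, hz'⟩
      · exact Or.inr ⟨hz, hz'⟩
    filter_upwards [self_mem_nhdsWithin, mem_nhdsWithin_of_mem_nhds
      (L.compl_lattice_sdiff_singleton_mem_nhds l), mem_nhdsWithin_of_mem_nhds
      (L'.compl_lattice_sdiff_singleton_mem_nhds l)] with z hz h1 h2
    apply hEq
    simp_all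
  rw [meromorphicOrderAt_congr h2] at h1
  have h3 : 0 ≤ meromorphicOrderAt L'.weierstrassP l :=
    (L'.analyticOnNhd_weierstrassP l hl').meromorphicOrderAt_nonneg
  rw [h1] at h3
  exact absurd h3 (by decide)

theorem lattice_eq_of_g (L L' : PeriodPair) (h2 : L.g₂ = L'.g₂) (h3 : L.g₃ = L'.g₃) :
    L.lattice = L'.lattice :=
  le_antisymm (lattice_le_of_g L L' h2 h3) (lattice_le_of_g L' L h2.symm h3.symm)

end Fermat.Agent.VVMF
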