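import Mathlib
import Fermat.Agent.VVMF.Lattice

set_option autoImplicit false

open Filter Topology UpperHalfPlane ModularForm EisensteinSeries
open scoped MatrixGroups

namespace Fermat.Agent.VVMF

/-- The period pair `(c τ, c)`. -/
noncomputable def periodPair (c : ℂ) (hc : c ≠ 0) (τ : ℍ) : PeriodPair where
  ω₁ := c * τ
  ω₂ := c
  indep := by
    rw [LinearIndependent.pair_iff]
    intro s t h
    have h1 : c * ((s : ℂ) * τ + t) = 0 := by
      simp only [Complex.real_smul] at h
      linear_combination h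
    have h2 : ((s : ℂ) * τ + t) = 0 := by
      rcases mul_eq_zero.1 h1 with h | h
      · exact absurd h hc
      · exact h
    have him := congrArg Complex.im h2
    simp at him
    have hτ := τ.im_ne_zero
    have hs : s = 0 := by
      rcases him with h | h
      · exact h
      · exact absurd h hτ
    subst hs
    simpa using h2

lemma G_periodPair {c : ℂ} (hc : c ≠ 0) (τ : ℍ) (n : ℕ) :
    (periodPair c hc τ).G n = (c ^ n)⁻¹ * ∑' v : Fin 2 → ℤ, eisSummand n v τ := by
  rw [PeriodPair.G, ← ((periodPair c hc τ).latticeEquivProd.toEquiv.trans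
    (finTwoArrowEquiv ℤ).symm).symm.tsum_eq, ← tsum_mul_left]
  apply tsum_congr
  intro v
  simp only [Equiv.symm_trans_apply, Equiv.symm_symm, finTwoArrowEquiv_apply, eisSummand]
  have : (((periodPair c hc τ).latticeEquivProd.toEquiv.symm (v 0, v 1) :
    (periodPair c hc τ).lattice) : ℂ) = c * (v 0 * τ + v 1) := by
    have := (periodPair c hc τ).latticeEquiv_symm_apply (v 0, v 1)
    rw [show ((periodPair c hc τ).latticeEquivProd.toEquiv.symm (v 0, v 1)) =
      (periodPair c hc τ).latticeEquivProd.symm (v 0, v 1) from rfl, this]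
    simp [periodPair]; ring
  rw [show ((piFinTwoEquiv fun x ↦ ℤ).toFun v) = (v 0, v 1) from rfl, this, mul_pow, mul_inv]
  simp

lemma tsum_eisSummand_eq_E {k : ℕ} (hk : 3 ≤ k) (τ : ℍ) :
    ∑' v : Fin 2 → ℤ, eisSummand k v τ = 2 * riemannZeta k * E hk τ := by
  rw [tsum_eisSummand_eq_riemannZeta_mul_eisensteinSeries hk τ]
  have : E hk τ = (1 / 2 : ℂ) * eisensteinSeries (N := 1) 0 k τ := rfl
  rw [this]; ring

lemma g2_periodPair {c : ℂ} (hc : c ≠ 0) (τ : ℍ) :
    (periodPair c hc τ).g₂ = 120 * riemannZeta 4 * ((c ^ 4)⁻¹ * E₄ τ) := by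
  have h := tsum_eisSummand_eq_E (k := 4) (by norm_num) τ
  rw [PeriodPair.g₂, G_periodPair, h]
  push_cast; ring

lemma g3_periodPair {c : ℂ} (hc : c ≠ 0) (τ : ℍ) :
    (periodPair c hc τ).g₃ = 280 * riemannZeta 6 * ((c ^ 6)⁻¹ * E₆ τ) := by
  have h := tsum_eisSummand_eq_E (k := 6) (by norm_num) τ
  rw [PeriodPair.g₃, G_periodPair, h]
  push_cast; ring

lemma E4_ne_zero_or_E6_ne_zero (τ : ℍ) : E₄ τ ≠ 0 ∨ E₆ τ ≠ 0 := by
  by_contra h
  push Not at h
  have := discriminant_eq_E₄_cube_sub_E₆_sq τ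
  rw [h.1, h.2] at this
  exact discriminant_ne_zero τ (by rw [this]; simp)

lemma exists_scale (τ τ' : ℍ) (h : E₄ τ ^ 3 * E₆ τ' ^ 2 = E₄ τ' ^ 3 * E₆ τ ^ 2) :
    ∃ c : ℂ, c ≠ 0 ∧ (c ^ 4)⁻¹ * E₄ τ = E₄ τ' ∧ (c ^ 6)⁻¹ * E₆ τ = E₆ τ' := by
  rcases eq_or_ne (E₄ τ) 0 with h4 | h4
  · have h6 : E₆ τ ≠ 0 := by rcases E4_ne_zero_or_E6_ne_zero τ with h | h; exact absurd h4 h; exact h
    rw [h4] at h
    have h4' : E₄ τ' = 0 := by
      have : E₄ τ' ^ 3 * E₆ τ ^ 2 = 0 := by rw [← h]; ring
      rcases mul_eq_zero.1 this with h | h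
      · exact pow_eq_zero_iff (by norm_num) |>.1 h
      · exact absurd (pow_eq_zero_iff (by norm_num) |>.1 h) h6
    have h6' : E₆ τ' ≠ 0 := by rcases E4_ne_zero_or_E6_ne_zero τ' with h | h; exact absurd h4' h; exact h
    obtain ⟨c, hc⟩ := IsAlgClosed.exists_pow_nat_eq (E₆ τ / E₆ τ') (n := 6) (by norm_num)
    refine ⟨c, ?_, ?_, ?_⟩
    · rintro rfl
      have := div_ne_zero h6 h6'
      rw [← hc] at this
      exact this (zero_pow (by norm_num))
    · rw [h4, h4', mul_zero]
    · rw [hc]; field_simp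
  · rcases eq_or_ne (E₆ τ) 0 with h6 | h6
    · rw [h6] at h
      have h6' : E₆ τ' = 0 := by
        have : E₄ τ ^ 3 * E₆ τ' ^ 2 = 0 := by rw [h]; ring
        rcases mul_eq_zero.1 this with h | h
        · exact absurd (pow_eq_zero_iff (by norm_num) |>.1 h) h4
        · exact pow_eq_zero_iff (by norm_num) |>.1 h
      have h4' : E₄ τ' ≠ 0 := by
        rcases E4_ne_zero_or_E6_ne_zero τ' with h | h; exact h; exact absurd h6' h
      obtain ⟨c, hc⟩ := IsAlgClosed.exists_pow_nat_eq (E₄ τ / E₄ τ') (n := 4) (by norm_num)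
      refine ⟨c, ?_, ?_, ?_⟩
      · rintro rfl
        have := div_ne_zero h4 h4'
        rw [← hc] at this
        exact this (zero_pow (by norm_num))
      · rw [hc]; field_simp
      · rw [h6, h6', mul_zero]
    · have h4' : E₄ τ' ≠ 0 := by
        intro h4'
        have h6' : E₆ τ' ≠ 0 := by
          rcases E4_ne_zero_or_E6_ne_zero τ' with h | h; exact absurd h4' h; exact h
        rw [h4'] at h
        have : E₄ τ ^ 3 * E₆ τ' ^ 2 ≠ 0 := by positivity
        exact this (by rw [h]; ring)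
      have h6' : E₆ τ' ≠ 0 := by
        intro h6'
        rw [h6'] at h
        have : E₄ τ' ^ 3 * E₆ τ ^ 2 ≠ 0 := by positivity
        exact this (by rw [← h]; ring)
      -- `u = E₄ τ / E₄ τ'`, `v = E₆ τ / E₆ τ'`, `u^3 = v^2`
      obtain ⟨c, hc⟩ := IsAlgClosed.exists_pow_nat_eq ((E₆ τ / E₆ τ') / (E₄ τ / E₄ τ')) (n := 2)
        (by norm_num)
      have hc0 : c ≠ 0 := by
        rintro rfl
        have := div_ne_zero (div_ne_zero h6 h6') (div_ne_zero h4 h4')
        rw [← hc] at this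
        exact this (zero_pow (by norm_num))
      refine ⟨c, hc0, ?_, ?_⟩
      · have : c ^ 4 = E₄ τ / E₄ τ' := by
          rw [show c ^ 4 = (c ^ 2) ^ 2 by ring, hc]
          field_simp
          linear_combination -h
        rw [this]; field_simp
      · have : c ^ 6 = E₆ τ / E₆ τ' := by
          rw [show c ^ 6 = (c ^ 2) ^ 3 by ring, hc]
          field_simp
          linear_combination -h
        rw [this]; field_simp

theorem exists_smul_eq_of_E4_E6 (τ τ' : ℍ)
    (h : E₄ τ ^ 3 * E₆ τ' ^ 2 = E₄ τ' ^ 3 * E₆ τ ^ 2) : ∃ γ : SL(2, ℤ), γ • τ = τ' := by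
  obtain ⟨c, hc, h4, h6⟩ := exists_scale τ τ' h
  have hL : (periodPair c hc τ).lattice = (periodPair 1 one_ne_zero τ').lattice := by
    apply lattice_eq_of_g
    · rw [g2_periodPair, g2_periodPair, h4]; simp
    · rw [g3_periodPair, g3_periodPair, h6]; simp
  -- `c τ = a τ' + b`, `c = a' τ' + b'`
  have m1 : (periodPair c hc τ).ω₁ ∈ (periodPair 1 one_ne_zero τ').lattice := by
    rw [← hL]; exact PeriodPair.ω₁_mem_lattice _
  have m2 : (periodPair c hc τ).ω₂ ∈ (periodPair 1 one_ne_zero τ').lattice := by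
    rw [← hL]; exact PeriodPair.ω₂_mem_lattice _
  have m3 : (periodPair 1 one_ne_zero τ').ω₁ ∈ (periodPair c hc τ).lattice := by
    rw [hL]; exact PeriodPair.ω₁_mem_lattice _
  have m4 : (periodPair 1 one_ne_zero τ').ω₂ ∈ (periodPair c hc τ).lattice := by
    rw [hL]; exact PeriodPair.ω₂_mem_lattice _
  rw [PeriodPair.mem_lattice] at m1 m2 m3 m4
  obtain ⟨p, q, e1⟩ := m1
  obtain ⟨r, s, e2⟩ := m2
  obtain ⟨a, b, e3⟩ := m3
  obtain ⟨a', b', e4⟩ := m4
  simp only [periodPair, one_mul, mul_one] at e1 e2 e3 e4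
  -- linear independence of `τ', 1`
  have li : ∀ x y : ℤ, (x : ℂ) * τ' + y = 0 → x = 0 ∧ y = 0 := by
    intro x y hxy
    have him := congrArg Complex.im hxy
    simp at him
    have hx : x = 0 := by
      rcases him with h | h
      · exact h
      · exact absurd h τ'.im_ne_zero
    subst hx
    simpa using hxy
  have k1 := li (a * p + b * r - 1) (a * q + b * s) (by
    push_cast
    linear_combination e3 + a * e1 + b * e2)
  have k2 := li (a' * p + b' * r) (a' * q + b' * s - 1) (by
    push_cast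
    linear_combination e4 + a' * e1 + b' * e2)
  have hdet : (a * b' - b * a') * (p * s - q * r) = 1 := by
    obtain ⟨k11, k12⟩ := k1
    obtain ⟨k21, k22⟩ := k2
    have e1 : a * p + b * r = 1 := by omega
    have e2 : a' * q + b' * s = 1 := by omega
    linear_combination e1 * (a' * q + b' * s) + e2 - k12 * (a' * p + b' * r)
  have hτ' : (τ' : ℂ) = (a * τ + b) / (a' * τ + b') := by
    have h1 : c * (a' * τ + b') = 1 := by linear_combination e4
    have h2 : (a' : ℂ) * τ + b' ≠ 0 := by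
      intro h; rw [h] at h1; simp at h1
    rw [eq_div_iff h2]
    have : (τ' : ℂ) = c * (a * τ + b) := by linear_combination -e3
    linear_combination (a' * τ + b') * this + (a * τ + b) * h1
  have him : 0 < (a * b' - b * a' : ℤ) := by
    have h2 : (a' : ℂ) * τ + b' ≠ 0 := by
      intro h; rw [h, div_zero] at hτ'
      exact τ'.ne_zero hτ'
    have h3 : (τ' : ℂ).im = (a * b' - b * a' : ℤ) * τ.im / Complex.normSq (a' * τ + b') := by
      rw [hτ', Complex.div_im]
      simp
      field_simp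
      ring
    have h4 : 0 < Complex.normSq ((a' : ℂ) * τ + b') := Complex.normSq_pos.2 h2
    have h5 : 0 < ((a * b' - b * a' : ℤ) : ℝ) := by
      by_contra hneg
      push Not at hneg
      have : (τ' : ℂ).im ≤ 0 := by
        rw [h3]
        apply div_nonpos_of_nonpos_of_nonneg _ h4.le
        exact mul_nonpos_of_nonpos_of_nonneg hneg τ.im_pos.le
      exact absurd τ'.im_pos (not_lt.2 this)
    exact_mod_cast h5
  have hdet1 : a * b' - b * a' = 1 := by
    have := Int.eq_one_or_neg_one_of_mul_eq_one hdet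
    rcases this with h | h
    · exact h
    · omega
  refine ⟨⟨!![a, b; a', b'], by rw [Matrix.det_fin_two_of]; exact hdet1⟩, ?_⟩
  apply UpperHalfPlane.ext
  rw [UpperHalfPlane.specialLinearGroup_apply, hτ']
  simp

end Fermat.Agent.VVMF
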