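import Mathlib
import Fermat.Agent.VVMF.JInj
import Fermat.Agent.VVMF.Deriv

set_option autoImplicit false

open Filter Topology UpperHalfPlane ModularForm EisensteinSeries Derivative
open scoped MatrixGroups Manifold Topology ModularForm

namespace Fermat.Agent.VVMF

/-- Division by a holomorphic function with simple zeros. -/
lemma exists_div {f G : ℍ → ℂ} (hf : MDiff f) (hG : MDiff G)
    (hG' : ∀ τ, G τ = 0 → deriv (G ∘ ofComplex) τ ≠ 0) (hfG : ∀ τ, G τ = 0 → f τ = 0) :
    ∃ h : ℍ → ℂ, MDiff h ∧ ∀ τ, f τ = G τ * h τ := by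
  classical
  rw [UpperHalfPlane.mdifferentiable_iff] at hf hG
  set F := f ∘ ofComplex with hF
  set K := G ∘ ofComplex with hK
  let H : ℂ → ℂ := fun z => if K z = 0 then deriv F z / deriv K z else F z / K z
  refine ⟨fun τ => H τ, ?_, ?_⟩
  · rw [UpperHalfPlane.mdifferentiable_iff]
    have : ∀ z ∈ upperHalfPlaneSet, DifferentiableAt ℂ H z := by
      intro z hz
      have hFd : DifferentiableAt ℂ F z := hf.differentiableAt (isOpen_upperHalfPlaneSet.mem_nhds hz)
      have hKd : DifferentiableAt ℂ K z := hG.differentiableAt (isOpen_upperHalfPlaneSet.mem_nhds hz)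
      by_cases hKz : K z = 0
      · have hFz : F z = 0 := by
          have := hfG ⟨z, hz⟩ (by simpa [hK, ofComplex_apply_of_im_pos hz] using hKz)
          simpa [hF, ofComplex_apply_of_im_pos hz] using this
        have hK' : deriv K z ≠ 0 := by
          simpa using hG' ⟨z, hz⟩ (by simpa [hK, ofComplex_apply_of_im_pos hz] using hKz)
        have d1 : DifferentiableAt ℂ (dslope F z) z :=
          ((Complex.differentiableOn_dslope (isOpen_upperHalfPlaneSet.mem_nhds hz)).2 hf).differentiableAt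
            (isOpen_upperHalfPlaneSet.mem_nhds hz)
        have d2 : DifferentiableAt ℂ (dslope K z) z :=
          ((Complex.differentiableOn_dslope (isOpen_upperHalfPlaneSet.mem_nhds hz)).2 hG).differentiableAt
            (isOpen_upperHalfPlaneSet.mem_nhds hz)
        have hne : dslope K z z ≠ 0 := by rwa [dslope_same]
        have d3 : DifferentiableAt ℂ (fun w => dslope F z w / dslope K z w) z := d1.div d2 hne
        refine d3.congr_of_eventuallyEq ?_
        have hne' : ∀ᶠ w in 𝓝 z, dslope K z w ≠ 0 := d2.continuousAt.eventually_ne hne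
        filter_upwards [hne'] with w hw
        by_cases hwz : w = z
        · subst hwz
          simp [H, hKz]
        · have e1 : K w = (w - z) * dslope K z w := by
            have := sub_smul_dslope K z w
            rw [hKz, sub_zero] at this
            rw [← this]; rfl
          have e2 : F w = (w - z) * dslope F z w := by
            have := sub_smul_dslope F z w
            rw [hFz, sub_zero] at this
            rw [← this]; rfl
          have hwz' : w - z ≠ 0 := sub_ne_zero.2 hwz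
          have hKw : K w ≠ 0 := by rw [e1]; exact mul_ne_zero hwz' hw
          simp only [H, hKw, if_false]
          rw [e1, e2]
          field_simp
      · have hne' : ∀ᶠ w in 𝓝 z, K w ≠ 0 := hKd.continuousAt.eventually_ne hKz
        refine (hFd.div hKd hKz).congr_of_eventuallyEq ?_
        filter_upwards [hne'] with w hw
        simp only [H, hw, if_false]
        rfl
    refine DifferentiableOn.congr (fun z hz => (this z hz).differentiableWithinAt) ?_
    intro z hz
    simp [ofComplex_apply_of_im_pos hz]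
  · intro τ
    have h1 : K τ = G τ := by simp [hK]
    have h2 : F τ = f τ := by simp [hF]
    by_cases h : G τ = 0
    · rw [hfG τ h, h, zero_mul]
    · simp only [H, h1, h2, h, if_false]
      field_simp

lemma deriv_ne_zero_of_D {f : ℍ → ℂ} {τ : ℍ} (h : normalizedDerivOfComplex f τ ≠ 0) :
    deriv (f ∘ ofComplex) τ ≠ 0 := by
  intro h'
  apply h
  unfold normalizedDerivOfComplex
  rw [h', mul_zero]

lemma E6_simple (τ : ℍ) (h : E₆ τ = 0) : deriv (E₆ ∘ ofComplex) τ ≠ 0 := by
  apply deriv_ne_zero_of_D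
  rw [D_E6, h]
  rcases E4_ne_zero_or_E6_ne_zero τ with h4 | h6
  · intro h'
    have : E₄ τ ^ 2 = 0 := by linear_combination -2 * h'
    exact h4 (pow_eq_zero_iff (by norm_num) |>.1 this)
  · exact absurd h h6

lemma E4_simple (τ : ℍ) (h : E₄ τ = 0) : deriv (E₄ ∘ ofComplex) τ ≠ 0 := by
  apply deriv_ne_zero_of_D
  rw [D_E4, h]
  rcases E4_ne_zero_or_E6_ne_zero τ with h4 | h6
  · exact absurd h h4
  · intro h'
    have : E₆ τ = 0 := by linear_combination -3 * h'
    exact h6 this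

/-- the level one form of weight `12` vanishing exactly on the orbit of `τ₀`. -/
noncomputable def genForm (τ₀ : ℍ) : ModularForm 𝒮ℒ 12 :=
  (E₆ τ₀ ^ 2) • ModularForm.mcast (by decide) (E₄.pow 3) -
    (E₄ τ₀ ^ 3) • ModularForm.mcast (by decide) (E₆.pow 2)

lemma genForm_apply (τ₀ τ : ℍ) :
    genForm τ₀ τ = E₆ τ₀ ^ 2 * E₄ τ ^ 3 - E₄ τ₀ ^ 3 * E₆ τ ^ 2 := by
  simp only [genForm, coe_mcast, coe_pow, sub_apply, smul_apply, Pi.pow_apply, smul_eq_mul]

lemma genForm_zero (τ₀ τ : ℍ) (h : genForm τ₀ τ = 0) : ∃ γ : SL(2, ℤ), γ • τ₀ = τ := by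
  rw [genForm_apply] at h
  apply exists_smul_eq_of_E4_E6
  linear_combination -h

lemma genForm_simple (τ₀ τ : ℍ) (h4 : E₄ τ₀ ≠ 0) (h6 : E₆ τ₀ ≠ 0) (h : genForm τ₀ τ = 0) :
    deriv (genForm τ₀ ∘ ofComplex) τ ≠ 0 := by
  apply deriv_ne_zero_of_D
  have h0 := h
  rw [genForm_apply] at h
  have hfun : (genForm τ₀ : ℍ → ℂ) = (E₆ τ₀ ^ 2) • ((E₄ : ℍ → ℂ) ^ 3) -
      (E₄ τ₀ ^ 3) • ((E₆ : ℍ → ℂ) ^ 2) := by
    ext τ
    rw [genForm_apply]
    simp only [Pi.sub_apply, Pi.smul_apply, Pi.pow_apply, smul_eq_mul]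
  have hE4 : MDiff (E₄ : ℍ → ℂ) := E₄.holo'
  have hE6 : MDiff (E₆ : ℍ → ℂ) := E₆.holo'
  have hD : normalizedDerivOfComplex (genForm τ₀) τ =
      E₆ τ₀ ^ 2 * (3 * E₄ τ ^ 2 * ((E2 τ * E₄ τ - E₆ τ) / 3)) -
      E₄ τ₀ ^ 3 * (2 * E₆ τ * ((E2 τ * E₆ τ - E₄ τ ^ 2) / 2)) := by
    have hE43 : MDiff ((E₄ : ℍ → ℂ) ^ 3) := hE4.pow 3
    have hE62 : MDiff ((E₆ : ℍ → ℂ) ^ 2) := hE6.pow 2
    rw [hfun, normalizedDerivOfComplex_sub _ _ (hE43.const_smul _) (hE62.const_smul _),
      normalizedDerivOfComplex_smul _ _ hE43, normalizedDerivOfComplex_smul _ _ hE62,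
      normalizedDerivOfComplex_pow _ _ hE4, normalizedDerivOfComplex_pow _ _ hE6]
    simp only [Pi.sub_apply, Pi.smul_apply, Pi.mul_apply, Pi.pow_apply, smul_eq_mul, D_E4, D_E6]
    simp
  have hα : E₆ τ₀ ^ 2 - E₄ τ₀ ^ 3 ≠ 0 := by
    have := discriminant_eq_E₄_cube_sub_E₆_sq τ₀
    intro h
    apply discriminant_ne_zero τ₀
    rw [this]
    linear_combination (-1 / 1728) * h
  have h4' : E₄ τ ≠ 0 := by
    intro h'
    rcases E4_ne_zero_or_E6_ne_zero τ with h | h6'
    · exact h h'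
    · rw [h'] at h
      have : E₄ τ₀ ^ 3 * E₆ τ ^ 2 ≠ 0 := mul_ne_zero (pow_ne_zero _ h4) (pow_ne_zero _ h6')
      exact this (by linear_combination -h)
  have h6' : E₆ τ ≠ 0 := by
    intro h'
    rw [h'] at h
    have : E₆ τ₀ ^ 2 * E₄ τ ^ 3 ≠ 0 := mul_ne_zero (pow_ne_zero _ h6) (pow_ne_zero _ h4')
    exact this (by linear_combination h)
  have h2 : normalizedDerivOfComplex (genForm τ₀) τ =
      -(E₄ τ ^ 2 * E₆ τ * (E₆ τ₀ ^ 2 - E₄ τ₀ ^ 3)) := by
    rw [hD]; linear_combination E2 τ * h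
  rw [h2]
  exact neg_ne_zero.2 (mul_ne_zero (mul_ne_zero (pow_ne_zero _ h4') h6') hα)

end Fermat.Agent.VVMF
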