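import Mathlib
import Fermat.Agent.VVMF.Divide

set_option autoImplicit false

open Filter Topology UpperHalfPlane ModularForm EisensteinSeries Derivative
open scoped MatrixGroups Manifold Topology ModularForm

namespace Fermat.Agent.VVMF

/-- Level one forms, as functions. -/
def R (k : ℤ) : Submodule ℂ (ℍ → ℂ) where
  carrier := {f | (∀ h : SL(2, ℤ), f ∣[k] h = f) ∧ MDiff f ∧ IsBoundedAtImInfty f}
  add_mem' {f g} hf hg :=
    ⟨fun h => by rw [SlashAction.add_slash, hf.1, hg.1], hf.2.1.add hg.2.1, hf.2.2.add hg.2.2⟩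
  zero_mem' := ⟨fun h => SlashAction.zero_slash _ _, mdifferentiable_const,
    zero_form_isBoundedAtImInfty⟩
  smul_mem' c f hf := ⟨fun h => by rw [SL_smul_slash, hf.1], hf.2.1.const_smul c,
    hf.2.2.smul c⟩

variable (Γ : Subgroup SL(2, ℤ))

/-- Vector valued forms. -/
def VM (k : ℤ) : Submodule ℂ ((SL(2, ℤ) ⧸ Γ) → ℍ → ℂ) where
  carrier := {F | (∀ (h : SL(2, ℤ)) (x : SL(2, ℤ) ⧸ Γ), F x ∣[k] h = F (h⁻¹ • x)) ∧
    (∀ x, MDiff (F x)) ∧ ∀ x, IsBoundedAtImInfty (F x)}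
  add_mem' {f g} hf hg :=
    ⟨fun h x => by simp only [Pi.add_apply, SlashAction.add_slash, hf.1, hg.1],
      fun x => (hf.2.1 x).add (hg.2.1 x), fun x => (hf.2.2 x).add (hg.2.2 x)⟩
  zero_mem' := ⟨fun h x => SlashAction.zero_slash _ _, fun x => mdifferentiable_const,
    fun x => zero_form_isBoundedAtImInfty⟩
  smul_mem' c f hf := ⟨fun h x => by simp only [Pi.smul_apply, SL_smul_slash, hf.1],
    fun x => (hf.2.1 x).const_smul c, fun x => (hf.2.2 x).smul c⟩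

/-- Vector valued cusp forms. -/
def VS (k : ℤ) : Submodule ℂ ((SL(2, ℤ) ⧸ Γ) → ℍ → ℂ) where
  carrier := {F | (∀ (h : SL(2, ℤ)) (x : SL(2, ℤ) ⧸ Γ), F x ∣[k] h = F (h⁻¹ • x)) ∧
    (∀ x, MDiff (F x)) ∧ ∀ x, IsZeroAtImInfty (F x)}
  add_mem' {f g} hf hg :=
    ⟨fun h x => by simp only [Pi.add_apply, SlashAction.add_slash, hf.1, hg.1],
      fun x => (hf.2.1 x).add (hg.2.1 x), fun x =>
        Filter.ZeroAtFilter.add (hf.2.2 x) (hg.2.2 x)⟩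
  zero_mem' := ⟨fun h x => SlashAction.zero_slash _ _, fun x => mdifferentiable_const,
    fun x => by exact tendsto_const_nhds⟩
  smul_mem' c f hf := ⟨fun h x => by simp only [Pi.smul_apply, SL_smul_slash, hf.1],
    fun x => (hf.2.1 x).const_smul c, fun x => Filter.ZeroAtFilter.smul c (hf.2.2 x)⟩

variable {Γ}

lemma VS_le_VM (k : ℤ) : VS Γ k ≤ VM Γ k := fun F hF =>
  ⟨hF.1, hF.2.1, fun x => (hF.2.2 x).isBoundedAtImInfty⟩

lemma R_mul {a b : ℤ} {f g : ℍ → ℂ} (hf : f ∈ R a) (hg : g ∈ R b) : f * g ∈ R (a + b) :=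
  ⟨fun h => by rw [mul_slash_SL2, hf.1, hg.1], hf.2.1.mul hg.2.1, hf.2.2.mul hg.2.2⟩

lemma R_mul' {a b c : ℤ} {f g : ℍ → ℂ} (hf : f ∈ R a) (hg : g ∈ R b) (h : a + b = c) :
    f * g ∈ R c := h ▸ R_mul hf hg

lemma R_one : (1 : ℍ → ℂ) ∈ R 0 :=
  ⟨fun h => is_invariant_one h, mdifferentiable_const,
    by exact Filter.const_boundedAtFilter _ (1 : ℂ)⟩

lemma R_pow {a : ℤ} {f : ℍ → ℂ} (hf : f ∈ R a) (n : ℕ) : f ^ n ∈ R (n * a) := by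
  induction n with
  | zero => simpa using R_one
  | succ n ih =>
    rw [pow_succ]
    exact R_mul' ih hf (by push_cast; ring)

lemma VM_mul {a b : ℤ} {f : ℍ → ℂ} {F : (SL(2, ℤ) ⧸ Γ) → ℍ → ℂ} (hf : f ∈ R a)
    (hF : F ∈ VM Γ b) : (fun x => f * F x) ∈ VM Γ (a + b) :=
  ⟨fun h x => by rw [mul_slash_SL2, hf.1, hF.1], fun x => hf.2.1.mul (hF.2.1 x),
    fun x => hf.2.2.mul (hF.2.2 x)⟩

lemma VM_mul' {a b c : ℤ} {f : ℍ → ℂ} {F : (SL(2, ℤ) ⧸ Γ) → ℍ → ℂ} (hf : f ∈ R a)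
    (hF : F ∈ VM Γ b) (h : a + b = c) : (fun x => f * F x) ∈ VM Γ c := h ▸ VM_mul hf hF

lemma E4_mem : (E₄ : ℍ → ℂ) ∈ R 4 :=
  ⟨fun h => E₄.slash_action_eq' _ ⟨h, rfl⟩, E₄.holo', ModularFormClass.bdd_at_infty E₄⟩

lemma E6_mem : (E₆ : ℍ → ℂ) ∈ R 6 :=
  ⟨fun h => E₆.slash_action_eq' _ ⟨h, rfl⟩, E₆.holo', ModularFormClass.bdd_at_infty E₆⟩

lemma coe_mem_R {k : ℤ} (f : ModularForm 𝒮ℒ k) : (f : ℍ → ℂ) ∈ R k :=
  ⟨fun h => f.slash_action_eq' _ ⟨h, rfl⟩, f.holo', ModularFormClass.bdd_at_infty f⟩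

/-- `R k` is the space of modular forms of level one. -/
noncomputable def REquiv (k : ℤ) : R k ≃ₗ[ℂ] ModularForm 𝒮ℒ k where
  toFun f :=
    { toFun := f.1
      slash_action_eq' := by rintro _ ⟨γ, rfl⟩; exact f.2.1 γ
      holo' := f.2.2.1
      bdd_at_cusps' := fun {c} hc => by
        rw [OnePoint.isBoundedAt_iff_forall_SL2Z hc]
        intro γ _
        have := f.2.1 γ
        change IsBoundedAtImInfty (f.1 ∣[k] γ)
        rw [this]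
        exact f.2.2.2 }
  invFun f := ⟨f, coe_mem_R f⟩
  map_add' f g := rfl
  map_smul' c f := rfl
  left_inv f := rfl
  right_inv f := rfl

section Equiv

variable [Γ.FiniteIndex]

lemma slash_invariant_of_mem {k : ℤ} {f : ℍ → ℂ} {Γ : Subgroup SL(2, ℤ)}
    (hf : ∀ γ ∈ Γ, f ∣[k] γ = f) (g g' : SL(2, ℤ)) (h : (g : SL(2, ℤ) ⧸ Γ) = g') :
    f ∣[k] g⁻¹ = f ∣[k] g'⁻¹ := by
  rw [QuotientGroup.eq] at h
  have : g'⁻¹ = (g⁻¹ * g')⁻¹ * g⁻¹ := by group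
  rw [this, SlashAction.slash_mul, hf _ (inv_mem h)]

/-- vector of a form -/
noncomputable def toVec (Γ : Subgroup SL(2, ℤ)) (k : ℤ) (f : ℍ → ℂ) : (SL(2, ℤ) ⧸ Γ) → ℍ → ℂ :=
  fun x => f ∣[k] (x.out)⁻¹

lemma toVec_mk {k : ℤ} {f : ℍ → ℂ} (hf : ∀ γ ∈ Γ, f ∣[k] γ = f) (g : SL(2, ℤ)) :
    toVec Γ k f (g : SL(2, ℤ) ⧸ Γ) = f ∣[k] g⁻¹ :=
  slash_invariant_of_mem hf _ _ (by simp)

lemma toVec_slash {k : ℤ} {f : ℍ → ℂ} (hf : ∀ γ ∈ Γ, f ∣[k] γ = f) (h : SL(2, ℤ))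
    (x : SL(2, ℤ) ⧸ Γ) : toVec Γ k f x ∣[k] h = toVec Γ k f (h⁻¹ • x) := by
  induction x using QuotientGroup.induction_on with
  | H g =>
    rw [toVec_mk hf, ← SlashAction.slash_mul]
    have : h⁻¹ • (g : SL(2, ℤ) ⧸ Γ) = ((h⁻¹ * g : SL(2, ℤ)) : SL(2, ℤ) ⧸ Γ) := rfl
    rw [this, toVec_mk hf]
    congr 1
    group

lemma form_inv {k : ℤ} (f : ModularForm Γ k) (γ : SL(2, ℤ)) (hγ : γ ∈ Γ) :
    (f : ℍ → ℂ) ∣[k] γ = f := f.slash_action_eq' _ ⟨γ, hγ, rfl⟩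

lemma cform_inv {k : ℤ} (f : CuspForm Γ k) (γ : SL(2, ℤ)) (hγ : γ ∈ Γ) :
    (f : ℍ → ℂ) ∣[k] γ = f := f.slash_action_eq' _ ⟨γ, hγ, rfl⟩

lemma toVec_mem_VM {k : ℤ} (f : ModularForm Γ k) : toVec Γ k f ∈ VM Γ k :=
  ⟨toVec_slash (form_inv f), fun x => f.holo'.slash k _,
    fun x => ModularFormClass.bdd_at_infty_slash f _⟩

lemma toVec_mem_VS {k : ℤ} (f : CuspForm Γ k) : toVec Γ k f ∈ VS Γ k :=
  ⟨toVec_slash (cform_inv f), fun x => f.holo'.slash k _,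
    fun x => CuspFormClass.zero_at_infty_slash f _⟩

noncomputable def VMEquiv (Γ : Subgroup SL(2, ℤ)) [Γ.FiniteIndex] (k : ℤ) :
    ModularForm Γ k ≃ₗ[ℂ] VM Γ k where
  toFun f := ⟨toVec Γ k f, toVec_mem_VM f⟩
  invFun F :=
    { toFun := F.1 ((1 : SL(2, ℤ)) : SL(2, ℤ) ⧸ Γ)
      slash_action_eq' := by
        rintro _ ⟨γ, hγ, rfl⟩
        have h1 := F.2.1 γ ((1 : SL(2, ℤ)) : SL(2, ℤ) ⧸ Γ)
        have h2 : γ⁻¹ • ((1 : SL(2, ℤ)) : SL(2, ℤ) ⧸ Γ) = ((1 : SL(2, ℤ)) : SL(2, ℤ) ⧸ Γ) := by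
          rw [show γ⁻¹ • ((1 : SL(2, ℤ)) : SL(2, ℤ) ⧸ Γ) = ((γ⁻¹ * 1 : SL(2, ℤ)) : SL(2, ℤ) ⧸ Γ)
            from rfl, QuotientGroup.eq]
          simpa using hγ
        rw [h2] at h1
        exact h1
      holo' := F.2.2.1 _
      bdd_at_cusps' := fun {c} hc => by
        rw [Subgroup.IsArithmetic.isCusp_iff_isCusp_SL2Z] at hc
        rw [OnePoint.isBoundedAt_iff_forall_SL2Z hc]
        intro γ _
        have := F.2.1 γ ((1 : SL(2, ℤ)) : SL(2, ℤ) ⧸ Γ)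
        change IsBoundedAtImInfty (F.1 ((1 : SL(2, ℤ)) : SL(2, ℤ) ⧸ Γ) ∣[k] γ)
        rw [this]
        exact F.2.2.2 _ }
  map_add' f g := by
    apply Subtype.ext
    funext x
    exact SlashAction.add_slash _ _ _ _
  map_smul' c f := by
    apply Subtype.ext
    funext x
    exact SL_smul_slash _ _ _ _
  left_inv f := by
    apply ModularForm.ext
    intro τ
    change toVec Γ k f ((1 : SL(2, ℤ)) : SL(2, ℤ) ⧸ Γ) τ = f τ
    rw [toVec_mk (form_inv f)]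
    simp
  right_inv F := by
    apply Subtype.ext
    funext x
    change toVec Γ k (F.1 ((1 : SL(2, ℤ)) : SL(2, ℤ) ⧸ Γ)) x = F.1 x
    unfold toVec
    rw [F.2.1]
    congr 1
    rw [inv_inv, show x.out • ((1 : SL(2, ℤ)) : SL(2, ℤ) ⧸ Γ) =
      ((x.out * 1 : SL(2, ℤ)) : SL(2, ℤ) ⧸ Γ) from rfl]
    simp

noncomputable def VSEquiv (Γ : Subgroup SL(2, ℤ)) [Γ.FiniteIndex] (k : ℤ) :
    CuspForm Γ k ≃ₗ[ℂ] VS Γ k where
  toFun f := ⟨toVec Γ k f, toVec_mem_VS f⟩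
  invFun F :=
    { toFun := F.1 ((1 : SL(2, ℤ)) : SL(2, ℤ) ⧸ Γ)
      slash_action_eq' := by
        rintro _ ⟨γ, hγ, rfl⟩
        have h1 := F.2.1 γ ((1 : SL(2, ℤ)) : SL(2, ℤ) ⧸ Γ)
        have h2 : γ⁻¹ • ((1 : SL(2, ℤ)) : SL(2, ℤ) ⧸ Γ) = ((1 : SL(2, ℤ)) : SL(2, ℤ) ⧸ Γ) := by
          rw [show γ⁻¹ • ((1 : SL(2, ℤ)) : SL(2, ℤ) ⧸ Γ) = ((γ⁻¹ * 1 : SL(2, ℤ)) : SL(2, ℤ) ⧸ Γ)
            from rfl, QuotientGroup.eq]
          simpa using hγ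
        rw [h2] at h1
        exact h1
      holo' := F.2.2.1 _
      zero_at_cusps' := fun {c} hc => by
        rw [Subgroup.IsArithmetic.isCusp_iff_isCusp_SL2Z] at hc
        rw [OnePoint.isZeroAt_iff_forall_SL2Z hc]
        intro γ _
        have := F.2.1 γ ((1 : SL(2, ℤ)) : SL(2, ℤ) ⧸ Γ)
        change IsZeroAtImInfty (F.1 ((1 : SL(2, ℤ)) : SL(2, ℤ) ⧸ Γ) ∣[k] γ)
        rw [this]
        exact F.2.2.2 _ }
  map_add' f g := by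
    apply Subtype.ext
    funext x
    exact SlashAction.add_slash _ _ _ _
  map_smul' c f := by
    apply Subtype.ext
    funext x
    exact SL_smul_slash _ _ _ _
  left_inv f := by
    apply CuspForm.ext
    intro τ
    change toVec Γ k f ((1 : SL(2, ℤ)) : SL(2, ℤ) ⧸ Γ) τ = f τ
    rw [toVec_mk (cform_inv f)]
    simp
  right_inv F := by
    apply Subtype.ext
    funext x
    change toVec Γ k (F.1 ((1 : SL(2, ℤ)) : SL(2, ℤ) ⧸ Γ)) x = F.1 x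
    unfold toVec
    rw [F.2.1]
    congr 1
    rw [inv_inv, show x.out • ((1 : SL(2, ℤ)) : SL(2, ℤ) ⧸ Γ) =
      ((x.out * 1 : SL(2, ℤ)) : SL(2, ℤ) ⧸ Γ) from rfl]
    simp

end Equiv

end Fermat.Agent.VVMF
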