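import Mathlib
import Fermat.Prelude.Def_ModularCurve_GenusNumerics
import Fermat.Agent.VVMF.VForm
import Fermat.Agent.Gamma0Count

/-!
# Numerical part of the dimension formula

From the structure theorem for vector valued modular forms on `SL(2, ℤ) ⧸ Γ₀(N)` to
`dim S₂(Γ₀(N)) = genusFormula N`.
-/

set_option autoImplicit false

open UpperHalfPlane ModularForm CongruenceSubgroup
open scoped MatrixGroups ModularForm

namespace Fermat.Agent.VVMF

/-! ### Dimension of level one spaces -/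

theorem finrank_R_eq (k : ℤ) : Module.finrank ℂ (R k) = Module.finrank ℂ (ModularForm 𝒮ℒ k) :=
  (REquiv k).finrank_eq

theorem finrank_R_neg {k : ℤ} (hk : k < 0) : Module.finrank ℂ (R k) = 0 := by
  rw [finrank_R_eq]
  exact Module.finrank_eq_of_rank_eq (by rw [levelOne_neg_weight_rank_zero hk]; rfl)

theorem finrank_R_even (m : ℕ) : Module.finrank ℂ (R (2 * (m : ℤ))) =
    if 2 * m ≡ 2 [MOD 12] then 2 * m / 12 else 2 * m / 12 + 1 := by
  rw [finrank_R_eq]
  refine Module.finrank_eq_of_rank_eq ?_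
  have := dimension_level_one (2 * m) (even_two_mul m)
  push_cast at this
  rw [this]
  split_ifs <;> push_cast <;> rfl

theorem finrank_R_even' {k : ℤ} (m : ℕ) (hk : k = 2 * (m : ℤ)) : Module.finrank ℂ (R k) =
    if 2 * m ≡ 2 [MOD 12] then 2 * m / 12 else 2 * m / 12 + 1 := by
  rw [hk, finrank_R_even]

/-! ### Small weights for a finite index subgroup -/

section SmallWeight

variable (Γ : Subgroup SL(2, ℤ)) [Γ.FiniteIndex]

theorem finrank_VM_neg {k : ℤ} (hk : k < 0) : Module.finrank ℂ (VM Γ k) = 0 := by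
  rw [← (VMEquiv Γ k).finrank_eq]
  have : Subsingleton (ModularForm (Γ : Subgroup (GL (Fin 2) ℝ)) k) :=
    ⟨fun a b => by rw [ModularForm.isZero_of_neg_weight hk a, ModularForm.isZero_of_neg_weight hk b]⟩
  exact Module.finrank_zero_of_subsingleton

theorem finrank_VM_zero : Module.finrank ℂ (VM Γ 0) = 1 := by
  rw [← (VMEquiv Γ 0).finrank_eq]
  refine finrank_eq_one (v := (ModularForm.const 1 : ModularForm (Γ : Subgroup (GL (Fin 2) ℝ)) 0))
    ?_ ?_
  · intro h
    have := congrArg (fun f : ModularForm (Γ : Subgroup (GL (Fin 2) ℝ)) 0 => f I) h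
    simp at this
  · intro f
    obtain ⟨c, hc⟩ := ModularForm.eq_const_of_weight_zero f
    refine ⟨c, ?_⟩
    ext τ
    simp [hc]

theorem finrank_VS_nonpos {k : ℤ} (hk : k ≤ 0) : Module.finrank ℂ (VS Γ k) = 0 := by
  have : Subsingleton (VS Γ k) := by
    refine ⟨fun a b => ?_⟩
    have key : ∀ F : VS Γ k, F = 0 := by
      intro F
      rcases hk.lt_or_eq with hk | rfl
      · have h0 : (⟨F.1, VS_le_VM k F.2⟩ : VM Γ k) = 0 := by
          obtain ⟨f, hf⟩ := (VMEquiv Γ k).surjective ⟨F.1, VS_le_VM k F.2⟩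
          rw [← hf, ModularForm.isZero_of_neg_weight hk f, map_zero]
        exact Subtype.ext (by simpa using congrArg Subtype.val h0)
      · obtain ⟨f, hf⟩ := (VMEquiv Γ 0).surjective ⟨F.1, VS_le_VM 0 F.2⟩
        obtain ⟨c, hc⟩ := ModularForm.eq_const_of_weight_zero f
        have hx : ∀ x, F.1 x = fun _ => c := by
          intro x
          have h1 : F.1 = toVec Γ 0 f := (congrArg Subtype.val hf).symm
          rw [h1, toVec, hc]
          exact ModularForm.is_invariant_const _ c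
        have hc0 : c = 0 := by
          have h2 := F.2.2.2 ((1 : SL(2, ℤ)) : SL(2, ℤ) ⧸ Γ)
          rw [hx] at h2
          exact tendsto_nhds_unique tendsto_const_nhds h2
        apply Subtype.ext
        funext x
        rw [hx, hc0]
        rfl
    rw [key a, key b]
  exact Module.finrank_zero_of_subsingleton

end SmallWeight

/-! ### Linear arithmetic -/

/-- Sum over the values of a function with values `< 6`. -/
theorem sum_comp_lt_six {ι M : Type*} [Fintype ι] [AddCommMonoid M] (κ : ι → ℕ)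
    (h : ∀ l, κ l < 6) (f : ℕ → M) :
    ∑ l, f (κ l) = ∑ j ∈ Finset.range 6, (Finset.univ.filter fun l => κ l = j).card • f j := by
  classical
  rw [← Finset.sum_fiberwise_of_maps_to (s := Finset.univ) (t := Finset.range 6) (g := κ)
    (fun l _ => Finset.mem_range.mpr (h l))]
  refine Finset.sum_congr rfl fun j _ => ?_
  rw [Finset.sum_congr rfl (g := fun _ => f j), Finset.sum_const]
  intro l hl
  rw [(Finset.mem_filter.mp hl).2]

/-- Linear independence of `1, ω` over `ℤ`. -/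
theorem eq_zero_of_add_mul_root {ω : ℂ} (h1 : 1 + ω + ω ^ 2 = 0) (h3 : ω ^ 3 = 1) {p q : ℤ}
    (h : (p : ℂ) + q * ω = 0) : p = 0 ∧ q = 0 := by
  have h2 : ((p ^ 2 - p * q + q ^ 2 : ℤ) : ℂ) = 0 := by
    push_cast
    linear_combination (p + q * ω ^ 2 : ℂ) * h - (p * q : ℂ) * h1 - (q ^ 2 : ℂ) * h3
  have h4 : p ^ 2 - p * q + q ^ 2 = 0 := by exact_mod_cast h2
  constructor <;> nlinarith [sq_nonneg (p - q), sq_nonneg (p + q), sq_nonneg p, sq_nonneg q]

open ModularGroup in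
/-- From the structure theorem to the dimension formula. -/
theorem finrank_cuspForm_eq_genusFormula (N : ℕ) [NeZero N] [Fintype (SL(2, ℤ) ⧸ Gamma0 N)]
    (κ : (SL(2, ℤ) ⧸ Gamma0 N) → ℕ)
    (hM : ∀ k : ℤ, Module.finrank ℂ (VM (Gamma0 N) k) =
      ∑ l, Module.finrank ℂ (R (k - 2 * (κ l : ℤ))))
    (hS : ∀ k : ℤ, Module.finrank ℂ (VS (Gamma0 N) k) =
      ∑ l, Module.finrank ℂ (R (k - 12 + 2 * (κ l : ℤ))))
    (hc : Module.finrank ℂ (VM (Gamma0 N) 24) = Module.finrank ℂ (VS (Gamma0 N) 24) +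
      Nat.card (MulAction.orbitRel.Quotient (Subgroup.zpowers T) (SL(2, ℤ) ⧸ Gamma0 N)))
    (h2 : ∑ l, (-1 : ℂ) ^ (κ l) = Nat.card {q : SL(2, ℤ) ⧸ Gamma0 N // S • q = q})
    (h3 : ∃ ω : ℂ, IsPrimitiveRoot ω 3 ∧
      ∑ l, ω ^ (κ l) = Nat.card {q : SL(2, ℤ) ⧸ Gamma0 N // (S * T) • q = q}) :
    (Module.finrank ℂ (CuspForm (Gamma0 N) 2) : ℚ) = ModularCurve.genusFormula N := by
  classical
  rw [Fermat.Agent.Gamma0Count.card_fixed_S] at h2
  rw [Fermat.Agent.Gamma0Count.card_fixed_ST] at h3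
  rw [Fermat.Agent.Gamma0Count.card_T_orbits] at hc
  have hcard : ∑ _l : SL(2, ℤ) ⧸ Gamma0 N, 1 = ModularCurve.dedekindPsi N := by
    rw [← Fermat.Agent.Gamma0Count.card_quotient N, Nat.card_eq_fintype_card]
    simp
  -- the weights are at most `10`
  have hlt : ∀ l, κ l < 6 := by
    intro l
    have h0 := hS 0
    have h1 := hS (-2)
    rw [finrank_VS_nonpos _ le_rfl, eq_comm, Finset.sum_eq_zero_iff] at h0
    rw [finrank_VS_nonpos _ (by norm_num), eq_comm, Finset.sum_eq_zero_iff] at h1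
    by_contra hl
    push Not at hl
    obtain ⟨m, hm⟩ := Nat.exists_eq_add_of_le hl
    have h0l := h0 l (Finset.mem_univ l)
    have h1l := h1 l (Finset.mem_univ l)
    rw [finrank_R_even' m (by rw [hm]; push_cast; ring)] at h0l
    by_cases hm1 : m = 1
    · subst hm1
      rw [finrank_R_even' 0 (by rw [hm]; norm_num)] at h1l
      simp [Nat.ModEq] at h1l
    · split_ifs at h0l with h
      simp only [Nat.ModEq] at h
      omega
  -- all sums in terms of the multiplicities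
  obtain ⟨a, keyN, keyC⟩ : ∃ a : ℕ → ℕ,
      (∀ f : ℕ → ℕ, ∑ l, f (κ l) = ∑ j ∈ Finset.range 6, a j • f j) ∧
      (∀ f : ℕ → ℂ, ∑ l, f (κ l) = ∑ j ∈ Finset.range 6, a j • f j) :=
    ⟨fun j => (Finset.univ.filter fun l => κ l = j).card, sum_comp_lt_six κ hlt,
      sum_comp_lt_six κ hlt⟩
  have e0 : a 0 = 1 := by
    have h := hM 0
    rw [finrank_VM_zero, keyN (fun j => Module.finrank ℂ (R (0 - 2 * (j : ℤ))))] at h
    simp only [Finset.sum_range_succ, Finset.sum_range_zero] at h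
    rw [finrank_R_even' (k := 0 - 2 * ((0 : ℕ) : ℤ)) 0 (by norm_num),
      finrank_R_neg (k := 0 - 2 * ((1 : ℕ) : ℤ)) (by norm_num),
      finrank_R_neg (k := 0 - 2 * ((2 : ℕ) : ℤ)) (by norm_num),
      finrank_R_neg (k := 0 - 2 * ((3 : ℕ) : ℤ)) (by norm_num),
      finrank_R_neg (k := 0 - 2 * ((4 : ℕ) : ℤ)) (by norm_num),
      finrank_R_neg (k := 0 - 2 * ((5 : ℕ) : ℤ)) (by norm_num)] at h
    simp [Nat.ModEq] at h
    exact h.symm
  have e24 : Module.finrank ℂ (VM (Gamma0 N) 24) =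
      3 * a 0 + 2 * a 1 + 2 * a 2 + 2 * a 3 + 2 * a 4 + a 5 := by
    rw [hM, keyN (fun j => Module.finrank ℂ (R (24 - 2 * (j : ℤ))))]
    simp only [Finset.sum_range_succ, Finset.sum_range_zero]
    rw [finrank_R_even' (k := 24 - 2 * ((0 : ℕ) : ℤ)) 12 (by norm_num),
      finrank_R_even' (k := 24 - 2 * ((1 : ℕ) : ℤ)) 11 (by norm_num),
      finrank_R_even' (k := 24 - 2 * ((2 : ℕ) : ℤ)) 10 (by norm_num),
      finrank_R_even' (k := 24 - 2 * ((3 : ℕ) : ℤ)) 9 (by norm_num),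
      finrank_R_even' (k := 24 - 2 * ((4 : ℕ) : ℤ)) 8 (by norm_num),
      finrank_R_even' (k := 24 - 2 * ((5 : ℕ) : ℤ)) 7 (by norm_num)]
    simp [Nat.ModEq]
    ring
  have s24 : Module.finrank ℂ (VS (Gamma0 N) 24) =
      2 * a 0 + a 1 + 2 * a 2 + 2 * a 3 + 2 * a 4 + 2 * a 5 := by
    rw [hS, keyN (fun j => Module.finrank ℂ (R (24 - 12 + 2 * (j : ℤ))))]
    simp only [Finset.sum_range_succ, Finset.sum_range_zero]
    rw [finrank_R_even' (k := 24 - 12 + 2 * ((0 : ℕ) : ℤ)) 6 (by norm_num),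
      finrank_R_even' (k := 24 - 12 + 2 * ((1 : ℕ) : ℤ)) 7 (by norm_num),
      finrank_R_even' (k := 24 - 12 + 2 * ((2 : ℕ) : ℤ)) 8 (by norm_num),
      finrank_R_even' (k := 24 - 12 + 2 * ((3 : ℕ) : ℤ)) 9 (by norm_num),
      finrank_R_even' (k := 24 - 12 + 2 * ((4 : ℕ) : ℤ)) 10 (by norm_num),
      finrank_R_even' (k := 24 - 12 + 2 * ((5 : ℕ) : ℤ)) 11 (by norm_num)]
    simp [Nat.ModEq]
    ring
  have s2 : Module.finrank ℂ (CuspForm (Gamma0 N) 2) = a 5 := by
    rw [(VSEquiv (Gamma0 N) 2).finrank_eq, hS,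
      keyN (fun j => Module.finrank ℂ (R (2 - 12 + 2 * (j : ℤ))))]
    simp only [Finset.sum_range_succ, Finset.sum_range_zero]
    rw [finrank_R_even' (k := 2 - 12 + 2 * ((5 : ℕ) : ℤ)) 0 (by norm_num),
      finrank_R_neg (k := 2 - 12 + 2 * ((0 : ℕ) : ℤ)) (by norm_num),
      finrank_R_neg (k := 2 - 12 + 2 * ((1 : ℕ) : ℤ)) (by norm_num),
      finrank_R_neg (k := 2 - 12 + 2 * ((2 : ℕ) : ℤ)) (by norm_num),
      finrank_R_neg (k := 2 - 12 + 2 * ((3 : ℕ) : ℤ)) (by norm_num),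
      finrank_R_neg (k := 2 - 12 + 2 * ((4 : ℕ) : ℤ)) (by norm_num)]
    simp [Nat.ModEq]
  have etot : a 0 + a 1 + a 2 + a 3 + a 4 + a 5 = ModularCurve.dedekindPsi N := by
    rw [← hcard, keyN (fun _ => 1)]
    simp only [Finset.sum_range_succ, Finset.sum_range_zero]
    simp
  have ecusp : (a 0 : ℤ) + a 1 - a 5 = ModularCurve.cuspCount N := by
    rw [e24, s24] at hc
    omega
  have e2 : (a 0 : ℤ) - a 1 + a 2 - a 3 + a 4 - a 5 = ModularCurve.nuTwo N := by
    rw [keyC (fun j => (-1) ^ j)] at h2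
    simp only [Finset.sum_range_succ, Finset.sum_range_zero] at h2
    have : (((a 0 : ℤ) - a 1 + a 2 - a 3 + a 4 - a 5 : ℤ) : ℂ) =
        ((ModularCurve.nuTwo N : ℤ) : ℂ) := by
      push_cast
      rw [← h2]
      simp
      ring
    exact_mod_cast this
  have e3 : (a 0 : ℤ) + a 3 - a 1 - a 4 = ModularCurve.nuThree N ∧
      (a 1 : ℤ) + a 4 = a 2 + a 5 := by
    obtain ⟨ω, hω, h3⟩ := h3
    rw [keyC (fun j => ω ^ j)] at h3
    simp only [Finset.sum_range_succ, Finset.sum_range_zero] at h3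
    have h1 : 1 + ω + ω ^ 2 = 0 := by
      have h := hω.geom_sum_eq_zero (by norm_num)
      simpa [Finset.sum_range_succ] using h
    have hcube : ω ^ 3 = 1 := hω.pow_eq_one
    have hpq : (((a 0 : ℤ) + a 3 - ModularCurve.nuThree N - (a 2 + a 5) : ℤ) : ℂ) +
        (((a 1 : ℤ) + a 4 - (a 2 + a 5) : ℤ) : ℂ) * ω = 0 := by
      simp only [nsmul_eq_mul] at h3
      push_cast
      linear_combination h3 - (a 3 + a 4 * ω + a 5 * ω ^ 2 : ℂ) * hcube +
        (-(a 2 : ℂ) - a 5) * h1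
    obtain ⟨hp, hq⟩ := eq_zero_of_add_mul_root h1 hcube hpq
    omega
  obtain ⟨e3, e3'⟩ := e3
  rw [s2, ModularCurve.genusFormula, ← etot]
  have e2' : (ModularCurve.nuTwo N : ℚ) = a 0 - a 1 + a 2 - a 3 + a 4 - a 5 := by
    exact_mod_cast e2.symm
  have e3'' : (ModularCurve.nuThree N : ℚ) = a 0 + a 3 - a 1 - a 4 := by
    exact_mod_cast e3.symm
  have ec' : (ModularCurve.cuspCount N : ℚ) = a 0 + a 1 - a 5 := by
    exact_mod_cast ecusp.symm
  have e4 : (a 1 : ℚ) + a 4 = a 2 + a 5 := by exact_mod_cast e3'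
  have e0' : (a 0 : ℚ) = 1 := by exact_mod_cast e0
  rw [e2', e3'', ec']
  push_cast
  linarith

end Fermat.Agent.VVMF
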