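import Mathlib
import Fermat.Agent.ES.HomBound

set_option autoImplicit false

/-! The dimension of the space of invariant functions is the number of orbits. -/

namespace Fermat.Agent.VVMF

variable {G : Type*} [Group G] {Y : Type*} [MulAction G Y]

/-- `g`-invariant functions are functions on the set of `⟨g⟩`-orbits. -/
noncomputable def invsEquiv (g : G) :
    ES.invs (X := Y) g ≃ₗ[ℂ] (MulAction.orbitRel.Quotient (Subgroup.zpowers g) Y → ℂ) where
  toFun v := fun q => Quotient.lift v.1 (fun a b hab => by
    have hv := (ES.mem_invs g v.1).mp v.2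
    have hz : ∀ n : ℤ, ∀ x, v.1 (g ^ n • x) = v.1 x := by
      intro n
      induction n using Int.induction_on with
      | zero => intro x; simp
      | succ n ih => intro x; rw [zpow_add_one, mul_smul, ih, hv]
      | pred n ih =>
        intro x
        have h1 := hv (g ^ (-(n : ℤ) - 1) • x)
        rw [← mul_smul, ← zpow_one_add, show (1 : ℤ) + (-(n : ℤ) - 1) = -n by ring] at h1
        rw [← h1, ih]
    obtain ⟨⟨h, hh⟩, hab⟩ := hab
    obtain ⟨n, rfl⟩ := Subgroup.mem_zpowers_iff.mp hh
    rw [← hab]
    exact hz n b) q
  map_add' v w := by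
    funext q
    induction q using Quotient.inductionOn with
    | h y => rfl
  map_smul' c v := by
    funext q
    induction q using Quotient.inductionOn with
    | h y => rfl
  invFun w := ⟨fun y => w (Quotient.mk _ y), by
    rw [ES.mem_invs]
    intro x
    congr 1
    rw [Quotient.eq]
    exact ⟨⟨g, Subgroup.mem_zpowers g⟩, rfl⟩⟩
  left_inv v := rfl
  right_inv w := by
    funext q
    induction q using Quotient.inductionOn with
    | h y => rfl

theorem finrank_invs [Finite Y] (g : G) :
    Module.finrank ℂ (ES.invs (X := Y) g) =
      Nat.card (MulAction.orbitRel.Quotient (Subgroup.zpowers g) Y) := by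
  have : Finite (MulAction.orbitRel.Quotient (Subgroup.zpowers g) Y) := Quotient.finite _
  have := Fintype.ofFinite (MulAction.orbitRel.Quotient (Subgroup.zpowers g) Y)
  rw [(invsEquiv (Y := Y) g).finrank_eq, Module.finrank_fintype_fun_eq_card,
    Nat.card_eq_fintype_card]

end Fermat.Agent.VVMF
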