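import Mathlib
import Fermat.Agent.VVMF.VForm

set_option autoImplicit false

open Filter Topology UpperHalfPlane ModularForm EisensteinSeries Derivative
open scoped MatrixGroups Manifold Topology ModularForm

namespace Fermat.Agent.VVMF

local notation "𝕢" => Function.Periodic.qParam

lemma periodic_ofComplex {f : ℍ → ℂ} (h : ∀ τ : ℍ, f ((1 : ℝ) +ᵥ τ) = f τ) :
    Function.Periodic (f ∘ ofComplex) 1 := by
  intro w
  by_cases! hw : 0 < Complex.im w
  · have h1 : 0 < Complex.im (w + 1) := by simp [hw]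
    simp only [Function.comp_apply, ofComplex_apply_of_im_pos h1, ofComplex_apply_of_im_pos hw]
    rw [← h ⟨w, hw⟩]
    congr 1
    apply UpperHalfPlane.ext
    simp [add_comm]
  · have : Complex.im (w + 1) ≤ 0 := by simpa using hw
    simp [ofComplex_apply_of_im_nonpos this, ofComplex_apply_of_im_nonpos hw]

/-- limit at infinity of a bounded periodic function, with exponential decay -/
lemma exists_limit_of_bounded {f : ℍ → ℂ} (hper : ∀ τ : ℍ, f ((1 : ℝ) +ᵥ τ) = f τ)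
    (hf : MDiff f) (hb : IsBoundedAtImInfty f) :
    ∃ L : ℂ, Tendsto f atImInfty (𝓝 L) ∧
      (L = 0 → f =O[atImInfty] fun τ => Real.exp (-2 * Real.pi * τ.im)) := by
  have hper' := periodic_ofComplex hper
  have ha : AnalyticAt ℂ (cuspFunction 1 f) 0 :=
    analyticAt_cuspFunction_zero one_pos (by simpa using hper') hf hb
  have h1 : Tendsto (fun τ : ℍ => 𝕢 1 (τ : ℂ)) atImInfty (𝓝 0) := qParam_tendsto_atImInfty one_pos
  have h3 := ha.continuousAt.tendsto.comp h1
  have h4 : Tendsto f atImInfty (𝓝 (cuspFunction 1 f 0)) :=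
    h3.congr fun τ => eq_cuspFunction τ one_ne_zero (by simpa using hper')
  refine ⟨_, h4, fun h0 => ?_⟩
  rw [h0] at h4
  have := IsZeroAtImInfty.exp_decay_atImInfty (f := f) h4 one_pos
    (by simpa using hper') hf hb
  simpa using this

lemma isBigO_exp_norm_qParam (τ : ℍ) : ‖𝕢 1 (τ : ℂ)‖ = Real.exp (-2 * Real.pi * τ.im) := by
  rw [Function.Periodic.norm_qParam]; simp

lemma qParam_mdiff (c : ℂ) : MDiff (fun τ : ℍ => Complex.exp (c * τ)) := by
  rw [UpperHalfPlane.mdifferentiable_iff]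
  have : DifferentiableOn ℂ (fun z : ℂ => Complex.exp (c * z)) upperHalfPlaneSet := by fun_prop
  refine this.congr ?_
  intro z hz
  simp [ofComplex_apply_of_im_pos hz]

/-- A periodic holomorphic function which is `o(|q|⁻¹)` is bounded. -/
lemma bounded_of_littleO {f : ℍ → ℂ} (hper : ∀ τ : ℍ, f ((1 : ℝ) +ᵥ τ) = f τ)
    (hf : MDiff f) (ho : Tendsto (fun τ : ℍ => 𝕢 1 (τ : ℂ) * f τ) atImInfty (𝓝 0)) :
    IsBoundedAtImInfty f := by
  have hq : MDiff (fun τ : ℍ => 𝕢 1 (τ : ℂ)) := by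
    have := qParam_mdiff (2 * Real.pi * Complex.I)
    simpa [Function.Periodic.qParam] using this
  have hχ : MDiff (fun τ : ℍ => 𝕢 1 (τ : ℂ) * f τ) := hq.mul hf
  have hperq : ∀ τ : ℍ, 𝕢 1 (((1 : ℝ) +ᵥ τ : ℍ) : ℂ) = 𝕢 1 (τ : ℂ) := by
    intro τ
    simp only [Function.Periodic.qParam, UpperHalfPlane.coe_vadd, Complex.ofReal_one, div_one]
    rw [mul_add, mul_one, Complex.exp_add, Complex.exp_two_pi_mul_I, one_mul]
  have hperχ : ∀ τ : ℍ, (fun τ : ℍ => 𝕢 1 (τ : ℂ) * f τ) ((1 : ℝ) +ᵥ τ) =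
      (fun τ : ℍ => 𝕢 1 (τ : ℂ) * f τ) τ := by
    intro τ
    simp only [hperq, hper]
  have := IsZeroAtImInfty.exp_decay_atImInfty (f := fun τ : ℍ => 𝕢 1 (τ : ℂ) * f τ) ho one_pos
    (by simpa using periodic_ofComplex (f := fun τ : ℍ => 𝕢 1 (τ : ℂ) * f τ) hperχ) hχ
    (ho.isBigO_one ℝ)
  have h2 : (fun τ : ℍ => (𝕢 1 (τ : ℂ))⁻¹) =O[atImInfty]
      fun τ : ℍ => (Real.exp (-2 * Real.pi * τ.im))⁻¹ := by
    apply Asymptotics.isBigO_of_le
    intro τ
    rw [norm_inv, isBigO_exp_norm_qParam, norm_inv, Real.norm_of_nonneg (Real.exp_pos _).le]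
  have h3 := this.mul h2
  simp only [Function.Periodic.qParam] at h3 ⊢
  refine Asymptotics.IsBigO.congr h3 ?_ ?_
  · intro τ
    have := Complex.exp_ne_zero (2 * Real.pi * Complex.I * τ / (1 : ℝ))
    field_simp
  · intro τ
    have := (Real.exp_pos (-2 * Real.pi * τ.im)).ne'
    simp only [div_one, Pi.one_apply]
    field_simp

/-- The main local lemma at infinity. -/
lemma twisted_limit (n : ℕ) (hn : 0 < n) (r : ℕ) (hr : r < n) {φ : ℍ → ℂ} (hφ : MDiff φ)
    (hb : IsBoundedAtImInfty φ)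
    (hper : ∀ τ : ℍ, φ ((1 : ℝ) +ᵥ τ) = Complex.exp (2 * Real.pi * Complex.I * r / n) * φ τ) :
    ∃ L : ℂ, Tendsto (fun τ : ℍ => Complex.exp (-(2 * Real.pi * Complex.I * r / n) * τ) * φ τ)
      atImInfty (𝓝 L) ∧
      (L = 0 → φ =O[atImInfty] fun τ => Real.exp (-2 * Real.pi * τ.im)) := by
  set c : ℂ := 2 * Real.pi * Complex.I * r / n with hc
  have hn' : (n : ℂ) ≠ 0 := Nat.cast_ne_zero.2 hn.ne'
  have hnr : (0 : ℝ) < n := Nat.cast_pos.2 hn
  set ψ : ℍ → ℂ := fun τ : ℍ => Complex.exp (-c * τ) * φ τ with hψ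
  have hψm : MDiff ψ := (qParam_mdiff (-c)).mul hφ
  have hψper : ∀ τ : ℍ, ψ ((1 : ℝ) +ᵥ τ) = ψ τ := by
    intro τ
    simp only [hψ, hper, UpperHalfPlane.coe_vadd, Complex.ofReal_one]
    rw [← mul_assoc, ← Complex.exp_add]
    congr 2
    ring
  have hnorm : ∀ τ : ℍ, ‖Complex.exp (-c * τ)‖ = Real.exp (2 * Real.pi * r / n * τ.im) := by
    intro τ
    rw [Complex.norm_exp]
    congr 1
    have : -c * (τ : ℂ) = ((-(2 * Real.pi * r / n) : ℝ) : ℂ) * (Complex.I * τ) := by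
      rw [hc]; push_cast; ring
    rw [this, Complex.re_ofReal_mul]
    simp
  have ho : Tendsto (fun τ : ℍ => 𝕢 1 (τ : ℂ) * ψ τ) atImInfty (𝓝 0) := by
    have h1 : Tendsto (fun τ : ℍ => 𝕢 1 (τ : ℂ) * Complex.exp (-c * τ)) atImInfty (𝓝 0) := by
      rw [tendsto_zero_iff_norm_tendsto_zero]
      have h2 : Tendsto (fun τ : ℍ => Real.exp (-(2 * Real.pi * (1 - r / n)) * τ.im))
          atImInfty (𝓝 0) := by
        apply Real.tendsto_exp_atBot.comp
        apply Tendsto.const_mul_atTop_of_neg _ tendsto_comap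
        have : (r : ℝ) / n < 1 := by
          rw [div_lt_one hnr]; exact_mod_cast hr
        have := Real.pi_pos
        nlinarith
      refine h2.congr ?_
      intro τ
      rw [norm_mul, hnorm, isBigO_exp_norm_qParam, ← Real.exp_add]
      congr 1
      ring
    have h2 := Filter.ZeroAtFilter.mul_boundedAtFilter h1 hb
    refine Tendsto.congr ?_ h2
    intro τ
    simp only [hψ, Pi.mul_apply]
    ring
  have hψb : IsBoundedAtImInfty ψ := bounded_of_littleO hψper hψm ho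
  obtain ⟨L, hL, hL0⟩ := exists_limit_of_bounded hψper hψm hψb
  refine ⟨L, hL, fun h0 => ?_⟩
  have h1 := hL0 h0
  have h2 : (fun τ : ℍ => Complex.exp (c * τ)) =O[atImInfty] fun _ : ℍ => (1 : ℝ) := by
    apply Asymptotics.isBigO_of_le
    intro τ
    have := hnorm τ
    rw [neg_mul, Complex.exp_neg, norm_inv] at this
    rw [inv_eq_iff_eq_inv] at this
    rw [this, norm_one, ← Real.exp_neg]
    apply Real.exp_le_one_iff.2
    have := τ.im_pos
    have := Real.pi_pos
    have : 0 ≤ 2 * Real.pi * r / n * τ.im := by positivity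
    linarith
  have h3 := h2.mul h1
  simp only [one_mul] at h3
  refine h3.congr_left ?_
  intro τ
  simp only [hψ]
  rw [← mul_assoc, ← Complex.exp_add]
  simp

end Fermat.Agent.VVMF
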