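import Mathlib
import Fermat.Agent.VVMF.AtInf

set_option autoImplicit false

open Filter Topology UpperHalfPlane ModularForm EisensteinSeries Derivative
open scoped MatrixGroups Manifold Topology ModularForm

namespace Fermat.Agent.VVMF

section Algebra

variable {A : Type*} [Ring A] [Algebra ℂ A]

/-- `r`-th spectral projection of an element with `t ^ n = 1`. -/
noncomputable def specProj (n : ℕ) (ζ : ℂ) (t : A) (r : ℕ) : A :=
  (n : ℂ)⁻¹ • ∑ s ∈ Finset.range n, (ζ⁻¹ ^ (r * s)) • t ^ s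

variable {n : ℕ} {ζ : ℂ} {t : A}

lemma sum_inv_pow (hζ : IsPrimitiveRoot ζ n) (s : ℕ) (hs : s < n) :
    ∑ r ∈ Finset.range n, ζ⁻¹ ^ (r * s) = if s = 0 then (n : ℂ) else 0 := by
  split_ifs with h
  · subst h; simp
  · have h1 : (ζ⁻¹ ^ s) ≠ 1 := by
      intro h'
      rw [inv_pow, inv_eq_one] at h'
      have := (hζ.pow_eq_one_iff_dvd s).1 h'
      exact h (Nat.eq_zero_of_dvd_of_lt this hs)
    have h2 : (ζ⁻¹ ^ s) ^ n = 1 := by
      rw [← pow_mul, mul_comm, pow_mul, inv_pow, hζ.pow_eq_one]; simp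
    have h3 := geom_sum_eq h1 n
    rw [h2, sub_self, zero_div] at h3
    rw [← h3]
    apply Finset.sum_congr rfl
    intro r _
    rw [← pow_mul, mul_comm]

lemma sum_specProj (hn : 0 < n) (hζ : IsPrimitiveRoot ζ n) :
    ∑ r ∈ Finset.range n, specProj n ζ t r = 1 := by
  have hn' : (n : ℂ) ≠ 0 := Nat.cast_ne_zero.2 hn.ne'
  unfold specProj
  rw [← Finset.smul_sum, Finset.sum_comm]
  have : ∀ s ∈ Finset.range n, ∑ r ∈ Finset.range n, (ζ⁻¹ ^ (r * s)) • t ^ s =
      if s = 0 then (n : ℂ) • (1 : A) else 0 := by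
    intro s hs
    rw [← Finset.sum_smul, sum_inv_pow hζ s (Finset.mem_range.1 hs)]
    split_ifs with h
    · subst h; simp
    · simp
  rw [Finset.sum_congr rfl this, Finset.sum_ite_eq' (Finset.range n) 0]
  simp [hn, smul_smul, hn']

lemma mul_specProj (hn : 0 < n) (hζ : IsPrimitiveRoot ζ n) (ht : t ^ n = 1) (r : ℕ) :
    t * specProj n ζ t r = ζ ^ r • specProj n ζ t r := by
  have hζ0 : ζ ≠ 0 := hζ.ne_zero hn.ne'
  unfold specProj
  rw [mul_smul_comm, smul_comm (ζ ^ r), Finset.mul_sum, Finset.smul_sum]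
  congr 1
  have h1 : ∀ s, t * (ζ⁻¹ ^ (r * s)) • t ^ s = ζ ^ r • ((ζ⁻¹ ^ (r * (s + 1))) • t ^ (s + 1)) := by
    intro s
    rw [mul_smul_comm, ← pow_succ', smul_smul]
    congr 1
    rw [mul_add, pow_add, mul_one]
    have : ζ ^ r * ζ⁻¹ ^ r = 1 := by rw [← mul_pow, mul_inv_cancel₀ hζ0, one_pow]
    linear_combination (-(ζ⁻¹ ^ (r * s))) * this
  simp_rw [h1]
  rw [← Finset.smul_sum, ← Finset.smul_sum]
  have h2 := Finset.sum_range_succ (fun s => (ζ⁻¹ ^ (r * s)) • t ^ s) n
  have h3 := Finset.sum_range_succ' (fun s => (ζ⁻¹ ^ (r * s)) • t ^ s) n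
  rw [h3] at h2
  have h4 : (ζ⁻¹ ^ (r * n)) • t ^ n = (ζ⁻¹ ^ (r * 0)) • t ^ 0 := by
    rw [ht, mul_comm, pow_mul, inv_pow, hζ.pow_eq_one]; simp
  rw [h4] at h2
  rw [add_right_cancel h2]

lemma pow_mul_specProj (hn : 0 < n) (hζ : IsPrimitiveRoot ζ n) (ht : t ^ n = 1) (r s : ℕ) :
    t ^ s * specProj n ζ t r = ζ ^ (r * s) • specProj n ζ t r := by
  induction s with
  | zero => simp
  | succ s ih =>
    rw [pow_succ', mul_assoc, ih, mul_smul_comm, mul_specProj hn hζ ht, smul_smul]
    congr 1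
    ring

lemma specProj_mul_specProj (hn : 0 < n) (hζ : IsPrimitiveRoot ζ n) (ht : t ^ n = 1)
    {r r' : ℕ} (hr : r < n) (hr' : r' < n) :
    specProj n ζ t r' * specProj n ζ t r = if r = r' then specProj n ζ t r else 0 := by
  have hζ0 : ζ ≠ 0 := hζ.ne_zero hn.ne'
  have hn' : (n : ℂ) ≠ 0 := Nat.cast_ne_zero.2 hn.ne'
  conv_lhs => rw [specProj]
  rw [smul_mul_assoc, Finset.sum_mul]
  have h1 : ∀ s ∈ Finset.range n, (ζ⁻¹ ^ (r' * s)) • t ^ s * specProj n ζ t r =
      ((ζ⁻¹ ^ r' * ζ ^ r) ^ s) • specProj n ζ t r := by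
    intro s _
    rw [smul_mul_assoc, pow_mul_specProj hn hζ ht, smul_smul, mul_pow, pow_mul, pow_mul]
  rw [Finset.sum_congr rfl h1, ← Finset.sum_smul, smul_smul]
  split_ifs with h
  · subst h
    have : ζ⁻¹ ^ r * ζ ^ r = 1 := by rw [← mul_pow, inv_mul_cancel₀ hζ0, one_pow]
    rw [this]
    simp [hn']
  · have h2 : ζ⁻¹ ^ r' * ζ ^ r ≠ 1 := by
      intro h'
      apply h
      rw [inv_pow, inv_mul_eq_one₀ (pow_ne_zero _ hζ0)] at h'
      exact (hζ.pow_inj hr' hr h').symm
    have h3 : (ζ⁻¹ ^ r' * ζ ^ r) ^ n = 1 := by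
      rw [mul_pow, ← pow_mul, ← pow_mul, mul_comm r' n, mul_comm r n, pow_mul, pow_mul, inv_pow,
        hζ.pow_eq_one]; simp
    have h4 := geom_sum_eq h2 n
    rw [h3, sub_self, zero_div] at h4
    rw [h4, mul_zero, zero_smul]

lemma specProj_mul (r : ℕ) : specProj n ζ t r * t = t * specProj n ζ t r := by
  unfold specProj
  rw [smul_mul_assoc, mul_smul_comm, Finset.sum_mul, Finset.mul_sum]
  congr 1
  apply Finset.sum_congr rfl
  intro s _
  rw [smul_mul_assoc, mul_smul_comm, ← pow_succ, ← pow_succ']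

end Algebra

section TOp

variable {Γ : Subgroup SL(2, ℤ)}

local notation "X" => (SL(2, ℤ) ⧸ Γ)

/-- The operator of `g` on functions on `X`. -/
def opV (Γ : Subgroup SL(2, ℤ)) (g : SL(2, ℤ)) : Module.End ℂ ((SL(2, ℤ) ⧸ Γ) → ℂ) :=
  LinearMap.funLeft ℂ ℂ (fun x => g⁻¹ • x)

lemma opV_apply (g : SL(2, ℤ)) (v : X → ℂ) (x : X) : opV Γ g v x = v (g⁻¹ • x) := rfl

lemma opV_pow_apply (g : SL(2, ℤ)) (s : ℕ) (v : X → ℂ) (x : X) :
    (opV Γ g ^ s) v x = v ((g ^ s)⁻¹ • x) := by
  induction s generalizing x with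
  | zero => simp
  | succ s ih =>
    rw [pow_succ', Module.End.mul_apply, opV_apply, ih, smul_smul]
    congr 2
    rw [pow_succ', mul_inv_rev]

lemma opV_pow_eq_one {g : SL(2, ℤ)} {n : ℕ} (h : ∀ x : X, g ^ n • x = x) : opV Γ g ^ n = 1 := by
  apply LinearMap.ext
  intro v
  funext x
  rw [opV_pow_apply, Module.End.one_apply]
  congr 1
  rw [inv_smul_eq_iff, h]

/-- translation by one -/
lemma VM_vadd_one {k : ℤ} {F : X → ℍ → ℂ} (hF : F ∈ VM Γ k) (x : X) (τ : ℍ) :
    F x ((1 : ℝ) +ᵥ τ) = F (ModularGroup.T⁻¹ • x) τ := by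
  rw [← hF.1, SL_slash_apply, ← UpperHalfPlane.modular_T_smul]
  simp [ModularGroup.denom_apply, ModularGroup.T]

lemma R_vadd_one {k : ℤ} {f : ℍ → ℂ} (hf : f ∈ R k) (τ : ℍ) :
    f ((1 : ℝ) +ᵥ τ) = f τ := by
  conv_rhs => rw [← hf.1 ModularGroup.T]
  rw [SL_slash_apply, ← UpperHalfPlane.modular_T_smul]
  simp [ModularGroup.denom_apply, ModularGroup.T]

/-- spectral component of a vector valued form -/
noncomputable def comp (n : ℕ) (r : ℕ) (F : X → ℍ → ℂ) (x : X) (τ : ℍ) : ℂ :=
  specProj n (Complex.exp (2 * Real.pi * Complex.I / n)) (opV Γ ModularGroup.T) r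
    (fun y => F y τ) x

lemma comp_eq (n r : ℕ) (F : X → ℍ → ℂ) (x : X) :
    comp n r F x = (n : ℂ)⁻¹ • ∑ s ∈ Finset.range n,
      ((Complex.exp (2 * Real.pi * Complex.I / n))⁻¹ ^ (r * s)) •
        F ((ModularGroup.T ^ s)⁻¹ • x) := by
  funext τ
  simp only [comp, specProj, LinearMap.smul_apply, LinearMap.sum_apply, Pi.smul_apply,
    Finset.sum_apply, opV_pow_apply]

variable {n : ℕ}

lemma comp_mdiff {k : ℤ} {F : X → ℍ → ℂ} (hF : F ∈ VM Γ k) (r : ℕ) (x : X) :
    MDiff (comp n r F x) := by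
  rw [comp_eq]
  apply MDifferentiable.const_smul
  apply MDifferentiable.sum
  intro s _
  exact (hF.2.1 _).const_smul _

lemma comp_bdd {k : ℤ} {F : X → ℍ → ℂ} (hF : F ∈ VM Γ k) (r : ℕ) (x : X) :
    IsBoundedAtImInfty (comp n r F x) := by
  rw [comp_eq]
  have : ∑ s ∈ Finset.range n, ((Complex.exp (2 * Real.pi * Complex.I / n))⁻¹ ^ (r * s)) •
        F ((ModularGroup.T ^ s)⁻¹ • x) ∈ boundedAtImInftySubalgebra ℂ :=
    Subalgebra.sum_mem _ fun s _ => Subalgebra.smul_mem _ (hF.2.2 _) _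
  exact Subalgebra.smul_mem _ this _

lemma comp_vadd (hn : 0 < n) (hT : ∀ x : X, ModularGroup.T ^ n • x = x) {k : ℤ} {F : X → ℍ → ℂ}
    (hF : F ∈ VM Γ k) (r : ℕ) (x : X) (τ : ℍ) :
    comp n r F x ((1 : ℝ) +ᵥ τ) = Complex.exp (2 * Real.pi * Complex.I * r / n) *
      comp n r F x τ := by
  have h1 : (fun y => F y ((1 : ℝ) +ᵥ τ)) = opV Γ ModularGroup.T (fun y => F y τ) := by
    funext y
    rw [VM_vadd_one hF, opV_apply]
  have hζ := Complex.isPrimitiveRoot_exp n hn.ne'
  unfold comp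
  rw [h1, ← Module.End.mul_apply, specProj_mul, mul_specProj hn hζ (opV_pow_eq_one hT),
    LinearMap.smul_apply, Pi.smul_apply, smul_eq_mul, ← Complex.exp_nat_mul]
  congr 2
  ring

lemma sum_comp (hn : 0 < n) (F : X → ℍ → ℂ) (x : X) (τ : ℍ) :
    ∑ r ∈ Finset.range n, comp n r F x τ = F x τ := by
  have hζ := Complex.isPrimitiveRoot_exp n hn.ne'
  have := sum_specProj (t := opV Γ ModularGroup.T) hn hζ
  have h2 := congrFun (LinearMap.congr_fun this (fun y => F y τ)) x
  simpa [comp] using h2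

/-- the untwisting operator -/
noncomputable def untw (Γ : Subgroup SL(2, ℤ)) (n : ℕ) (τ : ℍ) : Module.End ℂ ((SL(2, ℤ) ⧸ Γ) → ℂ) :=
  ∑ r ∈ Finset.range n, Complex.exp (-(2 * Real.pi * Complex.I * r / n) * τ) •
    specProj n (Complex.exp (2 * Real.pi * Complex.I / n)) (opV Γ ModularGroup.T) r

/-- the twisting operator -/
noncomputable def tw (Γ : Subgroup SL(2, ℤ)) (n : ℕ) (τ : ℍ) : Module.End ℂ ((SL(2, ℤ) ⧸ Γ) → ℂ) :=
  ∑ r ∈ Finset.range n, Complex.exp ((2 * Real.pi * Complex.I * r / n) * τ) •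
    specProj n (Complex.exp (2 * Real.pi * Complex.I / n)) (opV Γ ModularGroup.T) r

lemma tw_mul_untw (hn : 0 < n) (hT : ∀ x : X, ModularGroup.T ^ n • x = x) (τ : ℍ) :
    tw Γ n τ * untw Γ n τ = 1 := by
  have hζ := Complex.isPrimitiveRoot_exp n hn.ne'
  unfold tw untw
  rw [Finset.sum_mul]
  have h1 : ∀ r ∈ Finset.range n, (Complex.exp ((2 * Real.pi * Complex.I * r / n) * τ) •
    specProj n (Complex.exp (2 * Real.pi * Complex.I / n)) (opV Γ ModularGroup.T) r) *
    ∑ r ∈ Finset.range n, Complex.exp (-(2 * Real.pi * Complex.I * r / n) * τ) •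
      specProj n (Complex.exp (2 * Real.pi * Complex.I / n)) (opV Γ ModularGroup.T) r =
      specProj n (Complex.exp (2 * Real.pi * Complex.I / n)) (opV Γ ModularGroup.T) r := by
    intro r hr
    rw [Finset.mul_sum]
    have h2 : ∀ r' ∈ Finset.range n, (Complex.exp ((2 * Real.pi * Complex.I * r / n) * τ) •
      specProj n (Complex.exp (2 * Real.pi * Complex.I / n)) (opV Γ ModularGroup.T) r) *
      (Complex.exp (-(2 * Real.pi * Complex.I * r' / n) * τ) •
        specProj n (Complex.exp (2 * Real.pi * Complex.I / n)) (opV Γ ModularGroup.T) r') =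
        if r' = r then
        specProj n (Complex.exp (2 * Real.pi * Complex.I / n)) (opV Γ ModularGroup.T) r else 0 := by
      intro r' hr'
      rw [smul_mul_smul_comm, specProj_mul_specProj hn hζ (opV_pow_eq_one hT)
        (Finset.mem_range.1 hr') (Finset.mem_range.1 hr)]
      split_ifs with h
      · subst h
        rw [← Complex.exp_add]
        simp
      · simp
    rw [Finset.sum_congr rfl h2, Finset.sum_ite_eq' (Finset.range n) r]
    simp [hr]
  rw [Finset.sum_congr rfl h1, sum_specProj hn hζ]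

lemma untw_apply (F : X → ℍ → ℂ) (τ : ℍ) (x : X) :
    untw Γ n τ (fun y => F y τ) x = ∑ r ∈ Finset.range n,
      Complex.exp (-(2 * Real.pi * Complex.I * r / n) * τ) * comp n r F x τ := by
  simp [untw, comp, LinearMap.sum_apply, Finset.sum_apply]

lemma specProj_mul_untw (hn : 0 < n) (hT : ∀ x : X, ModularGroup.T ^ n • x = x) (τ : ℍ)
    {r : ℕ} (hr : r < n) :
    specProj n (Complex.exp (2 * Real.pi * Complex.I / n)) (opV Γ ModularGroup.T) r * untw Γ n τ =
    Complex.exp (-(2 * Real.pi * Complex.I * r / n) * τ) •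
      specProj n (Complex.exp (2 * Real.pi * Complex.I / n)) (opV Γ ModularGroup.T) r := by
  have hζ := Complex.isPrimitiveRoot_exp n hn.ne'
  unfold untw
  rw [Finset.mul_sum]
  have h2 : ∀ r' ∈ Finset.range n,
      specProj n (Complex.exp (2 * Real.pi * Complex.I / n)) (opV Γ ModularGroup.T) r *
      (Complex.exp (-(2 * Real.pi * Complex.I * r' / n) * τ) •
        specProj n (Complex.exp (2 * Real.pi * Complex.I / n)) (opV Γ ModularGroup.T) r') =
        if r' = r then Complex.exp (-(2 * Real.pi * Complex.I * r / n) * τ) •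
        specProj n (Complex.exp (2 * Real.pi * Complex.I / n)) (opV Γ ModularGroup.T) r
        else 0 := by
    intro r' hr'
    rw [mul_smul_comm, specProj_mul_specProj hn hζ (opV_pow_eq_one hT)
      (Finset.mem_range.1 hr') hr]
    split_ifs with h
    · subst h; rfl
    · simp
  rw [Finset.sum_congr rfl h2, Finset.sum_ite_eq' (Finset.range n) r]
  simp [hr]

theorem exists_cvec [Finite X] (hn : 0 < n) (hT : ∀ x : X, ModularGroup.T ^ n • x = x) {k : ℤ}
    {F : X → ℍ → ℂ} (hF : F ∈ VM Γ k) :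
    ∃ c : X → ℂ, Tendsto (fun τ => untw Γ n τ (fun y => F y τ)) atImInfty (𝓝 c) ∧
      (c = 0 → ∀ x, F x =O[atImInfty] fun τ => Real.exp (-2 * Real.pi * τ.im)) ∧
      Tendsto (fun τ => (fun y => F y τ)) atImInfty
        (𝓝 (specProj n (Complex.exp (2 * Real.pi * Complex.I / n)) (opV Γ ModularGroup.T) 0 c)) := by
  have key : ∀ r : ℕ, ∀ x : X, ∃ L : ℂ, r < n →
      (Tendsto (fun τ : ℍ => Complex.exp (-(2 * Real.pi * Complex.I * r / n) * τ) *
        comp n r F x τ) atImInfty (𝓝 L) ∧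
      (L = 0 → comp n r F x =O[atImInfty] fun τ => Real.exp (-2 * Real.pi * τ.im))) := by
    intro r x
    by_cases hr : r < n
    · obtain ⟨L, hL⟩ := twisted_limit n hn r hr (comp_mdiff hF r x) (comp_bdd hF r x)
        (comp_vadd hn hT hF r x)
      exact ⟨L, fun _ => hL⟩
    · exact ⟨0, fun h => absurd h hr⟩
  choose L hL using key
  have hlim : Tendsto (fun τ => untw Γ n τ (fun y => F y τ)) atImInfty
      (𝓝 (fun x => ∑ r ∈ Finset.range n, L r x)) := by
    rw [tendsto_pi_nhds]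
    intro x
    simp_rw [untw_apply]
    apply tendsto_finsetSum
    intro r hr
    exact (hL r x (Finset.mem_range.1 hr)).1
  have hcont : ∀ f : Module.End ℂ (X → ℂ), Continuous f := fun f =>
    LinearMap.continuous_of_finiteDimensional f
  have hproj : ∀ r < n, specProj n (Complex.exp (2 * Real.pi * Complex.I / n))
      (opV Γ ModularGroup.T) r (fun x => ∑ r ∈ Finset.range n, L r x) = fun x => L r x := by
    intro r hr
    have h1 := ((hcont (specProj n (Complex.exp (2 * Real.pi * Complex.I / n))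
      (opV Γ ModularGroup.T) r)).tendsto _).comp hlim
    have h2 : Tendsto (fun τ : ℍ => (fun x => Complex.exp (-(2 * Real.pi * Complex.I * r / n) * τ) *
        comp n r F x τ)) atImInfty (𝓝 (fun x => L r x)) := by
      rw [tendsto_pi_nhds]
      intro x
      exact (hL r x hr).1
    refine tendsto_nhds_unique h1 (h2.congr ?_)
    intro τ
    rw [Function.comp_apply, ← Module.End.mul_apply, specProj_mul_untw hn hT τ hr]
    rfl
  refine ⟨_, hlim, ?_, ?_⟩
  · intro hc x
    have hL0 : ∀ r < n, L r x = 0 := by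
      intro r hr
      have := hproj r hr
      rw [hc, map_zero] at this
      exact (congrFun this x).symm
    have : F x = fun τ => ∑ r ∈ Finset.range n, comp n r F x τ := by
      funext τ
      rw [sum_comp hn]
    rw [this]
    apply Asymptotics.IsBigO.fun_sum
    intro r hr
    have hr := Finset.mem_range.1 hr
    exact (hL r x hr).2 (hL0 r hr)
  · rw [hproj 0 hn]
    rw [tendsto_pi_nhds]
    intro x
    have h1 : ∀ r ∈ Finset.range n, Tendsto (comp n r F x) atImInfty
        (𝓝 (if r = 0 then L 0 x else 0)) := by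
      intro r hr
      have hr := Finset.mem_range.1 hr
      split_ifs with h
      · subst h
        simpa using (hL 0 x hr).1
      · have h2 := (hL r x hr).1
        have h3 : Tendsto (fun τ : ℍ => Complex.exp ((2 * Real.pi * Complex.I * r / n) * τ))
            atImInfty (𝓝 0) := by
          rw [tendsto_zero_iff_norm_tendsto_zero]
          have h4 : Tendsto (fun τ : ℍ => Real.exp (-(2 * Real.pi * r / n) * τ.im))
              atImInfty (𝓝 0) := by
            apply Real.tendsto_exp_atBot.comp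
            apply Tendsto.const_mul_atTop_of_neg _ tendsto_comap
            have : (0 : ℝ) < n := Nat.cast_pos.2 hn
            have : (0 : ℝ) < r := Nat.cast_pos.2 (Nat.pos_of_ne_zero h)
            have := Real.pi_pos
            have : 0 < 2 * Real.pi * r / n := by positivity
            linarith
          refine h4.congr ?_
          intro τ
          rw [Complex.norm_exp]
          congr 1
          have : (2 * Real.pi * Complex.I * r / n) * (τ : ℂ) =
              (((2 * Real.pi * r / n) : ℝ) : ℂ) * (Complex.I * τ) := by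
            push_cast; ring
          rw [this, Complex.re_ofReal_mul]
          simp
        have h5 := h3.mul h2
        rw [zero_mul] at h5
        refine h5.congr ?_
        intro τ
        rw [← mul_assoc, ← Complex.exp_add]
        simp
    have h2 := tendsto_finsetSum _ h1
    rw [Finset.sum_ite_eq' (Finset.range n) 0] at h2
    simp only [Finset.mem_range, hn, if_true] at h2
    exact h2.congr fun τ => sum_comp hn F x τ

end TOp

end Fermat.Agent.VVMF
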