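import Mathlib
import Fermat.Agent.VVMF.Untwist
import Fermat.Agent.VVMF.InvsOrbits

/-!
# Evaluation of vector valued forms at the cusps
-/

set_option autoImplicit false

open Filter Topology UpperHalfPlane ModularForm EisensteinSeries Derivative
open scoped MatrixGroups Manifold Topology ModularForm

namespace Fermat.Agent.VVMF

namespace CuspEval

variable {Γ : Subgroup SL(2, ℤ)} {n : ℕ}

/-- The limit vector at infinity. -/
theorem exists_lim [Finite (SL(2, ℤ) ⧸ Γ)] (hn : 0 < n)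
    (hT : ∀ x : SL(2, ℤ) ⧸ Γ, ModularGroup.T ^ n • x = x) {k : ℤ}
    {F : SL(2, ℤ) ⧸ Γ → ℍ → ℂ} (hF : F ∈ VM Γ k) :
    ∃ v : SL(2, ℤ) ⧸ Γ → ℂ, ∀ x, Tendsto (F x) atImInfty (𝓝 (v x)) := by
  obtain ⟨c, -, -, h⟩ := exists_cvec hn hT hF
  exact ⟨_, fun x => (tendsto_pi_nhds.mp h) x⟩

/-- A level one form of weight `2 m`, `m ≥ 2`, with value one at infinity. -/
theorem exists_levelOne (m : ℕ) (hm : 2 ≤ m) :
    ∃ P ∈ R (2 * (m : ℤ)), Tendsto P atImInfty (𝓝 1) := by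
  rcases Nat.even_or_odd m with ⟨a, ha⟩ | ⟨a, ha⟩
  · refine ⟨(E₄ : ℍ → ℂ) ^ a, ?_, ?_⟩
    · have := R_pow E4_mem a
      rw [show (a : ℤ) * 4 = 2 * (m : ℤ) by rw [ha]; push_cast; ring] at this
      exact this
    · have := tendsto_E4.pow a
      rw [one_pow] at this
      exact this
  · obtain ⟨b, rfl⟩ : ∃ b, a = b + 1 := ⟨a - 1, by omega⟩
    refine ⟨(E₄ : ℍ → ℂ) ^ b * E₆, ?_, ?_⟩
    · exact R_mul' (R_pow E4_mem b) E6_mem (by rw [ha]; push_cast; ring)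
    · have := (tendsto_E4.pow b).mul tendsto_E6
      rw [one_pow, mul_one] at this
      exact this

/-- Evaluation at infinity. -/
noncomputable def ev [Finite (SL(2, ℤ) ⧸ Γ)] (hn : 0 < n)
    (hT : ∀ x : SL(2, ℤ) ⧸ Γ, ModularGroup.T ^ n • x = x) (k : ℤ) :
    VM Γ k →ₗ[ℂ] (SL(2, ℤ) ⧸ Γ → ℂ) where
  toFun F := (exists_lim hn hT F.2).choose
  map_add' F G := by
    funext x
    exact tendsto_nhds_unique ((exists_lim hn hT (F + G).2).choose_spec x)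
      (((exists_lim hn hT F.2).choose_spec x).add ((exists_lim hn hT G.2).choose_spec x))
  map_smul' c F := by
    funext x
    exact tendsto_nhds_unique ((exists_lim hn hT (c • F).2).choose_spec x)
      (((exists_lim hn hT F.2).choose_spec x).const_smul c)

theorem ev_spec [Finite (SL(2, ℤ) ⧸ Γ)] (hn : 0 < n)
    (hT : ∀ x : SL(2, ℤ) ⧸ Γ, ModularGroup.T ^ n • x = x) (k : ℤ) (F : VM Γ k)
    (x : SL(2, ℤ) ⧸ Γ) : Tendsto (F.1 x) atImInfty (𝓝 (ev hn hT k F x)) :=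
  (exists_lim hn hT F.2).choose_spec x

theorem ker_ev [Finite (SL(2, ℤ) ⧸ Γ)] (hn : 0 < n)
    (hT : ∀ x : SL(2, ℤ) ⧸ Γ, ModularGroup.T ^ n • x = x) (k : ℤ) :
    LinearMap.ker (ev hn hT k) = (VS Γ k).submoduleOf (VM Γ k) := by
  ext F
  rw [LinearMap.mem_ker, Submodule.submoduleOf, Submodule.mem_comap]
  constructor
  · intro h
    refine ⟨F.2.1, F.2.2.1, fun x => ?_⟩
    have := ev_spec hn hT k F x
    rw [h] at this
    exact this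
  · intro h
    funext x
    exact tendsto_nhds_unique (ev_spec hn hT k F x) (h.2.2 x)

theorem tendsto_vadd_one : Tendsto (fun τ : ℍ => ((1 : ℝ) +ᵥ τ : ℍ)) atImInfty atImInfty := by
  unfold atImInfty
  rw [tendsto_comap_iff]
  refine Tendsto.congr (fun τ => ?_) tendsto_comap
  simp

theorem ev_T_invariant [Finite (SL(2, ℤ) ⧸ Γ)] (hn : 0 < n)
    (hT : ∀ x : SL(2, ℤ) ⧸ Γ, ModularGroup.T ^ n • x = x) (k : ℤ) (F : VM Γ k)
    (x : SL(2, ℤ) ⧸ Γ) : ev hn hT k F (ModularGroup.T⁻¹ • x) = ev hn hT k F x := by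
  refine tendsto_nhds_unique (ev_spec hn hT k F _) ?_
  refine ((ev_spec hn hT k F x).comp tendsto_vadd_one).congr fun τ => ?_
  exact VM_vadd_one F.2 x τ

/-- `specProj 0` fixes the invariant vectors. -/
theorem specProj_zero_of_invariant (hn : 0 < n) (ζ : ℂ) (v : SL(2, ℤ) ⧸ Γ → ℂ)
    (hv : ∀ x, v (ModularGroup.T⁻¹ • x) = v x) :
    specProj n ζ (opV Γ ModularGroup.T) 0 v = v := by
  have hpow : ∀ s : ℕ, (opV Γ ModularGroup.T ^ s) v = v := by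
    intro s
    induction s with
    | zero => simp
    | succ s ih =>
      rw [pow_succ, Module.End.mul_apply]
      have : opV Γ ModularGroup.T v = v := by
        funext x
        rw [opV_apply, hv]
      rw [this, ih]
  have hn' : (n : ℂ) ≠ 0 := Nat.cast_ne_zero.2 hn.ne'
  unfold specProj
  rw [LinearMap.smul_apply, LinearMap.sum_apply]
  simp only [zero_mul, pow_zero, one_smul, hpow, Finset.sum_const, Finset.card_range]
  rw [← Nat.cast_smul_eq_nsmul ℂ, smul_smul, inv_mul_cancel₀ hn', one_smul]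

variable [Fintype (SL(2, ℤ) ⧸ Γ)] [DecidableEq (SL(2, ℤ) ⧸ Γ)]

theorem mem_range_ev (hn : 0 < n)
    (hT : ∀ x : SL(2, ℤ) ⧸ Γ, ModularGroup.T ^ n • x = x)
    (κ : SL(2, ℤ) ⧸ Γ → ℕ) (F : SL(2, ℤ) ⧸ Γ → SL(2, ℤ) ⧸ Γ → ℍ → ℂ)
    (hF : ∀ l, F l ∈ VM Γ (2 * (κ l : ℤ)))
    (C : Matrix (SL(2, ℤ) ⧸ Γ) (SL(2, ℤ) ⧸ Γ) ℂ) (hC : C.det ≠ 0)
    (hlim : ∀ l, Tendsto (fun τ => untw Γ n τ (fun y => F l y τ)) atImInfty (𝓝 (C l)))
    (w : ℕ) (hκ : ∀ l, κ l + 2 ≤ w) (v : SL(2, ℤ) ⧸ Γ → ℂ)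
    (hv : ∀ x, v (ModularGroup.T⁻¹ • x) = v x) :
    v ∈ LinearMap.range (ev hn hT (2 * (w : ℤ))) := by
  -- coefficients
  obtain ⟨c, hc⟩ : ∃ c : SL(2, ℤ) ⧸ Γ → ℂ, ∑ l, c l • C l = v := by
    refine ⟨Matrix.vecMul v C⁻¹, ?_⟩
    have h1 : Matrix.vecMul (Matrix.vecMul v C⁻¹) C = v := by
      rw [Matrix.vecMul_vecMul, Matrix.nonsing_inv_mul _ (isUnit_iff_ne_zero.mpr hC),
        Matrix.vecMul_one]
    exact (Matrix.vecMul_eq_sum _ _).symm.trans h1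
  have hP : ∀ l, ∃ P ∈ R (2 * (w : ℤ) - 2 * (κ l : ℤ)), Tendsto P atImInfty (𝓝 1) := by
    intro l
    have := hκ l
    obtain ⟨P, hP, hP1⟩ := exists_levelOne (w - κ l) (by omega)
    refine ⟨P, ?_, hP1⟩
    rw [show (2 * (w : ℤ) - 2 * (κ l : ℤ)) = 2 * ((w - κ l : ℕ) : ℤ) by omega]
    exact hP
  choose P hPR hP1 using hP
  let G : SL(2, ℤ) ⧸ Γ → ℍ → ℂ := ∑ l, c l • fun x => P l * F l x
  have hG : G ∈ VM Γ (2 * (w : ℤ)) :=
    Submodule.sum_mem _ fun l _ => Submodule.smul_mem _ _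
      (VM_mul' (hPR l) (hF l) (by ring))
  refine ⟨⟨G, hG⟩, ?_⟩
  have hlimF : ∀ l x, Tendsto (F l x) atImInfty (𝓝 (specProj n
      (Complex.exp (2 * Real.pi * Complex.I / n)) (opV Γ ModularGroup.T) 0 (C l) x)) := by
    intro l x
    obtain ⟨c', h1, -, h3⟩ := exists_cvec hn hT (hF l)
    have : c' = C l := tendsto_nhds_unique h1 (hlim l)
    rw [this] at h3
    exact (tendsto_pi_nhds.mp h3) x
  funext x
  refine tendsto_nhds_unique (ev_spec hn hT _ ⟨G, hG⟩ x) ?_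
  have h1 : Tendsto (fun τ => ∑ l, c l * (P l τ * F l x τ)) atImInfty (𝓝 (∑ l, c l * (1 *
      specProj n (Complex.exp (2 * Real.pi * Complex.I / n)) (opV Γ ModularGroup.T) 0 (C l) x))) :=
    tendsto_finsetSum _ fun l _ => ((hP1 l).mul (hlimF l x)).const_mul (c l)
  have h2 : ∑ l, c l * (1 * specProj n (Complex.exp (2 * Real.pi * Complex.I / n))
      (opV Γ ModularGroup.T) 0 (C l) x) = v x := by
    have h3 := specProj_zero_of_invariant hn (Complex.exp (2 * Real.pi * Complex.I / n)) v hv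
    conv_rhs => rw [← h3, ← hc, map_sum]
    simp
  rw [h2] at h1
  refine h1.congr fun τ => ?_
  simp [G]

theorem range_ev (hn : 0 < n)
    (hT : ∀ x : SL(2, ℤ) ⧸ Γ, ModularGroup.T ^ n • x = x)
    (κ : SL(2, ℤ) ⧸ Γ → ℕ) (F : SL(2, ℤ) ⧸ Γ → SL(2, ℤ) ⧸ Γ → ℍ → ℂ)
    (hF : ∀ l, F l ∈ VM Γ (2 * (κ l : ℤ)))
    (C : Matrix (SL(2, ℤ) ⧸ Γ) (SL(2, ℤ) ⧸ Γ) ℂ) (hC : C.det ≠ 0)
    (hlim : ∀ l, Tendsto (fun τ => untw Γ n τ (fun y => F l y τ)) atImInfty (𝓝 (C l)))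
    (w : ℕ) (hκ : ∀ l, κ l + 2 ≤ w) :
    LinearMap.range (ev hn hT (2 * (w : ℤ))) =
      ES.invs (X := SL(2, ℤ) ⧸ Γ) ModularGroup.T := by
  ext v
  rw [ES.mem_invs]
  constructor
  · rintro ⟨G, rfl⟩ x
    have := ev_T_invariant hn hT _ G (ModularGroup.T • x)
    rw [inv_smul_smul] at this
    exact this.symm
  · intro hv
    refine mem_range_ev hn hT κ F hF C hC hlim w hκ v fun x => ?_
    have := hv (ModularGroup.T⁻¹ • x)
    rw [smul_inv_smul] at this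
    exact this.symm

/-- **Cusp evaluation**, general weight. -/
theorem finrank_VM_eq (hn : 0 < n)
    (hT : ∀ x : SL(2, ℤ) ⧸ Γ, ModularGroup.T ^ n • x = x)
    (κ : SL(2, ℤ) ⧸ Γ → ℕ) (F : SL(2, ℤ) ⧸ Γ → SL(2, ℤ) ⧸ Γ → ℍ → ℂ)
    (hF : ∀ l, F l ∈ VM Γ (2 * (κ l : ℤ)))
    (C : Matrix (SL(2, ℤ) ⧸ Γ) (SL(2, ℤ) ⧸ Γ) ℂ) (hC : C.det ≠ 0)
    (hlim : ∀ l, Tendsto (fun τ => untw Γ n τ (fun y => F l y τ)) atImInfty (𝓝 (C l)))
    (w : ℕ) (hκ : ∀ l, κ l + 2 ≤ w) [FiniteDimensional ℂ (VM Γ (2 * (w : ℤ)))] :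
    Module.finrank ℂ (VM Γ (2 * (w : ℤ))) = Module.finrank ℂ (VS Γ (2 * (w : ℤ))) +
      Nat.card (MulAction.orbitRel.Quotient (Subgroup.zpowers ModularGroup.T)
        (SL(2, ℤ) ⧸ Γ)) := by
  have h1 := LinearMap.finrank_range_add_finrank_ker (ev hn hT (2 * (w : ℤ)))
  rw [range_ev hn hT κ F hF C hC hlim w hκ, ker_ev, finrank_invs,
    (Submodule.submoduleOfEquivOfLe (VS_le_VM (Γ := Γ) (2 * (w : ℤ)))).finrank_eq] at h1
  rw [add_comm (Module.finrank ℂ (VS Γ (2 * (w : ℤ))))]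
  exact h1.symm

end CuspEval

/-- **Cusp evaluation** in weight `24`. -/
theorem cusp_eval {Γ : Subgroup SL(2, ℤ)} {n : ℕ} [Fintype (SL(2, ℤ) ⧸ Γ)]
    [DecidableEq (SL(2, ℤ) ⧸ Γ)] (hn : 0 < n)
    (hT : ∀ x : SL(2, ℤ) ⧸ Γ, ModularGroup.T ^ n • x = x)
    (κ : SL(2, ℤ) ⧸ Γ → ℕ) (F : SL(2, ℤ) ⧸ Γ → SL(2, ℤ) ⧸ Γ → ℍ → ℂ)
    (hF : ∀ l, F l ∈ VM Γ (2 * (κ l : ℤ)))
    (C : Matrix (SL(2, ℤ) ⧸ Γ) (SL(2, ℤ) ⧸ Γ) ℂ) (hC : C.det ≠ 0)
    (hlim : ∀ l, Tendsto (fun τ => untw Γ n τ (fun y => F l y τ)) atImInfty (𝓝 (C l)))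
    (hκ : ∀ l, κ l ≤ 10) [h24 : FiniteDimensional ℂ (VM Γ 24)] :
    Module.finrank ℂ (VM Γ 24) = Module.finrank ℂ (VS Γ 24) +
      Nat.card (MulAction.orbitRel.Quotient (Subgroup.zpowers ModularGroup.T)
        (SL(2, ℤ) ⧸ Γ)) := by
  have h24' : FiniteDimensional ℂ (VM Γ (2 * ((12 : ℕ) : ℤ))) := by
    rw [show (2 * ((12 : ℕ) : ℤ)) = 24 by norm_num]
    exact h24
  have h := CuspEval.finrank_VM_eq hn hT κ F hF C hC hlim 12 (fun l => by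
    have := hκ l; omega)
  rw [show (2 * ((12 : ℕ) : ℤ)) = 24 by norm_num] at h
  exact h

end Fermat.Agent.VVMF
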