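import Mathlib
import Fermat.Agent.VVMF.VForm
import Fermat.Agent.IntStr.Lagrange

/-!
# Existence of a family of vector valued forms with non-vanishing determinant

We use the powers of the vector attached to `θ_N = 1728 Δ(N z)` and the Vandermonde determinant.
-/

set_option autoImplicit false

open Filter Topology UpperHalfPlane ModularForm CongruenceSubgroup
open scoped MatrixGroups Manifold Topology ModularForm

namespace Fermat.Agent.VVMF

variable {Γ : Subgroup SL(2, ℤ)}

/-- Powers of vector valued forms. -/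
lemma VM_pow {a : ℤ} {F : (SL(2, ℤ) ⧸ Γ) → ℍ → ℂ} (hF : F ∈ VM Γ a) (n : ℕ) :
    (fun x => F x ^ n) ∈ VM Γ (n * a) := by
  induction n with
  | zero =>
    refine ⟨fun h x => ?_, fun x => ?_, fun x => ?_⟩
    · simp only [pow_zero]
      have := R_one.1 h
      simpa using this
    · simp only [pow_zero]
      exact R_one.2.1
    · simp only [pow_zero]
      exact R_one.2.2
  | succ n ih =>
    have hw : ((n + 1 : ℕ) : ℤ) * a = n * a + a := by push_cast; ring
    rw [hw]
    refine ⟨fun h x => ?_, fun x => ?_, fun x => ?_⟩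
    · simp only [pow_succ]
      rw [mul_slash_SL2, ih.1, hF.1]
    · simp only [pow_succ]
      exact (ih.2.1 x).mul (hF.2.1 x)
    · simp only [pow_succ]
      exact (ih.2.2 x).mul (hF.2.2 x)

/-- There is a point where finitely many pairwise distinct holomorphic functions take pairwise
distinct values. -/
lemma exists_injective_eval {X : Type*} [Finite X] {V : X → ℍ → ℂ} (hV : ∀ x, MDiff (V x))
    (hinj : Function.Injective V) : ∃ τ : ℍ, Function.Injective fun x => V x τ := by
  classical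
  haveI := Fintype.ofFinite X
  have h : ∏ p : {p : X × X // p.1 ≠ p.2}, (V p.1.1 - V p.1.2) ≠ 0 := by
    intro h0
    rw [UpperHalfPlane.prod_eq_zero_iff (fun p _ => (hV p.1.1).sub (hV p.1.2))] at h0
    obtain ⟨p, -, hp⟩ := h0
    exact p.2 (hinj (sub_eq_zero.mp hp))
  obtain ⟨τ, hτ⟩ := Function.ne_iff.1 h
  refine ⟨τ, fun x y hxy => ?_⟩
  by_contra hne
  refine hτ ?_
  rw [Pi.zero_apply, Finset.prod_apply]
  refine Finset.prod_eq_zero (Finset.mem_univ ⟨(x, y), hne⟩) ?_
  simp only [Pi.sub_apply]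
  exact sub_eq_zero.mpr hxy

/-- the vector valued form attached to `θ_N` has pairwise distinct components -/
lemma toVec_theta_injective (N : ℕ) [NeZero N] :
    Function.Injective (toVec (Gamma0 N) 12 (IntStr.theta N)) := by
  have hinv : ∀ γ ∈ Gamma0 N, (IntStr.theta N : ℍ → ℂ) ∣[(12 : ℤ)] γ = IntStr.theta N :=
    cform_inv (IntStr.theta N)
  intro x y h
  induction x using QuotientGroup.induction_on with
  | H g =>
    induction y using QuotientGroup.induction_on with
    | H g' =>
      rw [toVec_mk hinv, toVec_mk hinv] at h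
      have h1 : (IntStr.theta N : ℍ → ℂ) ∣[(12 : ℤ)] (g⁻¹ * g') = IntStr.theta N := by
        rw [SlashAction.slash_mul, h, ← SlashAction.slash_mul, inv_mul_cancel,
          SlashAction.slash_one]
      rw [QuotientGroup.eq]
      exact IntStr.mem_Gamma0_of_theta_slash _ h1

theorem exists_family (N : ℕ) [NeZero N] [Fintype (SL(2, ℤ) ⧸ Gamma0 N)]
    [DecidableEq (SL(2, ℤ) ⧸ Gamma0 N)] :
    ∃ (F : (SL(2, ℤ) ⧸ Gamma0 N) → (SL(2, ℤ) ⧸ Gamma0 N) → ℍ → ℂ)
      (κ : (SL(2, ℤ) ⧸ Gamma0 N) → ℕ),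
      (∀ l, F l ∈ VM (Gamma0 N) (2 * (κ l : ℤ))) ∧
        ∃ τ : ℍ, (Matrix.of fun l x => F l x τ).det ≠ 0 := by
  set V := toVec (Gamma0 N) 12 (IntStr.theta N) with hV
  have hVM : V ∈ VM (Gamma0 N) 12 := VS_le_VM _ (toVec_mem_VS (IntStr.theta N))
  obtain ⟨τ, hτ⟩ := exists_injective_eval hVM.2.1 (toVec_theta_injective N)
  let e := Fintype.equivFin (SL(2, ℤ) ⧸ Gamma0 N)
  refine ⟨fun l x => V x ^ ((e l : Fin _) : ℕ), fun l => 6 * ((e l : Fin _) : ℕ), fun l => ?_,
    τ, ?_⟩
  · have := VM_pow hVM ((e l : Fin _) : ℕ)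
    have hw : ((((e l : Fin _) : ℕ)) : ℤ) * 12 = 2 * ((6 * ((e l : Fin _) : ℕ) : ℕ) : ℤ) := by
      push_cast; ring
    rw [hw] at this
    exact this
  · have h1 : (Matrix.of fun l x => (V x ^ ((e l : Fin _) : ℕ)) τ) =
        ((Matrix.vandermonde fun i => V (e.symm i) τ).transpose).submatrix e e := by
      ext l x
      simp [Matrix.vandermonde]
    rw [h1, Matrix.det_submatrix_equiv_self, Matrix.det_transpose, Matrix.det_vandermonde_ne_zero_iff]
    exact fun i j hij => e.symm.injective (hτ hij)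

end Fermat.Agent.VVMF
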