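import Mathlib
import Fermat.Agent.VVMF.Untwist

set_option autoImplicit false

open Filter Topology UpperHalfPlane ModularForm EisensteinSeries Derivative
open scoped MatrixGroups Manifold Topology ModularForm

namespace Fermat.Agent.VVMF

variable {Γ : Subgroup SL(2, ℤ)} 

local notation "X" => (SL(2, ℤ) ⧸ Γ)

section fin

variable [Fintype (SL(2, ℤ) ⧸ Γ)] [DecidableEq (SL(2, ℤ) ⧸ Γ)]

/-- the matrix of a family -/
def mat (F : X → X → ℍ → ℂ) (τ : ℍ) : Matrix X X ℂ := Matrix.of fun l x => F l x τ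

/-- A family of vector valued forms with non vanishing determinant. -/
def IsFam (F : X → X → ℍ → ℂ) (κ : X → ℕ) : Prop :=
  (∀ l, F l ∈ VM Γ (2 * (κ l : ℤ))) ∧ ∃ τ, (mat F τ).det ≠ 0

/-- A family of minimal total weight. -/
def IsMinFam (F : X → X → ℍ → ℂ) (κ : X → ℕ) : Prop :=
  IsFam F κ ∧ ∀ F' κ', IsFam (Γ := Γ) F' κ' → ∑ l, κ l ≤ ∑ l, κ' l

lemma exists_isMinFam (h : ∃ F κ, IsFam (Γ := Γ) F κ) : ∃ F κ, IsMinFam (Γ := Γ) F κ := by
  classical
  have h' : ∃ m, ∃ F κ, IsFam (Γ := Γ) F κ ∧ ∑ l, κ l = m := by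
    obtain ⟨F, κ, hF⟩ := h
    exact ⟨_, F, κ, hF, rfl⟩
  obtain ⟨F, κ, hF, hs⟩ := Nat.find_spec h'
  refine ⟨F, κ, hF, fun F' κ' hF' => ?_⟩
  rw [hs]
  exact Nat.find_min' h' ⟨F', κ', hF', rfl⟩

lemma det_mdiff {F : X → X → ℍ → ℂ} (hF : ∀ l x, MDiff (F l x)) :
    MDiff (fun τ => (mat F τ).det) := by
  have : (fun τ => (mat F τ).det) =
      ∑ σ : Equiv.Perm X, ((Equiv.Perm.sign σ : ℤ) : ℂ) • ∏ i, F (σ i) i := by
    funext τ
    rw [Matrix.det_apply']
    simp [mat, Finset.sum_apply, Finset.prod_apply]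
  rw [this]
  apply MDifferentiable.sum
  intro σ _
  apply MDifferentiable.const_smul
  apply MDifferentiable.prod
  intro i _
  exact hF _ _

lemma VM_neg [Γ.FiniteIndex] {k : ℤ} (hk : k < 0) {F : X → ℍ → ℂ} (hF : F ∈ VM Γ k) : F = 0 := by
  have h1 : (VMEquiv Γ k).symm ⟨F, hF⟩ = 0 := ModularForm.isZero_of_neg_weight hk _
  have h2 : (⟨F, hF⟩ : VM Γ k) = 0 := by
    rw [← (VMEquiv Γ k).apply_symm_apply ⟨F, hF⟩, h1, map_zero]
  exact congrArg Subtype.val h2

/-- The replacement lemma: in a minimal family no relation produces a divisible form. -/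
lemma replace [Γ.FiniteIndex] {F : X → X → ℍ → ℂ} {κ : X → ℕ} (hmin : IsMinFam F κ) (l₀ : X)
    {P : X → ℍ → ℂ} {e w : ℕ} (hew : e < w)
    (hP : ∀ l, P l ∈ R (2 * (κ l₀ : ℤ) + 2 * e - 2 * κ l)) (hP0 : P l₀ ≠ 0)
    {G : ℍ → ℂ} (hG : ∀ γ : SL(2, ℤ), G ∣[(2 * w : ℤ)] γ = G) (hGm : MDiff G) (hG0 : G ≠ 0)
    {h : X → ℍ → ℂ} (hh : ∀ x, MDiff (h x)) (hbd : ∀ x, IsBoundedAtImInfty (h x))
    (heq : ∀ x τ, ∑ l, P l τ * F l x τ = G τ * h x τ) : False := by
  classical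
  obtain ⟨⟨hF, τ₁, hτ₁⟩, hmin⟩ := hmin
  have hFm : ∀ l x, MDiff (F l x) := fun l x => (hF l).2.1 x
  -- the combination is a form
  have hΦ : (fun x => ∑ l, P l * F l x) ∈ VM Γ (2 * (κ l₀ : ℤ) + 2 * e) := by
    have : (fun x => ∑ l, P l * F l x) = ∑ l, (fun x => P l * F l x) := by
      funext x; simp [Finset.sum_apply]
    rw [this]
    apply Submodule.sum_mem
    intro l _
    exact VM_mul' (hP l) (hF l) (by ring)
  have hΦe : ∀ x, (∑ l, P l * F l x) = G * h x := by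
    intro x; funext τ
    simpa [Finset.sum_apply] using heq x τ
  -- `h` is a form
  have hhV : h ∈ VM Γ (2 * (κ l₀ : ℤ) + 2 * e - 2 * w) := by
    refine ⟨fun γ x => ?_, hh, hbd⟩
    have h1 := hΦ.1 γ x
    simp only [hΦe] at h1
    have h2 : (G * h x) ∣[(2 * (κ l₀ : ℤ) + 2 * e)] γ =
        G * (h x ∣[(2 * (κ l₀ : ℤ) + 2 * e - 2 * w)] γ) := by
      have := mul_slash_SL2 (2 * w : ℤ) (2 * (κ l₀ : ℤ) + 2 * e - 2 * w) γ G (h x)
      rw [hG] at this
      rw [← this]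
      congr 1
      ring
    rw [h2] at h1
    have h3 : G * (h x ∣[(2 * (κ l₀ : ℤ) + 2 * e - 2 * w)] γ - h (γ⁻¹ • x)) = 0 := by
      rw [mul_sub, h1, sub_self]
    have hm : MDiff (h x ∣[(2 * (κ l₀ : ℤ) + 2 * e - 2 * w)] γ) := (hh x).slash _ _
    rcases (UpperHalfPlane.mul_eq_zero_iff hGm (hm.sub (hh _))).1 h3 with h4 | h4
    · exact absurd h4 hG0
    · exact sub_eq_zero.1 h4
  -- the determinant
  have hdet : ∀ τ, G τ * ((mat F τ).updateRow l₀ (fun x => h x τ)).det =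
      P l₀ τ * (mat F τ).det := by
    intro τ
    rw [← Matrix.det_updateRow_smul]
    have : (G τ • fun x => h x τ) = ∑ l, P l τ • (mat F τ) l := by
      funext x
      simp only [Pi.smul_apply, smul_eq_mul, Finset.sum_apply, mat, Matrix.of_apply]
      exact (heq x τ).symm
    rw [this, Matrix.det_updateRow_sum]
    simp
  -- the new family
  set F' : X → X → ℍ → ℂ := Function.update F l₀ h with hF'
  have hmat : ∀ τ, mat F' τ = (mat F τ).updateRow l₀ (fun x => h x τ) := by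
    intro τ
    ext l x
    by_cases hl : l = l₀
    · subst hl; simp [mat, hF']
    · simp [mat, hF', hl]
  have hne : ∃ τ, (mat F' τ).det ≠ 0 := by
    by_contra hcon
    push Not at hcon
    have h1 : P l₀ * (fun τ => (mat F τ).det) = 0 := by
      funext τ
      have := hdet τ
      rw [← hmat, hcon, mul_zero] at this
      simpa using this.symm
    rcases (UpperHalfPlane.mul_eq_zero_iff (hP l₀).2.1 (det_mdiff hFm)).1 h1 with h2 | h2
    · exact hP0 h2
    · exact hτ₁ (congrFun h2 τ₁)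
  -- weight of `h` is non negative
  have hwt : 0 ≤ 2 * (κ l₀ : ℤ) + 2 * e - 2 * w := by
    by_contra hneg
    push Not at hneg
    have h0 := VM_neg hneg hhV
    obtain ⟨τ, hτ⟩ := hne
    apply hτ
    rw [hmat, h0]
    apply Matrix.det_eq_zero_of_row_eq_zero l₀
    intro x
    simp
  set κ' : X → ℕ := Function.update κ l₀ (κ l₀ + e - w) with hκ'
  have hfam : IsFam F' κ' := by
    refine ⟨fun l => ?_, hne⟩
    by_cases hl : l = l₀
    · subst hl
      simp only [hF', hκ', Function.update_self]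
      have : (2 * ((κ l + e - w : ℕ) : ℤ)) = 2 * (κ l : ℤ) + 2 * e - 2 * w := by omega
      rw [this]
      exact hhV
    · simp only [hF', hκ', Function.update_of_ne hl]
      exact hF l
  have h1 := hmin F' κ' hfam
  have h2 : ∑ l, κ' l < ∑ l, κ l := by
    apply Finset.sum_lt_sum
    · intro l _
      by_cases hl : l = l₀
      · subst hl; simp only [hκ', Function.update_self]; omega
      · simp [hκ', Function.update_of_ne hl]
    · exact ⟨l₀, Finset.mem_univ _, by simp only [hκ', Function.update_self]; omega⟩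
  omega

lemma sum_smul_mem {F : X → X → ℍ → ℂ} {κ : X → ℕ} (hF : ∀ l, F l ∈ VM Γ (2 * (κ l : ℤ)))
    {P : X → ℍ → ℂ} {k : ℤ} (hP : ∀ l, P l ∈ R (k - 2 * κ l)) :
    (fun x => ∑ l, P l * F l x) ∈ VM Γ k := by
  have : (fun x => ∑ l, P l * F l x) = ∑ l, (fun x => P l * F l x) := by
    funext x; simp [Finset.sum_apply]
  rw [this]
  apply Submodule.sum_mem
  intro l _
  exact VM_mul' (hP l) (hF l) (by ring)

/-- no relation at a point `τ₀` -/
lemma point_replace [Γ.FiniteIndex] {F : X → X → ℍ → ℂ} {κ : X → ℕ} (hmin : IsMinFam F κ)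
    (τ₀ : ℍ) {v : X → ℂ} {l₀ : X} (hv : v l₀ ≠ 0) (hrel : ∀ x, ∑ l, v l * F l x τ₀ = 0)
    {e w : ℕ} (hew : e < w) {p : X → ℍ → ℂ}
    (hp : ∀ l, v l ≠ 0 → p l ∈ R (2 * (κ l₀ : ℤ) + 2 * e - 2 * κ l))
    (hp1 : ∀ l, v l ≠ 0 → p l τ₀ = 1)
    {G : ℍ → ℂ} (hG : ∀ γ : SL(2, ℤ), G ∣[(2 * w : ℤ)] γ = G) (hGm : MDiff G)
    (hzero : ∀ τ, G τ = 0 → ∃ γ : SL(2, ℤ), γ • τ₀ = τ)
    (hsimple : ∀ τ, G τ = 0 → deriv (G ∘ ofComplex) τ ≠ 0)
    {a : ℂ} (ha : a ≠ 0) (hGa : Tendsto G atImInfty (𝓝 a)) : False := by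
  classical
  set P : X → ℍ → ℂ := fun l => v l • p l with hPdef
  have hP : ∀ l, P l ∈ R (2 * (κ l₀ : ℤ) + 2 * e - 2 * κ l) := by
    intro l
    by_cases h : v l = 0
    · simp only [hPdef, h, zero_smul]; exact Submodule.zero_mem _
    · exact Submodule.smul_mem _ _ (hp l h)
  have hPτ : ∀ l, P l τ₀ = v l := by
    intro l
    by_cases h : v l = 0
    · simp [hPdef, h]
    · simp [hPdef, hp1 l h]
  have hP0 : P l₀ ≠ 0 := by
    intro h
    have := congrFun h τ₀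
    rw [hPτ] at this
    exact hv this
  have hΦ := sum_smul_mem hmin.1.1 hP
  have hvan : ∀ x τ, G τ = 0 → (∑ l, P l * F l x) τ = 0 := by
    intro x τ hτ
    obtain ⟨γ, rfl⟩ := hzero τ hτ
    have h1 := congrFun (hΦ.1 γ x) τ₀
    rw [SL_slash_apply] at h1
    beta_reduce at h1
    have h2 : (∑ l, P l * F l (γ⁻¹ • x)) τ₀ = 0 := by
      rw [Finset.sum_apply, ← hrel (γ⁻¹ • x)]
      apply Finset.sum_congr rfl
      intro l _
      rw [Pi.mul_apply, hPτ]
    rw [h2] at h1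
    rcases _root_.mul_eq_zero.1 h1 with h | h
    · exact h
    · exact absurd h (zpow_ne_zero _ (denom_ne_zero _ _))
  choose h hhm hhe using fun x => exists_div (hΦ.2.1 x) hGm hsimple (hvan x)
  have hG0 : G ≠ 0 := by
    rintro rfl
    exact ha (tendsto_nhds_unique hGa tendsto_const_nhds)
  refine replace hmin l₀ hew hP hP0 hG hGm hG0 hhm ?_ (fun x τ => ?_)
  · intro x
    have h1 : Tendsto (fun τ => (G τ)⁻¹) atImInfty (𝓝 a⁻¹) := hGa.inv₀ ha
    have h2 : (fun τ => (G τ)⁻¹) =O[atImInfty] fun _ : ℍ => (1 : ℝ) := h1.isBigO_one ℝ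
    have h3 : (fun τ => (∑ l, P l * F l x) τ) =O[atImInfty] fun _ : ℍ => (1 : ℝ) := hΦ.2.2 x
    have h4 := h2.mul h3
    simp only [mul_one] at h4
    refine h4.congr' ?_ (by rfl)
    filter_upwards [hGa.eventually_ne ha] with τ hτ
    have h5 : (∑ l, P l * F l x) τ = G τ * h x τ := hhe x τ
    rw [h5]
    field_simp
  · have h5 : (∑ l, P l * F l x) τ = G τ * h x τ := hhe x τ
    rw [← h5]
    simp [Finset.sum_apply]

lemma disc_mdiff : MDiff (discriminant : ℍ → ℂ) := CuspForm.discriminant.holo'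

lemma disc_slash (γ : SL(2, ℤ)) : (discriminant : ℍ → ℂ) ∣[(12 : ℤ)] γ = discriminant :=
  CuspForm.discriminant.slash_action_eq' _ ⟨γ, rfl⟩

/-- no relation at infinity -/
lemma inf_replace [Γ.FiniteIndex] {F : X → X → ℍ → ℂ} {κ : X → ℕ} (hmin : IsMinFam F κ)
    {n : ℕ} (hn : 0 < n) (hT : ∀ x : X, ModularGroup.T ^ n • x = x)
    {C : X → X → ℂ} (hC : ∀ l, Tendsto (fun τ => untw Γ n τ (fun y => F l y τ)) atImInfty (𝓝 (C l)))
    {v : X → ℂ} {l₀ : X} (hv : v l₀ ≠ 0) (hrel : ∑ l, v l • C l = 0)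
    {e : ℕ} (hew : e < 6) {p : X → ℍ → ℂ}
    (hp : ∀ l, v l ≠ 0 → p l ∈ R (2 * (κ l₀ : ℤ) + 2 * e - 2 * κ l))
    (hp1 : ∀ l, v l ≠ 0 → Tendsto (p l) atImInfty (𝓝 1)) : False := by
  classical
  set P : X → ℍ → ℂ := fun l => v l • p l with hPdef
  have hP : ∀ l, P l ∈ R (2 * (κ l₀ : ℤ) + 2 * e - 2 * κ l) := by
    intro l
    by_cases h : v l = 0
    · simp only [hPdef, h, zero_smul]; exact Submodule.zero_mem _
    · exact Submodule.smul_mem _ _ (hp l h)
  have hPτ : ∀ l, Tendsto (P l) atImInfty (𝓝 (v l)) := by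
    intro l
    by_cases h : v l = 0
    · simp only [hPdef, h, zero_smul]; exact tendsto_const_nhds
    · have := (hp1 l h).const_mul (v l)
      rw [mul_one] at this
      exact this
  have hP0 : P l₀ ≠ 0 := by
    intro h
    have h1 := hPτ l₀
    rw [h] at h1
    exact hv (tendsto_nhds_unique h1 tendsto_const_nhds)
  have hΦ := sum_smul_mem hmin.1.1 hP
  obtain ⟨c, hc, hc0, -⟩ := exists_cvec hn hT hΦ
  have hcz : c = 0 := by
    have h1 : Tendsto (fun τ => ∑ l, P l τ • untw Γ n τ (fun y => F l y τ)) atImInfty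
        (𝓝 (∑ l, v l • C l)) :=
      tendsto_finsetSum _ fun l _ => (hPτ l).smul (hC l)
    rw [hrel] at h1
    refine tendsto_nhds_unique hc (h1.congr ?_)
    intro τ
    have : (fun y => (∑ l, P l * F l y) τ) = ∑ l, P l τ • (fun y => F l y τ) := by
      funext y; simp [Finset.sum_apply]
    rw [this, map_sum]
    simp
  have hdecay := hc0 hcz
  refine replace hmin l₀ hew hP hP0 (G := discriminant) (by simpa using disc_slash)
    disc_mdiff ?_ (h := fun x τ => (∑ l, P l * F l x) τ / discriminant τ) ?_ ?_ (fun x τ => ?_)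
  · intro h
    exact discriminant_ne_zero UpperHalfPlane.I (congrFun h _)
  · intro x
    exact (hΦ.2.1 x).div disc_mdiff discriminant_ne_zero
  · intro x
    exact (Asymptotics.div_isBoundedUnder_of_isBigO ((hdecay x).trans exp_isBigO_discriminant)).isBigO_one ℝ
  · have := discriminant_ne_zero τ
    field_simp
    simp [Finset.sum_apply]

end fin

end Fermat.Agent.VVMF
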