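import Mathlib

/-!
# Traces of `S` and `S * T` on `ℂ^X` computed in a basis of values of vector valued forms
-/

set_option autoImplicit false

open Matrix UpperHalfPlane ModularForm
open scoped MatrixGroups ModularForm

namespace Fermat.Agent.VVMF.Traces

/-- The trace of a permutation operator computed in any eigenbasis. -/
theorem sum_eigenvalues_eq {X J : Type*} [Finite X] [Fintype J] (f : X → X)
    (b : Module.Basis J ℂ (X → ℂ)) (c : J → ℂ) (h : ∀ j x, b j (f x) = c j * b j x) :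
    ∑ j, c j = Nat.card {x : X // f x = x} := by
  classical
  have : Fintype X := Fintype.ofFinite X
  let P : (X → ℂ) →ₗ[ℂ] (X → ℂ) := LinearMap.funLeft ℂ ℂ f
  have h1 : LinearMap.trace ℂ (X → ℂ) P = ∑ j, c j := by
    rw [LinearMap.trace_eq_matrix_trace ℂ b, Matrix.trace]
    refine Finset.sum_congr rfl fun j _ => ?_
    have hP : P (b j) = c j • b j := by
      ext x
      simp [P, LinearMap.funLeft_apply, h]
    rw [Matrix.diag_apply, LinearMap.toMatrix_apply, hP, map_smul, Module.Basis.repr_self]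
    simp
  have h2 : LinearMap.trace ℂ (X → ℂ) P = Nat.card {x : X // f x = x} := by
    rw [LinearMap.trace_eq_matrix_trace ℂ (Pi.basisFun ℂ X), Matrix.trace]
    have : ∀ x : X, Matrix.diag (LinearMap.toMatrix (Pi.basisFun ℂ X) (Pi.basisFun ℂ X) P) x =
        if f x = x then 1 else 0 := by
      intro x
      rw [Matrix.diag_apply, LinearMap.toMatrix_apply]
      simp only [P, Pi.basisFun_apply, Pi.basisFun_repr, LinearMap.funLeft_apply]
      simp [Pi.single_apply]
    rw [Finset.sum_congr rfl fun x _ => this x]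
    rw [Finset.sum_boole, ← Fintype.card_subtype, ← Nat.card_eq_fintype_card]
  rw [← h1, h2]

/-- Trace identity at a fixed point of `g`. -/
theorem sum_eq_card_fixed {X J : Type*} [Finite X] [MulAction SL(2, ℤ) X] [Fintype J]
    (κ : J → ℕ) (F : J → X → ℍ → ℂ) (g : SL(2, ℤ)) (τ : ℍ) (hτ : g • τ = τ)
    (hF : ∀ j x, F j x ∣[(2 * (κ j : ℤ))] g = F j (g⁻¹ • x))
    (hcard : Fintype.card J = Nat.card X)
    (hlin : LinearIndependent ℂ fun (j : J) (x : X) => F j x τ) :
    ∑ j, ((denom g τ ^ 2)⁻¹) ^ (κ j) = Nat.card {x : X // g • x = x} := by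
  classical
  have : Fintype X := Fintype.ofFinite X
  let b := basisOfLinearIndependentOfCardEqFinrank' (b := fun (j : J) (x : X) => F j x τ) hlin
    (by rw [hcard, Module.finrank_fintype_fun_eq_card, Nat.card_eq_fintype_card])
  have hb : ∀ j x, b j x = F j x τ := fun j x => by simp [b]
  have h := sum_eigenvalues_eq (fun x : X => g⁻¹ • x) b (fun j => ((denom g τ ^ 2)⁻¹) ^ (κ j))
    (fun j x => by
      rw [hb, hb, ← hF, SL_slash_apply, hτ, mul_comm]
      congr 1
      rw [inv_pow, ← pow_mul, _root_.zpow_neg]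
      norm_cast)
  rw [h]
  congr 1
  refine Nat.card_congr (Equiv.subtypeEquivRight fun x => ?_)
  rw [inv_smul_eq_iff]
  exact eq_comm

/-- The elliptic point `ρ = e^{2πi/3}`. -/
noncomputable def rho : ℍ := ⟨⟨-1 / 2, Real.sqrt 3 / 2⟩, by simp⟩

theorem coe_rho_sq : (rho : ℂ) ^ 2 + rho + 1 = 0 := by
  have h3 : Real.sqrt 3 * Real.sqrt 3 = 3 := Real.mul_self_sqrt (by norm_num)
  have : (rho : ℂ) = ⟨-1 / 2, Real.sqrt 3 / 2⟩ := rfl
  rw [this]
  apply Complex.ext
  · simp [pow_two]
    nlinarith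
  · simp [pow_two]
    ring

theorem S_smul_I : ModularGroup.S • (UpperHalfPlane.I) = UpperHalfPlane.I := by
  ext
  rw [UpperHalfPlane.modular_S_smul]
  simp

theorem one_add_rho_ne_zero : (1 : ℂ) + rho ≠ 0 := by
  intro h
  have hr := coe_rho_sq
  have : (rho : ℂ) = -1 := by linear_combination h
  rw [this] at hr
  norm_num at hr

theorem ST_smul_rho : (ModularGroup.S * ModularGroup.T) • rho = rho := by
  have hr := coe_rho_sq
  have hne := one_add_rho_ne_zero
  ext
  rw [mul_smul, UpperHalfPlane.modular_S_smul, UpperHalfPlane.modular_T_smul]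
  show (-(((1 : ℝ) +ᵥ rho : ℍ) : ℂ))⁻¹ = rho
  rw [UpperHalfPlane.coe_vadd]
  push_cast
  have h0 : (rho : ℂ) ≠ 0 := rho.ne_zero
  rw [inv_eq_iff_eq_inv]
  refine eq_inv_of_mul_eq_one_left ?_
  linear_combination -hr

theorem denom_S_I : denom (ModularGroup.S : SL(2, ℤ)) (UpperHalfPlane.I : ℂ) = Complex.I := by
  have := ModularGroup.denom_S UpperHalfPlane.I
  simpa using this

theorem denom_ST_rho : denom ((ModularGroup.S * ModularGroup.T : SL(2, ℤ))) (rho : ℂ) = 1 + rho := by
  rw [ModularGroup.denom_apply]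
  have h10 : (ModularGroup.S * ModularGroup.T : SL(2, ℤ)) 1 0 = 1 := by decide
  have h11 : (ModularGroup.S * ModularGroup.T : SL(2, ℤ)) 1 1 = 1 := by decide
  rw [h10, h11]
  push_cast
  ring

/-- **Trace of `S`.** -/
theorem sum_neg_one_pow {X J : Type*} [Finite X] [MulAction SL(2, ℤ) X] [Fintype J]
    (κ : J → ℕ) (F : J → X → ℍ → ℂ)
    (hF : ∀ j (g : SL(2, ℤ)) x, F j x ∣[(2 * (κ j : ℤ))] g = F j (g⁻¹ • x))
    (hcard : Fintype.card J = Nat.card X)
    (hlin : LinearIndependent ℂ fun (j : J) (x : X) => F j x UpperHalfPlane.I) :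
    ∑ j, (-1 : ℂ) ^ (κ j) = Nat.card {x : X // ModularGroup.S • x = x} := by
  rw [← sum_eq_card_fixed κ F ModularGroup.S UpperHalfPlane.I S_smul_I (fun j x => hF j _ x)
    hcard hlin]
  refine Finset.sum_congr rfl fun j _ => ?_
  rw [denom_S_I]
  simp

/-- The cube root of unity of the trace formula for `S * T`. -/
noncomputable def omega : ℂ := (((1 : ℂ) + rho) ^ 2)⁻¹

theorem omega_eq : omega = (rho : ℂ) ^ 2 := by
  have hr := coe_rho_sq
  rw [omega, inv_eq_iff_eq_inv]
  refine eq_inv_of_mul_eq_one_left ?_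
  linear_combination ((rho : ℂ) ^ 2 + rho - 1) * hr

theorem omega_isPrimitiveRoot : IsPrimitiveRoot omega 3 := by
  have hr := coe_rho_sq
  have h3 : (rho : ℂ) ^ 3 = 1 := by linear_combination ((rho : ℂ) - 1) * hr
  have h1 : (rho : ℂ) ≠ 1 := by
    intro h
    rw [h] at hr
    norm_num at hr
  have hp : IsPrimitiveRoot (rho : ℂ) 3 := by
    rw [IsPrimitiveRoot.iff_orderOf]
    exact orderOf_eq_prime h3 h1
  rw [omega_eq]
  exact hp.pow_of_coprime 2 (by norm_num)

/-- **Trace of `S * T`.** -/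
theorem sum_omega_pow {X J : Type*} [Finite X] [MulAction SL(2, ℤ) X] [Fintype J]
    (κ : J → ℕ) (F : J → X → ℍ → ℂ)
    (hF : ∀ j (g : SL(2, ℤ)) x, F j x ∣[(2 * (κ j : ℤ))] g = F j (g⁻¹ • x))
    (hcard : Fintype.card J = Nat.card X)
    (hlin : LinearIndependent ℂ fun (j : J) (x : X) => F j x rho) :
    ∑ j, omega ^ (κ j) =
      Nat.card {x : X // (ModularGroup.S * ModularGroup.T) • x = x} := by
  rw [← sum_eq_card_fixed κ F (ModularGroup.S * ModularGroup.T) rho ST_smul_rho
    (fun j x => hF j _ x) hcard hlin]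
  refine Finset.sum_congr rfl fun j _ => ?_
  rw [denom_ST_rho, omega]

/-- Linear independence of the rows from the nonvanishing of the determinant. -/
theorem linearIndependent_of_det {X : Type*} [Fintype X] [DecidableEq X]
    (F : X → X → ℍ → ℂ) (τ : ℍ) (hdet : (Matrix.of fun l x => F l x τ).det ≠ 0) :
    LinearIndependent ℂ fun (j : X) (x : X) => F j x τ :=
  Matrix.linearIndependent_rows_iff_isUnit.mpr
    ((Matrix.isUnit_iff_isUnit_det _).mpr (isUnit_iff_ne_zero.mpr hdet))

/-- **Trace of `S`**, determinant form. -/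
theorem sum_neg_one_pow_of_det {X : Type*} [Fintype X] [DecidableEq X] [MulAction SL(2, ℤ) X]
    (κ : X → ℕ) (F : X → X → ℍ → ℂ)
    (hF : ∀ j (g : SL(2, ℤ)) x, F j x ∣[(2 * (κ j : ℤ))] g = F j (g⁻¹ • x))
    (hdet : (Matrix.of fun l x => F l x UpperHalfPlane.I).det ≠ 0) :
    ∑ j, (-1 : ℂ) ^ (κ j) = Nat.card {x : X // ModularGroup.S • x = x} :=
  sum_neg_one_pow κ F hF Nat.card_eq_fintype_card.symm (linearIndependent_of_det F _ hdet)

/-- **Trace of `S * T`**, determinant form. -/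
theorem sum_omega_pow_of_det {X : Type*} [Fintype X] [DecidableEq X] [MulAction SL(2, ℤ) X]
    (κ : X → ℕ) (F : X → X → ℍ → ℂ)
    (hF : ∀ j (g : SL(2, ℤ)) x, F j x ∣[(2 * (κ j : ℤ))] g = F j (g⁻¹ • x))
    (hdet : (Matrix.of fun l x => F l x rho).det ≠ 0) :
    ∑ j, omega ^ (κ j) = Nat.card {x : X // (ModularGroup.S * ModularGroup.T) • x = x} :=
  sum_omega_pow κ F hF Nat.card_eq_fintype_card.symm (linearIndependent_of_det F _ hdet)

end Fermat.Agent.VVMF.Traces
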