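import Mathlib
import Fermat.Agent.VVMF.Family
import Fermat.Agent.VVMF.Traces

set_option autoImplicit false

open Filter Topology UpperHalfPlane ModularForm EisensteinSeries Derivative
open scoped MatrixGroups Manifold Topology ModularForm

namespace Fermat.Agent.VVMF

/-- monomials in `E₄, E₆` -/
lemma exists_mono (m : ℕ) (hm : 2 ≤ m) :
    ∃ f ∈ R (2 * (m : ℤ)), (∀ τ, E₄ τ ≠ 0 → E₆ τ ≠ 0 → f τ ≠ 0) ∧ Tendsto f atImInfty (𝓝 1) := by
  obtain ⟨a, b, hab⟩ : ∃ a b : ℕ, 2 * a + 3 * b = m := by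
    rcases Nat.even_or_odd' m with ⟨c, hc | hc⟩
    · exact ⟨c, 0, by omega⟩
    · exact ⟨c - 1, 1, by omega⟩
  refine ⟨(E₄ : ℍ → ℂ) ^ a * (E₆ : ℍ → ℂ) ^ b, ?_, ?_, ?_⟩
  · refine R_mul' (R_pow E4_mem a) (R_pow E6_mem b) ?_
    rw [← hab]; push_cast; ring
  · intro τ h4 h6
    simp only [Pi.mul_apply, Pi.pow_apply]
    exact mul_ne_zero (pow_ne_zero _ h4) (pow_ne_zero _ h6)
  · have h1 := (tendsto_E4.pow a).mul (tendsto_E6.pow b)
    rw [one_pow, one_pow, one_mul] at h1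
    exact h1

variable {Γ : Subgroup SL(2, ℤ)} 

local notation "X" => (SL(2, ℤ) ⧸ Γ)

section fin

variable [Fintype (SL(2, ℤ) ⧸ Γ)] [DecidableEq (SL(2, ℤ) ⧸ Γ)]

omit [DecidableEq (SL(2, ℤ) ⧸ Γ)] in
lemma exists_max_support (κ : X → ℕ) {v : X → ℂ} (hv : v ≠ 0) :
    ∃ l₀, v l₀ ≠ 0 ∧ ∀ l, v l ≠ 0 → κ l ≤ κ l₀ := by
  classical
  obtain ⟨l₁, hl₁⟩ := Function.ne_iff.1 hv
  obtain ⟨l₀, h1, h2⟩ := Finset.exists_max_image (Finset.univ.filter fun l => v l ≠ 0) κ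
    ⟨l₁, by simpa using hl₁⟩
  refine ⟨l₀, by simpa using h1, fun l hl => h2 l (by simpa using hl)⟩

lemma exists_rel {F : X → X → ℍ → ℂ} {τ : ℍ} (h : (mat F τ).det = 0) :
    ∃ v : X → ℂ, v ≠ 0 ∧ ∀ x, ∑ l, v l * F l x τ = 0 := by
  obtain ⟨v, hv, h⟩ := Matrix.exists_vecMul_eq_zero_iff.2 h
  refine ⟨v, hv, fun x => ?_⟩
  have := congrFun h x
  simpa [Matrix.vecMul, dotProduct, mat] using this

lemma det_eq_zero_of_rel {F : X → X → ℍ → ℂ} {τ : ℍ} {v : X → ℂ} (hv : v ≠ 0)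
    (h : ∀ x, ∑ l, v l * F l x τ = 0) : (mat F τ).det = 0 := by
  apply Matrix.exists_vecMul_eq_zero_iff.1
  refine ⟨v, hv, ?_⟩
  funext x
  simpa [Matrix.vecMul, dotProduct, mat] using h x

lemma det_smul_eq_zero {F : X → X → ℍ → ℂ} {κ : X → ℕ} (hF : ∀ l, F l ∈ VM Γ (2 * (κ l : ℤ)))
    {τ : ℍ} (γ : SL(2, ℤ)) (h : (mat F (γ • τ)).det = 0) : (mat F τ).det = 0 := by
  obtain ⟨v, hv, hrel⟩ := exists_rel h
  have hd : denom γ τ ≠ 0 := denom_ne_zero _ _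
  refine det_eq_zero_of_rel (v := fun l => v l * denom γ τ ^ (2 * (κ l : ℤ))) ?_ ?_
  · obtain ⟨l, hl⟩ := Function.ne_iff.1 hv
    refine Function.ne_iff.2 ⟨l, ?_⟩
    exact mul_ne_zero hl (zpow_ne_zero _ hd)
  · intro x
    have h1 : ∀ l, F l x τ = F l (γ • x) (γ • τ) * denom γ τ ^ (-(2 * (κ l : ℤ))) := by
      intro l
      have := congrFun ((hF l).1 γ (γ • x)) τ
      rw [SL_slash_apply, inv_smul_smul] at this
      exact this.symm
    rw [← hrel (γ • x)]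
    apply Finset.sum_congr rfl
    intro l _
    rw [h1, _root_.zpow_neg]
    have := zpow_ne_zero (2 * (κ l : ℤ)) hd
    field_simp

/-- non vanishing at generic points -/
lemma det_ne_zero_generic [Γ.FiniteIndex] {F : X → X → ℍ → ℂ} {κ : X → ℕ}
    (hmin : IsMinFam F κ) (τ : ℍ) (h4 : E₄ τ ≠ 0) (h6 : E₆ τ ≠ 0) : (mat F τ).det ≠ 0 := by
  intro h
  obtain ⟨v, hv, hrel⟩ := exists_rel h
  obtain ⟨l₀, hl₀, hmax⟩ := exists_max_support κ hv
  choose f hf hfne _ using fun m : ℕ => exists_mono (m + 2) (by omega)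
  refine point_replace hmin τ hl₀ hrel (e := 2) (w := 6) (by norm_num)
    (p := fun l => (f (κ l₀ - κ l) τ)⁻¹ • f (κ l₀ - κ l)) ?_ ?_ (G := genForm τ) ?_
    (genForm τ).holo' (genForm_zero τ) (fun τ' h' => genForm_simple τ τ' h4 h6 h')
    (a := E₆ τ ^ 2 - E₄ τ ^ 3) ?_ ?_
  · intro l hl
    apply Submodule.smul_mem
    have := hf (κ l₀ - κ l)
    have hle := hmax l hl
    have e1 : 2 * ((κ l₀ - κ l + 2 : ℕ) : ℤ) = 2 * (κ l₀ : ℤ) + 2 * (2 : ℕ) - 2 * κ l := by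
      push_cast; omega
    rwa [e1] at this
  · intro l _
    have := hfne (κ l₀ - κ l) τ h4 h6
    simp [this]
  · intro γ
    exact (genForm τ).slash_action_eq' _ ⟨γ, rfl⟩
  · have := discriminant_eq_E₄_cube_sub_E₆_sq τ
    intro h
    apply discriminant_ne_zero τ
    rw [this]
    linear_combination (-1 / 1728) * h
  · have h1 : (genForm τ : ℍ → ℂ) = fun τ' => E₆ τ ^ 2 * E₄ τ' ^ 3 - E₄ τ ^ 3 * E₆ τ' ^ 2 := by
      funext τ'
      exact genForm_apply τ τ'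
    rw [h1]
    have := ((tendsto_E4.pow 3).const_mul (E₆ τ ^ 2)).sub ((tendsto_E6.pow 2).const_mul (E₄ τ ^ 3))
    simpa using this

/-- non vanishing at infinity -/
lemma det_ne_zero_inf [Γ.FiniteIndex] {F : X → X → ℍ → ℂ} {κ : X → ℕ} (hmin : IsMinFam F κ)
    {n : ℕ} (hn : 0 < n) (hT : ∀ x : X, ModularGroup.T ^ n • x = x)
    {C : Matrix X X ℂ} (hC : ∀ l, Tendsto (fun τ => untw Γ n τ (fun y => F l y τ)) atImInfty (𝓝 (C l))) :
    C.det ≠ 0 := by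
  intro h
  obtain ⟨v, hv, hrel⟩ := Matrix.exists_vecMul_eq_zero_iff.2 h
  obtain ⟨l₀, hl₀, hmax⟩ := exists_max_support κ hv
  choose f hf _ hflim using fun m : ℕ => exists_mono (m + 2) (by omega)
  refine inf_replace hmin hn hT hC hl₀ ?_ (e := 2) (by norm_num)
    (p := fun l => f (κ l₀ - κ l)) ?_ ?_
  · funext x
    have := congrFun hrel x
    simpa [Matrix.vecMul, dotProduct, Finset.sum_apply] using this
  · intro l hl
    have := hf (κ l₀ - κ l)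
    have hle := hmax l hl
    have e1 : 2 * ((κ l₀ - κ l + 2 : ℕ) : ℤ) = 2 * (κ l₀ : ℤ) + 2 * (2 : ℕ) - 2 * κ l := by
      push_cast; omega
    rwa [e1] at this
  · intro l _
    exact hflim _

omit [DecidableEq (SL(2, ℤ) ⧸ Γ)] in
lemma rel_pow {F : X → X → ℍ → ℂ} {κ : X → ℕ} (hF : ∀ l, F l ∈ VM Γ (2 * (κ l : ℤ)))
    {τ₀ : ℍ} {g₀ : SL(2, ℤ)} (hfix : g₀ • τ₀ = τ₀) {v : X → ℂ}
    (hrel : ∀ x, ∑ l, v l * F l x τ₀ = 0) (s : ℕ) :
    ∀ x, ∑ l, v l * ((denom g₀ τ₀ ^ 2)⁻¹ ^ κ l) ^ s * F l x τ₀ = 0 := by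
  have h1 : ∀ l x, F l (g₀⁻¹ • x) τ₀ = (denom g₀ τ₀ ^ 2)⁻¹ ^ κ l * F l x τ₀ := by
    intro l x
    rw [← (hF l).1 g₀ x, SL_slash_apply, hfix, mul_comm]
    congr 1
    rw [inv_pow, ← pow_mul, _root_.zpow_neg]
    norm_cast
  induction s with
  | zero => simpa using hrel
  | succ s ih =>
    intro x
    rw [← ih (g₀⁻¹ • x)]
    apply Finset.sum_congr rfl
    intro l _
    rw [h1]
    ring

lemma sum_root {ω : ℂ} {m : ℕ} (hω : IsPrimitiveRoot ω m) (hm : 0 < m) (a b : ℕ) :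
    ∑ s ∈ Finset.range m, (ω⁻¹ ^ a * ω ^ b) ^ s = if b % m = a % m then (m : ℂ) else 0 := by
  have hω0 : ω ≠ 0 := hω.ne_zero hm.ne'
  split_ifs with h
  · have : ω⁻¹ ^ a * ω ^ b = 1 := by
      rw [inv_pow, inv_mul_eq_one₀ (pow_ne_zero _ hω0)]
      rw [← pow_mod_orderOf ω a, ← pow_mod_orderOf ω b, ← hω.eq_orderOf, h]
    rw [this]
    simp
  · have h2 : ω⁻¹ ^ a * ω ^ b ≠ 1 := by
      intro h'
      rw [inv_pow, inv_mul_eq_one₀ (pow_ne_zero _ hω0)] at h'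
      rw [← pow_mod_orderOf ω a, ← pow_mod_orderOf ω b, ← hω.eq_orderOf] at h'
      exact h (hω.pow_inj (Nat.mod_lt _ hm) (Nat.mod_lt _ hm) h').symm
    have h3 : (ω⁻¹ ^ a * ω ^ b) ^ m = 1 := by
      rw [mul_pow, ← pow_mul, ← pow_mul, mul_comm a m, mul_comm b m, pow_mul, pow_mul, inv_pow,
        hω.pow_eq_one]; simp
    have h4 := geom_sum_eq h2 m
    rw [h3, sub_self, zero_div] at h4
    exact h4

/-- non vanishing at special points -/
lemma det_ne_zero_special [Γ.FiniteIndex] {F : X → X → ℍ → ℂ} {κ : X → ℕ}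
    (hmin : IsMinFam F κ) {τ₀ : ℍ} {g₀ : SL(2, ℤ)} (hfix : g₀ • τ₀ = τ₀) {m : ℕ} (hm : 0 < m)
    (hω : IsPrimitiveRoot (denom g₀ τ₀ ^ 2)⁻¹ m) {E : ℍ → ℂ} (hE : E ∈ R (2 * (m : ℤ)))
    (hEτ : E τ₀ ≠ 0) {w : ℕ} (hw : 0 < w)
    {G : ℍ → ℂ} (hG : ∀ γ : SL(2, ℤ), G ∣[(2 * w : ℤ)] γ = G) (hGm : MDiff G)
    (hzero : ∀ τ, G τ = 0 → ∃ γ : SL(2, ℤ), γ • τ₀ = τ)
    (hsimple : ∀ τ, G τ = 0 → deriv (G ∘ ofComplex) τ ≠ 0)
    {a : ℂ} (ha : a ≠ 0) (hGa : Tendsto G atImInfty (𝓝 a)) : (mat F τ₀).det ≠ 0 := by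
  intro h
  obtain ⟨v, hv, hrel⟩ := exists_rel h
  obtain ⟨l₁, hl₁⟩ := Function.ne_iff.1 hv
  set ω := (denom g₀ τ₀ ^ 2)⁻¹ with hωdef
  set v' : X → ℂ := fun l => if κ l % m = κ l₁ % m then v l else 0 with hv'
  have hv'0 : v' ≠ 0 := by
    refine Function.ne_iff.2 ⟨l₁, ?_⟩
    simpa [hv'] using hl₁
  have hm' : (m : ℂ) ≠ 0 := Nat.cast_ne_zero.2 hm.ne'
  have hrel' : ∀ x, ∑ l, v' l * F l x τ₀ = 0 := by
    intro x
    have h1 : ∑ s ∈ Finset.range m, (ω⁻¹ ^ κ l₁) ^ s *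
        (∑ l, v l * (ω ^ κ l) ^ s * F l x τ₀) = 0 := by
      apply Finset.sum_eq_zero
      intro s _
      rw [rel_pow hmin.1.1 hfix hrel s x, mul_zero]
    have h2 : ∑ s ∈ Finset.range m, (ω⁻¹ ^ κ l₁) ^ s *
        (∑ l, v l * (ω ^ κ l) ^ s * F l x τ₀) = m * ∑ l, v' l * F l x τ₀ := by
      simp_rw [Finset.mul_sum]
      rw [Finset.sum_comm]
      apply Finset.sum_congr rfl
      intro l _
      have h3 := sum_root hω hm (κ l₁) (κ l)
      have h4 : ∀ s, (ω⁻¹ ^ κ l₁) ^ s * (v l * (ω ^ κ l) ^ s * F l x τ₀) =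
          (ω⁻¹ ^ κ l₁ * ω ^ κ l) ^ s * (v l * F l x τ₀) := by
        intro s; rw [mul_pow]; ring
      simp_rw [h4]
      rw [← Finset.sum_mul, h3]
      simp only [hv']
      split_ifs <;> ring
    rw [h2] at h1
    exact (_root_.mul_eq_zero.1 h1).resolve_left hm'
  obtain ⟨l₀, hl₀, hmax⟩ := exists_max_support κ hv'0
  have hmod : ∀ l, v' l ≠ 0 → κ l % m = κ l₁ % m := by
    intro l hl
    by_contra hne
    simp [hv', hne] at hl
  refine point_replace hmin τ₀ hl₀ hrel' (e := 0) (w := w) hw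
    (p := fun l => ((E τ₀)⁻¹ • E) ^ ((κ l₀ - κ l) / m)) ?_ ?_ hG hGm hzero hsimple ha hGa
  · intro l hl
    have h1 := R_pow (Submodule.smul_mem _ (E τ₀)⁻¹ hE) ((κ l₀ - κ l) / m)
    have hle := hmax l hl
    have hdvd : m ∣ κ l₀ - κ l := by
      apply (Nat.modEq_iff_dvd' hle).1
      exact (hmod l hl).trans (hmod l₀ hl₀).symm
    obtain ⟨c, hc⟩ := hdvd
    have e1 : (((κ l₀ - κ l) / m : ℕ) : ℤ) * (2 * (m : ℤ)) =
        2 * (κ l₀ : ℤ) + 2 * (0 : ℕ) - 2 * κ l := by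
      rw [hc, Nat.mul_div_cancel_left c hm]
      have : ((κ l₀ - κ l : ℕ) : ℤ) = m * c := by rw [hc]; push_cast; ring
      rw [Nat.cast_sub hle] at this
      push_cast
      linear_combination (-2) * this
    rwa [e1] at h1
  · intro l _
    simp [hEτ]

lemma E6_I : E₆ UpperHalfPlane.I = 0 := by
  have h1 := congrFun (E6_mem.1 ModularGroup.S) UpperHalfPlane.I
  rw [SL_slash_apply, Traces.S_smul_I, Traces.denom_S_I] at h1
  have h2 : Complex.I ^ (-6 : ℤ) = -1 := by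
    rw [_root_.zpow_neg, inv_eq_iff_eq_inv]
    have : Complex.I ^ (6 : ℤ) = (Complex.I ^ 2) ^ 3 := by norm_cast; ring
    rw [this, Complex.I_sq]; norm_num
  rw [h2] at h1
  linear_combination (-1 / 2) * h1

lemma E4_rho : E₄ Traces.rho = 0 := by
  have h1 := congrFun (E4_mem.1 (ModularGroup.S * ModularGroup.T)) Traces.rho
  rw [SL_slash_apply, Traces.ST_smul_rho, Traces.denom_ST_rho] at h1
  have hr := Traces.coe_rho_sq
  have hne := Traces.one_add_rho_ne_zero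
  have h3 : ((1 : ℂ) + Traces.rho) ^ 4 = (Traces.rho : ℂ) ^ 2 := by
    linear_combination ((Traces.rho : ℂ) ^ 2 + 3 * Traces.rho + 1) * hr
  have h2 : ((1 : ℂ) + Traces.rho) ^ (-4 : ℤ) = ((Traces.rho : ℂ) ^ 2)⁻¹ := by
    rw [_root_.zpow_neg, ← h3]
    rfl
  have h0 : (Traces.rho : ℂ) ≠ 0 := Traces.rho.ne_zero
  have h5 : (Traces.rho : ℂ) ^ 2 ≠ 1 := by
    intro h
    have e1 : (Traces.rho : ℂ) = -2 := by linear_combination hr - h
    rw [e1] at h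
    norm_num at h
  have h6 : E₄ Traces.rho * (1 - (Traces.rho : ℂ) ^ 2) = 0 := by
    have e2 : E₄ Traces.rho * ((Traces.rho : ℂ) ^ 2)⁻¹ = E₄ Traces.rho := by
      rw [← h2]; exact h1
    have e3 : ((Traces.rho : ℂ) ^ 2) ≠ 0 := pow_ne_zero _ h0
    have e4 : E₄ Traces.rho = E₄ Traces.rho * (Traces.rho : ℂ) ^ 2 := by
      calc E₄ Traces.rho = (E₄ Traces.rho * ((Traces.rho : ℂ) ^ 2)⁻¹) * (Traces.rho : ℂ) ^ 2 := by
            rw [mul_assoc, inv_mul_cancel₀ e3, mul_one]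
        _ = _ := by rw [e2]
    linear_combination e4
  rcases _root_.mul_eq_zero.1 h6 with h | h
  · exact h
  · exact absurd (sub_eq_zero.1 h).symm h5

theorem det_ne_zero [Γ.FiniteIndex] {F : X → X → ℍ → ℂ} {κ : X → ℕ}
    (hmin : IsMinFam F κ) (τ : ℍ) : (mat F τ).det ≠ 0 := by
  by_cases h4 : E₄ τ = 0
  · obtain ⟨γ, rfl⟩ := exists_smul_eq_of_E4_E6 Traces.rho τ (by rw [h4, E4_rho]; ring)
    intro h
    refine det_ne_zero_special hmin Traces.ST_smul_rho (m := 3) (by norm_num) ?_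
      (E := E₆) E6_mem ?_ (w := 2) (by norm_num) (G := E₄) (fun γ => E4_mem.1 γ) E₄.holo' ?_
      E4_simple one_ne_zero tendsto_E4 (det_smul_eq_zero hmin.1.1 γ h)
    · have := Traces.omega_isPrimitiveRoot
      rwa [Traces.omega, ← Traces.denom_ST_rho] at this
    · rcases E4_ne_zero_or_E6_ne_zero Traces.rho with h | h
      · exact absurd E4_rho h
      · exact h
    · intro τ' hτ'
      exact exists_smul_eq_of_E4_E6 Traces.rho τ' (by rw [hτ', E4_rho]; ring)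
  · by_cases h6 : E₆ τ = 0
    · obtain ⟨γ, rfl⟩ := exists_smul_eq_of_E4_E6 UpperHalfPlane.I τ (by rw [h6, E6_I]; ring)
      intro h
      refine det_ne_zero_special hmin Traces.S_smul_I (m := 2) (by norm_num) ?_
        (E := E₄) E4_mem ?_ (w := 3) (by norm_num) (G := E₆) (fun γ => E6_mem.1 γ) E₆.holo' ?_
        E6_simple one_ne_zero tendsto_E6 (det_smul_eq_zero hmin.1.1 γ h)
      · rw [Traces.denom_S_I, Complex.I_sq]
        norm_num
        exact IsPrimitiveRoot.neg_one 0 (by norm_num)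
      · rcases E4_ne_zero_or_E6_ne_zero UpperHalfPlane.I with h | h
        · exact h
        · exact absurd E6_I h
      · intro τ' hτ'
        exact exists_smul_eq_of_E4_E6 UpperHalfPlane.I τ' (by rw [hτ', E6_I]; ring)
    · exact det_ne_zero_generic hmin τ h4 h6

end fin

end Fermat.Agent.VVMF
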