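import Mathlib
import Fermat.Agent.VVMF.NonVan
import Fermat.Agent.VVMF.ExistsFamily

set_option autoImplicit false

open Filter Topology UpperHalfPlane ModularForm EisensteinSeries Derivative
open scoped MatrixGroups Manifold Topology ModularForm

namespace Fermat.Agent.VVMF

lemma exists_pow_smul_eq {G : Type*} [Group G] {Y : Type*} [MulAction G Y] [Finite Y] (g : G) :
    ∃ n : ℕ, 0 < n ∧ ∀ y : Y, g ^ n • y = y := by
  refine ⟨orderOf (MulAction.toPerm g : Equiv.Perm Y), orderOf_pos _, fun y => ?_⟩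
  have h := pow_orderOf_eq_one (MulAction.toPerm g : Equiv.Perm Y)
  have h2 : ∀ m : ℕ, ((MulAction.toPerm g : Equiv.Perm Y) ^ m) y = g ^ m • y := by
    intro m
    have := map_pow (MulAction.toPermHom G Y) g m
    rw [MulAction.toPermHom_apply, MulAction.toPermHom_apply] at this
    rw [← this]; rfl
  rw [← h2, h]; rfl

/-- The package of a fundamental family for `Γ₀(N)`. -/
theorem exists_package (N : ℕ) [NeZero N] [Fintype (SL(2, ℤ) ⧸ CongruenceSubgroup.Gamma0 N)]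
    [DecidableEq (SL(2, ℤ) ⧸ CongruenceSubgroup.Gamma0 N)] :
    ∃ (F : (SL(2, ℤ) ⧸ CongruenceSubgroup.Gamma0 N) →
        (SL(2, ℤ) ⧸ CongruenceSubgroup.Gamma0 N) → ℍ → ℂ)
      (κ : (SL(2, ℤ) ⧸ CongruenceSubgroup.Gamma0 N) → ℕ) (n : ℕ)
      (C : Matrix (SL(2, ℤ) ⧸ CongruenceSubgroup.Gamma0 N)
        (SL(2, ℤ) ⧸ CongruenceSubgroup.Gamma0 N) ℂ),
      0 < n ∧ (∀ x : SL(2, ℤ) ⧸ CongruenceSubgroup.Gamma0 N, ModularGroup.T ^ n • x = x) ∧
      (∀ l, F l ∈ VM (CongruenceSubgroup.Gamma0 N) (2 * (κ l : ℤ))) ∧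
      (∀ τ, (Matrix.of fun l x => F l x τ).det ≠ 0) ∧ C.det ≠ 0 ∧
      ∀ l, Tendsto (fun τ => untw (CongruenceSubgroup.Gamma0 N) n τ (fun y => F l y τ))
        atImInfty (𝓝 (C l)) := by
  obtain ⟨F, κ, hmin⟩ := exists_isMinFam (Γ := CongruenceSubgroup.Gamma0 N) (exists_family N)
  obtain ⟨n, hn, hT⟩ := exists_pow_smul_eq (Y := SL(2, ℤ) ⧸ CongruenceSubgroup.Gamma0 N)
    ModularGroup.T
  choose C hC _ _ using fun l => exists_cvec hn hT (hmin.1.1 l)
  exact ⟨F, κ, n, Matrix.of C, hn, hT, hmin.1.1, fun τ => det_ne_zero hmin τ,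
    det_ne_zero_inf hmin hn hT (C := Matrix.of C) hC, hC⟩

end Fermat.Agent.VVMF
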