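import Mathlib

set_option autoImplicit false
set_option linter.unusedSectionVars false

/-! Vector valued modular forms attached to a finite `SL(2, ℤ)`-set `X`. -/

namespace Fermat.Agent.VVMF

open UpperHalfPlane CongruenceSubgroup
open scoped MatrixGroups ModularForm Manifold

variable (X : Type*) [MulAction SL(2, ℤ) X]

/-- Vector valued modular forms of weight `k` on the `SL(2, ℤ)`-set `X`:
`F x ∣[k] g = F (g⁻¹ • x)`, holomorphic, bounded at `i∞`. -/
def vvm (k : ℤ) : Submodule ℂ (X → ℍ → ℂ) where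
  carrier := {F | (∀ x, MDiff (F x)) ∧ (∀ (g : SL(2, ℤ)) x, (F x) ∣[k] g = F (g⁻¹ • x)) ∧
    ∀ x, IsBoundedAtImInfty (F x)}
  add_mem' := by
    rintro F G ⟨h1, h2, h3⟩ ⟨h1', h2', h3'⟩
    refine ⟨fun x => (h1 x).add (h1' x), fun g x => ?_, fun x => (h3 x).add (h3' x)⟩
    rw [Pi.add_apply, SlashAction.add_slash, h2, h2']; rfl
  zero_mem' := by
    refine ⟨fun x => mdifferentiable_const, fun g x => ?_, fun x => ?_⟩
    · rw [Pi.zero_apply, SlashAction.zero_slash]; rfl
    · exact Filter.zero_zeroAtFilter _ |>.boundedAtFilter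
  smul_mem' := by
    rintro c F ⟨h1, h2, h3⟩
    refine ⟨fun x => (h1 x).const_smul c, fun g x => ?_, fun x => ?_⟩
    · rw [Pi.smul_apply, ModularForm.SL_smul_slash, h2]; rfl
    · exact (h3 x).smul c

/-- Vector valued cusp forms. -/
def vvs (k : ℤ) : Submodule ℂ (X → ℍ → ℂ) where
  carrier := {F | F ∈ vvm X k ∧ ∀ x, IsZeroAtImInfty (F x)}
  add_mem' := by
    rintro F G ⟨h1, h2⟩ ⟨h1', h2'⟩
    exact ⟨add_mem h1 h1', fun x => (h2 x).add (h2' x)⟩
  zero_mem' := ⟨zero_mem _, fun x => Filter.zero_zeroAtFilter _⟩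
  smul_mem' := by
    rintro c F ⟨h1, h2⟩
    exact ⟨Submodule.smul_mem _ c h1, fun x => (h2 x).smul c⟩

end Fermat.Agent.VVMF
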