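import Mathlib
import Fermat.Agent.VVMF.Defs

/-!
# P7: the dual family `Δ W⁻¹` of a family with nowhere vanishing determinant
-/

set_option autoImplicit false

namespace Fermat.Agent.VVMF

open UpperHalfPlane CongruenceSubgroup Filter
open scoped MatrixGroups ModularForm Manifold Topology

variable {X : Type*} [MulAction SL(2, ℤ) X] [Fintype X] [DecidableEq X]

/-- matrix of values of a family -/
def valMat (F : X → X → ℍ → ℂ) (z : ℍ) : Matrix X X ℂ := Matrix.of fun j x => F j x z

lemma mdiff_det {F : X → X → ℍ → ℂ} (hF : ∀ j x, MDiff (F j x)) :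
    MDiff (fun z => (valMat F z).det) := by
  have h : (fun z => (valMat F z).det) =
      ∑ σ : Equiv.Perm X, ((Equiv.Perm.sign σ : ℤ) : ℂ) • ∏ i, F (σ i) i := by
    ext z
    rw [Matrix.det_apply]
    simp only [valMat, Matrix.of_apply, Finset.sum_apply, Pi.smul_apply, Finset.prod_apply]
    refine Finset.sum_congr rfl fun σ _ => ?_
    rw [Units.smul_def, ← Int.cast_smul_eq_zsmul ℂ]
  rw [h]
  have hq : ∀ (σ : Equiv.Perm X) (s : Finset X), MDiff (∏ i ∈ s, F (σ i) i) := by
    intro σ s
    induction s using Finset.induction_on with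
    | empty => rw [Finset.prod_empty]; exact mdifferentiable_const
    | insert a s ha ih => rw [Finset.prod_insert ha]; exact (hF _ _).mul ih
  have hp : ∀ σ : Equiv.Perm X, MDiff (((Equiv.Perm.sign σ : ℤ) : ℂ) • ∏ i, F (σ i) i) :=
    fun σ => (hq σ _).const_smul _
  have hs : ∀ s : Finset (Equiv.Perm X),
      MDiff (∑ σ ∈ s, ((Equiv.Perm.sign σ : ℤ) : ℂ) • ∏ i, F (σ i) i) := by
    intro s
    induction s using Finset.induction_on with
    | empty => rw [Finset.sum_empty]; exact mdifferentiable_const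
    | insert a s ha ih => rw [Finset.sum_insert ha]; exact (hp a).add ih
  exact hs _

lemma mdiff_adjugate {F : X → X → ℍ → ℂ} (hF : ∀ j x, MDiff (F j x)) (a b : X) :
    MDiff (fun z => (valMat F z).adjugate a b) := by
  have h : (fun z => (valMat F z).adjugate a b) =
      fun z => (valMat (fun j x => if j = b then (fun _ => (Pi.single a (1 : ℂ) : X → ℂ) x)
        else F j x) z).det := by
    ext z
    rw [Matrix.adjugate_apply]
    congr 1
    ext j x
    by_cases hj : j = b
    · subst hj
      simp [valMat]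
    · simp [valMat, Matrix.updateRow_ne hj, hj]
  rw [h]
  refine mdiff_det fun j x => ?_
  split_ifs
  · exact mdifferentiable_const
  · exact hF j x

lemma mdiff_inv_apply {F : X → X → ℍ → ℂ} (hF : ∀ j x, MDiff (F j x))
    (hdet : ∀ z : ℍ, (valMat F z).det ≠ 0) (a b : X) :
    MDiff (fun z => (valMat F z)⁻¹ a b) := by
  have h : (fun z => (valMat F z)⁻¹ a b) =
      fun z => (valMat F z).adjugate a b / (valMat F z).det := by
    ext z
    rw [Matrix.inv_def, Matrix.smul_apply, smul_eq_mul, Ring.inverse_eq_inv', div_eq_inv_mul]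
  rw [h]
  have h1 := UpperHalfPlane.mdifferentiable_iff.1 (mdiff_adjugate hF a b)
  have h2 := UpperHalfPlane.mdifferentiable_iff.1 (mdiff_det hF)
  rw [UpperHalfPlane.mdifferentiable_iff]
  exact h1.div h2 fun w hw => hdet _

/-- transformation law of the matrix of values -/
lemma valMat_smul {k : X → ℤ} {F : X → X → ℍ → ℂ} (hF : ∀ j, F j ∈ vvm X (k j))
    (g : SL(2, ℤ)) (z : ℍ) :
    valMat F (g • z) = Matrix.diagonal (fun j => (denom g z) ^ (k j)) * valMat F z *
      (Matrix.of fun y x => if g⁻¹ • x = y then (1 : ℂ) else 0) := by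
  ext j x
  rw [Matrix.mul_apply]
  simp only [Matrix.diagonal_mul, valMat, Matrix.of_apply, mul_ite, mul_one, mul_zero,
    Finset.sum_ite_eq, Finset.mem_univ, if_true]
  have h := congrFun ((hF j).2.1 g x) z
  rw [ModularForm.SL_slash_apply] at h
  rw [← h, mul_comm, mul_assoc, ← zpow_add₀ (denom_ne_zero _ _)]
  simp

/-- transformation law of the inverse matrix -/
lemma valMat_inv_smul {k : X → ℤ} {F : X → X → ℍ → ℂ} (hF : ∀ j, F j ∈ vvm X (k j))
    (hdet : ∀ z : ℍ, (valMat F z).det ≠ 0) (g : SL(2, ℤ)) (z : ℍ) (x j : X) :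
    (valMat F (g • z))⁻¹ x j = (valMat F z)⁻¹ (g⁻¹ • x) j * (denom g z) ^ (- k j) := by
  set D : Matrix X X ℂ := Matrix.diagonal (fun j => (denom g z) ^ (k j)) with hD
  set D' : Matrix X X ℂ := Matrix.diagonal (fun j => (denom g z) ^ (- k j)) with hD'
  set P : Matrix X X ℂ := Matrix.of fun y x => if g⁻¹ • x = y then (1 : ℂ) else 0 with hP
  set P' : Matrix X X ℂ := Matrix.of fun y x => if g⁻¹ • y = x then (1 : ℂ) else 0 with hP'
  have hDD : D * D' = 1 := by
    rw [hD, hD', Matrix.diagonal_mul_diagonal, ← Matrix.diagonal_one]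
    congr 1
    ext j
    rw [← zpow_add₀ (denom_ne_zero _ _)]
    simp
  have hPP : P * P' = 1 := by
    ext y y'
    rw [Matrix.mul_apply]
    simp only [hP, hP', Matrix.of_apply, mul_ite, mul_one, mul_zero, Matrix.one_apply]
    rw [Finset.sum_eq_single (g • y)]
    · by_cases hy : y = y'
      · subst hy
        simp
      · simp [hy]
    · intro x _ hx
      have : ¬ g⁻¹ • x = y := by
        intro hxy
        exact hx (by rw [← hxy, smul_inv_smul])
      simp [this]
    · intro h
      exact absurd (Finset.mem_univ _) h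
  have hVV : valMat F z * (valMat F z)⁻¹ = 1 :=
    Matrix.mul_nonsing_inv _ (isUnit_iff_ne_zero.2 (hdet z))
  have hinv : (valMat F (g • z))⁻¹ = P' * (valMat F z)⁻¹ * D' := by
    refine Matrix.inv_eq_right_inv ?_
    rw [valMat_smul hF g z]
    calc D * valMat F z * P * (P' * (valMat F z)⁻¹ * D')
        = D * (valMat F z * ((P * P') * (valMat F z)⁻¹)) * D' := by
          simp only [Matrix.mul_assoc]
      _ = 1 := by rw [hPP, Matrix.one_mul, hVV, Matrix.mul_one, hDD]
  rw [hinv, hD', Matrix.mul_diagonal, Matrix.mul_apply]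
  simp [hP']

/-- P7: the dual basis consists of cusp forms -/
theorem dual_mem (k : X → ℤ) (F : X → X → ℍ → ℂ) (hF : ∀ j, F j ∈ vvm X (k j))
    (hdet : ∀ z : ℍ, (Matrix.of fun j x => F j x z).det ≠ 0)
    (hz : ∀ x j, IsZeroAtImInfty
      (fun z : ℍ => ModularForm.discriminant z * (Matrix.of fun j x => F j x z)⁻¹ x j)) (j : X) :
    (fun x z => ModularForm.discriminant z * (Matrix.of fun j x => F j x z)⁻¹ x j) ∈
      vvs X (12 - k j) := by
  have hmd : ∀ x, MDiff
      (fun z => ModularForm.discriminant z * (Matrix.of fun j x => F j x z)⁻¹ x j) := by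
    intro x
    exact CuspForm.discriminant.holo'.mul (mdiff_inv_apply (fun j x => (hF j).1 x) hdet x j)
  refine ⟨⟨hmd, fun g x => ?_, fun x => (hz x j).isBoundedAtImInfty⟩, fun x => hz x j⟩
  ext z
  rw [ModularForm.SL_slash_apply]
  have hΔ : ModularForm.discriminant (g • z) = ModularForm.discriminant z * (denom g z) ^ 12 := by
    have h0 : (ModularForm.discriminant ∣[(12 : ℤ)] g) = ModularForm.discriminant :=
      CuspForm.discriminant.slash_action_eq' _ ⟨g, rfl⟩
    have h := congrFun h0 z
    rw [ModularForm.SL_slash_apply] at h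
    rw [← h, mul_assoc, ← zpow_natCast, ← zpow_add₀ (denom_ne_zero _ _)]
    simp
  have hinv := valMat_inv_smul hF hdet g z x j
  simp only [valMat] at hinv
  show ModularForm.discriminant (g • z) * (Matrix.of fun j x => F j x (g • z))⁻¹ x j *
    (denom g z) ^ (-(12 - k j)) = _
  rw [hΔ, hinv]
  have hne := denom_ne_zero g z
  have h12 : (denom g z) ^ 12 * (denom g z) ^ (- k j) * (denom g z) ^ (-(12 - k j)) = 1 := by
    rw [← zpow_natCast, ← zpow_add₀ hne, ← zpow_add₀ hne]
    have h0 : ((12 : ℕ) : ℤ) + - k j + -(12 - k j) = 0 := by push_cast; ring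
    rw [h0, zpow_zero]
  calc ModularForm.discriminant z * (denom g z) ^ 12 *
        ((Matrix.of fun j x => F j x z)⁻¹ (g⁻¹ • x) j * (denom g z) ^ (- k j)) *
        (denom g z) ^ (-(12 - k j))
      = ModularForm.discriminant z * (Matrix.of fun j x => F j x z)⁻¹ (g⁻¹ • x) j *
        ((denom g z) ^ 12 * (denom g z) ^ (- k j) * (denom g z) ^ (-(12 - k j))) := by ring
    _ = _ := by rw [h12, mul_one]

end Fermat.Agent.VVMF
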