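import Mathlib
import Fermat.Agent.VVMF.Untwist
import Fermat.Agent.VVMF.Dual

/-!
# Structure theorem for vector valued forms

Given a family `F l` of weights `2 κ l` with nowhere vanishing determinant, also at infinity,
`VM Γ k = ⨁ R (k - 2 κ l) • F l` and `VS Γ k = ⨁ R (k - 12 + 2 κ l) • Δ G l`.
-/

set_option autoImplicit false

open Filter Topology UpperHalfPlane ModularForm
open scoped MatrixGroups Manifold Topology ModularForm

namespace Fermat.Agent.VVMF

variable {Γ : Subgroup SL(2, ℤ)}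

lemma mem_VM_iff_mem_vvm {k : ℤ} {F : (SL(2, ℤ) ⧸ Γ) → ℍ → ℂ} :
    F ∈ VM Γ k ↔ F ∈ vvm (SL(2, ℤ) ⧸ Γ) k :=
  ⟨fun h => ⟨h.2.1, h.1, h.2.2⟩, fun h => ⟨h.2.1, h.1, h.2.2⟩⟩

lemma mem_VS_iff_mem_vvs {k : ℤ} {F : (SL(2, ℤ) ⧸ Γ) → ℍ → ℂ} :
    F ∈ VS Γ k ↔ F ∈ vvs (SL(2, ℤ) ⧸ Γ) k :=
  ⟨fun h => ⟨⟨h.2.1, h.1, fun x => (h.2.2 x).isBoundedAtImInfty⟩, h.2.2⟩,
    fun h => ⟨h.1.2.1, h.1.1, h.2⟩⟩

/-- dividing a level one cusp form by `Δ` -/
lemma div_delta_mem_R {k : ℤ} {g : ℍ → ℂ} (hinv : ∀ h : SL(2, ℤ), g ∣[k] h = g) (hol : MDiff g)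
    (hz : IsZeroAtImInfty g) : (fun τ => g τ / discriminant τ) ∈ R (k - 12) := by
  have hΔ : ∀ h : SL(2, ℤ), (discriminant ∣[(12 : ℤ)] h) = discriminant := fun h =>
    CuspForm.discriminant.slash_action_eq' _ ⟨h, rfl⟩
  refine ⟨fun h => ?_, ?_, ?_⟩
  · ext τ
    have h1 := congrFun (hinv h) τ
    have h2 := congrFun (hΔ h) τ
    rw [SL_slash_apply] at h1 h2 ⊢
    have hne := denom_ne_zero h τ
    have hd := discriminant_ne_zero τ
    have hd' := discriminant_ne_zero (h • τ)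
    rw [← h1, ← h2]
    have e1 : (denom h τ) ^ (-(k - 12)) = (denom h τ) ^ (-k) / (denom h τ) ^ (-(12 : ℤ)) := by
      rw [← zpow_sub₀ hne]
      congr 1
      ring
    rw [e1, div_mul_div_comm]
  · have h1 := UpperHalfPlane.mdifferentiable_iff.1 hol
    have h2 := UpperHalfPlane.mdifferentiable_iff.1 CuspForm.discriminant.holo'
    rw [UpperHalfPlane.mdifferentiable_iff]
    exact h1.div h2 fun w hw => discriminant_ne_zero _
  · let G : CuspForm 𝒮ℒ k :=
      { toFun := g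
        slash_action_eq' := by rintro _ ⟨γ, rfl⟩; exact hinv γ
        holo' := hol
        zero_at_cusps' := fun {c} hc => by
          rw [OnePoint.isZeroAt_iff_forall_SL2Z hc]
          intro γ _
          have := hinv γ
          change IsZeroAtImInfty (g ∣[k] γ)
          rw [this]
          exact hz }
    have h1 : g =O[atImInfty] discriminant := CuspForm.exp_decay_isBigO_discriminant G
    have h2 := h1.mul (Asymptotics.isBigO_refl (fun τ : ℍ => (discriminant τ)⁻¹) atImInfty)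
    refine (h2.congr_left fun τ => (div_eq_mul_inv _ _).symm).trans ?_
    refine Asymptotics.isBigO_of_le _ fun τ => ?_
    rw [mul_inv_cancel₀ (discriminant_ne_zero τ)]
    simp

section Pairing

variable [Fintype (SL(2, ℤ) ⧸ Γ)]

lemma pairing_div_mem_R {a b c : ℤ} {f g : (SL(2, ℤ) ⧸ Γ) → ℍ → ℂ} (hf : f ∈ VM Γ a) (hg : g ∈ VS Γ b)
    (h : a + b - 12 = c) : (fun τ => (∑ x, f x τ * g x τ) / discriminant τ) ∈ R c := by
  subst h
  have hsum : (fun τ => ∑ x, f x τ * g x τ) = ∑ x, f x * g x := by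
    ext τ
    simp [Finset.sum_apply]
  refine div_delta_mem_R (g := fun τ => ∑ x, f x τ * g x τ) (fun h => ?_) ?_ ?_
  · ext τ
    rw [SL_slash_apply]
    have hne := denom_ne_zero h τ
    have hf' : ∀ x, f x (h • τ) = f (h⁻¹ • x) τ * (denom h τ) ^ a := by
      intro x
      have := congrFun (hf.1 h x) τ
      rw [SL_slash_apply] at this
      rw [← this, mul_assoc, ← zpow_add₀ hne]
      simp
    have hg' : ∀ x, g x (h • τ) = g (h⁻¹ • x) τ * (denom h τ) ^ b := by
      intro x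
      have := congrFun (hg.1 h x) τ
      rw [SL_slash_apply] at this
      rw [← this, mul_assoc, ← zpow_add₀ hne]
      simp
    have e1 : (denom h τ) ^ a * (denom h τ) ^ b * (denom h τ) ^ (-(a + b)) = 1 := by
      rw [← zpow_add₀ hne, ← zpow_add₀ hne, add_neg_cancel, zpow_zero]
    calc (∑ x, f x (h • τ) * g x (h • τ)) * (denom h τ) ^ (-(a + b))
        = ∑ x, f (h⁻¹ • x) τ * g (h⁻¹ • x) τ := by
          rw [Finset.sum_mul]
          refine Finset.sum_congr rfl fun x _ => ?_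
          rw [hf', hg']
          linear_combination (f (h⁻¹ • x) τ * g (h⁻¹ • x) τ) * e1
      _ = ∑ x, f x τ * g x τ :=
          Equiv.sum_comp (MulAction.toPerm h⁻¹) (fun x => f x τ * g x τ)
  · have hs : ∀ s : Finset (SL(2, ℤ) ⧸ Γ), MDiff (∑ x ∈ s, f x * g x) := by
      classical
      intro s
      induction s using Finset.induction_on with
      | empty => rw [Finset.sum_empty]; exact mdifferentiable_const
      | insert a s ha ih =>
        rw [Finset.sum_insert ha]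
        exact ((hf.2.1 a).mul (hg.2.1 a)).add ih
    rw [hsum]
    exact hs _
  · have h1 : ∀ x, Tendsto (fun τ => f x τ * g x τ) atImInfty (𝓝 0) := by
      intro x
      have := Filter.ZeroAtFilter.mul_boundedAtFilter (hg.2.2 x) (hf.2.2 x)
      refine Tendsto.congr (fun τ => ?_) this
      simp [mul_comm]
    have h2 := tendsto_finsetSum (Finset.univ : Finset (SL(2, ℤ) ⧸ Γ)) fun x _ => h1 x
    rw [Finset.sum_const_zero] at h2
    exact h2

end Pairing

section Main

variable [Fintype (SL(2, ℤ) ⧸ Γ)] [DecidableEq (SL(2, ℤ) ⧸ Γ)]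

/-- `Δ` times an entry of the untwisting matrix tends to zero -/
lemma tendsto_delta_mul_untw (n : ℕ) (hn : 0 < n) (v : (SL(2, ℤ) ⧸ Γ) → ℂ) (y : (SL(2, ℤ) ⧸ Γ)) :
    Tendsto (fun τ : ℍ => discriminant τ * untw Γ n τ v y) atImInfty (𝓝 0) := by
  have hexp : ∀ r ∈ Finset.range n, Tendsto (fun τ : ℍ => discriminant τ *
      Complex.exp (-(2 * Real.pi * Complex.I * r / n) * τ)) atImInfty (𝓝 0) := by
    intro r hr
    have hr := Finset.mem_range.1 hr
    have hnr : (0 : ℝ) < n := Nat.cast_pos.2 hn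
    have hΔ : (discriminant : ℍ → ℂ) =O[atImInfty] fun τ : ℍ => Real.exp (-2 * Real.pi * τ.im) := by
      have := CuspFormClass.exp_decay_atImInfty (h := 1) CuspForm.discriminant one_pos
        one_mem_strictPeriods_SL
      simpa using this
    have hnorm : ∀ τ : ℍ, ‖Complex.exp (-(2 * Real.pi * Complex.I * r / n) * τ)‖ =
        Real.exp (2 * Real.pi * r / n * τ.im) := by
      intro τ
      rw [Complex.norm_exp]
      congr 1
      have : -(2 * Real.pi * Complex.I * r / n) * (τ : ℂ) =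
          ((-(2 * Real.pi * r / n) : ℝ) : ℂ) * (Complex.I * τ) := by
        push_cast; ring
      rw [this, Complex.re_ofReal_mul]
      simp
    have h1 := hΔ.mul (Asymptotics.isBigO_refl
      (fun τ : ℍ => Complex.exp (-(2 * Real.pi * Complex.I * r / n) * τ)) atImInfty).norm_right
    refine h1.trans_tendsto ?_
    have h2 : Tendsto (fun τ : ℍ => Real.exp (-(2 * Real.pi * (1 - r / n)) * τ.im))
        atImInfty (𝓝 0) := by
      apply Real.tendsto_exp_atBot.comp
      apply Tendsto.const_mul_atTop_of_neg _ tendsto_comap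
      have : (r : ℝ) / n < 1 := by
        rw [div_lt_one hnr]; exact_mod_cast hr
      have := Real.pi_pos
      nlinarith
    refine h2.congr fun τ => ?_
    rw [hnorm, ← Real.exp_add]
    congr 1
    ring
  have h2 : (fun τ : ℍ => discriminant τ * untw Γ n τ v y) = fun τ : ℍ =>
      ∑ r ∈ Finset.range n, (discriminant τ *
        Complex.exp (-(2 * Real.pi * Complex.I * r / n) * τ)) *
      (specProj n (Complex.exp (2 * Real.pi * Complex.I / n)) (opV Γ ModularGroup.T) r v y) := by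
    funext τ
    rw [untw, LinearMap.sum_apply, Finset.sum_apply, Finset.mul_sum]
    refine Finset.sum_congr rfl fun r _ => ?_
    rw [LinearMap.smul_apply, Pi.smul_apply, smul_eq_mul]
    ring
  rw [h2]
  have h3 := tendsto_finsetSum (Finset.range n) fun r hr =>
    (hexp r hr).mul_const
      (specProj n (Complex.exp (2 * Real.pi * Complex.I / n)) (opV Γ ModularGroup.T) r v y)
  simpa using h3

variable {n : ℕ} {κ : (SL(2, ℤ) ⧸ Γ) → ℕ} {F : (SL(2, ℤ) ⧸ Γ) → (SL(2, ℤ) ⧸ Γ) → ℍ → ℂ} {C : Matrix (SL(2, ℤ) ⧸ Γ) (SL(2, ℤ) ⧸ Γ) ℂ}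

/-- `Δ W⁻¹` vanishes at infinity -/
theorem delta_inv_isZero (hdet : ∀ τ, (Matrix.of fun l x => F l x τ).det ≠ 0)
    (hn : 0 < n) (hT : ∀ x : (SL(2, ℤ) ⧸ Γ), ModularGroup.T ^ n • x = x) (hC : C.det ≠ 0)
    (hlim : ∀ l, Tendsto (fun τ => untw Γ n τ (fun y => F l y τ)) atImInfty (𝓝 (C l)))
    (x l : (SL(2, ℤ) ⧸ Γ)) :
    IsZeroAtImInfty (fun τ : ℍ => discriminant τ * (Matrix.of fun j x => F j x τ)⁻¹ x l) := by
  set U : ℍ → Matrix (SL(2, ℤ) ⧸ Γ) (SL(2, ℤ) ⧸ Γ) ℂ := fun τ => LinearMap.toMatrix' (untw Γ n τ) with hU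
  set Mt : ℍ → Matrix (SL(2, ℤ) ⧸ Γ) (SL(2, ℤ) ⧸ Γ) ℂ := fun τ => valMat F τ * (U τ).transpose with hMt
  have hMt_apply : ∀ τ l x, Mt τ l x = untw Γ n τ (fun y => F l y τ) x := by
    intro τ l x
    show (valMat F τ * (U τ).transpose) l x = _
    rw [Matrix.mul_apply]
    have h1 := LinearMap.toMatrix'_mulVec (untw Γ n τ) (fun y => F l y τ)
    rw [← h1, Matrix.mulVec, dotProduct]
    refine Finset.sum_congr rfl fun y _ => ?_
    simp [valMat, hU, mul_comm]
  have hMtlim : Tendsto Mt atImInfty (𝓝 C) := by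
    refine tendsto_pi_nhds.2 fun l => tendsto_pi_nhds.2 fun x => ?_
    have := (tendsto_pi_nhds.1 (hlim l)) x
    exact this.congr fun τ => (hMt_apply τ l x).symm
  have hUunit : ∀ τ, IsUnit ((U τ).transpose).det := by
    intro τ
    rw [Matrix.det_transpose]
    have h1 := tw_mul_untw (Γ := Γ) hn hT τ
    have h2 : LinearMap.toMatrix' (tw Γ n τ) * U τ = 1 := by
      rw [hU, ← LinearMap.toMatrix'_mul, h1, LinearMap.toMatrix'_one]
    exact Matrix.isUnit_det_of_left_inverse h2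
  have hinv : ∀ τ, (valMat F τ)⁻¹ = (U τ).transpose * (Mt τ)⁻¹ := by
    intro τ
    show _ = (U τ).transpose * (valMat F τ * (U τ).transpose)⁻¹
    rw [Matrix.mul_inv_rev, ← Matrix.mul_assoc, Matrix.mul_nonsing_inv _ (hUunit τ),
      Matrix.one_mul]
  have hMtinv : ∀ a b, Tendsto (fun τ => (Mt τ)⁻¹ a b) atImInfty
      (𝓝 ((C.det)⁻¹ * C.adjugate a b)) := by
    intro a b
    have h1 : Tendsto (fun τ => (Mt τ).det) atImInfty (𝓝 C.det) :=
      ((Continuous.matrix_det continuous_id).tendsto C).comp hMtlim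
    have h2 : Tendsto (fun τ => (Mt τ).adjugate a b) atImInfty (𝓝 (C.adjugate a b)) := by
      have h3 := ((Continuous.matrix_adjugate continuous_id).tendsto C).comp hMtlim
      exact (tendsto_pi_nhds.1 ((tendsto_pi_nhds.1 h3) a)) b
    refine ((h1.inv₀ hC).mul h2).congr fun τ => ?_
    rw [Matrix.inv_def, Matrix.smul_apply, smul_eq_mul, Ring.inverse_eq_inv']
  have hfun : (fun τ : ℍ => discriminant τ * (Matrix.of fun j x => F j x τ)⁻¹ x l) =
      fun τ => ∑ y, (discriminant τ * untw Γ n τ (Pi.single x 1) y) * (Mt τ)⁻¹ y l := by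
    funext τ
    have h1 : (Matrix.of fun j x => F j x τ) = valMat F τ := rfl
    rw [h1, hinv τ, Matrix.mul_apply, Finset.mul_sum]
    refine Finset.sum_congr rfl fun y _ => ?_
    have h2 : (U τ).transpose x y = untw Γ n τ (Pi.single x 1) y := by
      simp [hU, LinearMap.toMatrix'_apply]
    rw [h2]
    ring
  rw [hfun]
  have h4 := tendsto_finsetSum (Finset.univ : Finset (SL(2, ℤ) ⧸ Γ)) fun y _ =>
    (tendsto_delta_mul_untw n hn (Pi.single x (1 : ℂ)) y).mul (hMtinv y l)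
  simp only [zero_mul, Finset.sum_const_zero] at h4
  exact h4

/-- the dual family, multiplied by `Δ` -/
noncomputable def dualFam (F : (SL(2, ℤ) ⧸ Γ) → (SL(2, ℤ) ⧸ Γ) → ℍ → ℂ) (l : (SL(2, ℤ) ⧸ Γ)) (x : (SL(2, ℤ) ⧸ Γ)) (τ : ℍ) : ℂ :=
  discriminant τ * (Matrix.of fun j x => F j x τ)⁻¹ x l

theorem dualFam_mem_VS (hF : ∀ l, F l ∈ VM Γ (2 * (κ l : ℤ)))
    (hdet : ∀ τ, (Matrix.of fun l x => F l x τ).det ≠ 0)
    (hn : 0 < n) (hT : ∀ x : (SL(2, ℤ) ⧸ Γ), ModularGroup.T ^ n • x = x) (hC : C.det ≠ 0)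
    (hlim : ∀ l, Tendsto (fun τ => untw Γ n τ (fun y => F l y τ)) atImInfty (𝓝 (C l)))
    (l : (SL(2, ℤ) ⧸ Γ)) : dualFam F l ∈ VS Γ (12 - 2 * (κ l : ℤ)) :=
  mem_VS_iff_mem_vvs.2 (dual_mem (fun l => 2 * (κ l : ℤ)) F (fun l => mem_VM_iff_mem_vvm.1 (hF l))
    hdet (delta_inv_isZero hdet hn hT hC hlim) l)

lemma sum_dualFam_mul (hdet : ∀ τ, (Matrix.of fun l x => F l x τ).det ≠ 0) (x y : (SL(2, ℤ) ⧸ Γ)) (τ : ℍ) :
    ∑ l, dualFam F l x τ * F l y τ = if x = y then discriminant τ else 0 := by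
  have h := Matrix.nonsing_inv_mul _ (isUnit_iff_ne_zero.2 (hdet τ))
  have h2 := congrFun (congrFun h x) y
  rw [Matrix.mul_apply, Matrix.one_apply] at h2
  have h3 : ∑ l, dualFam F l x τ * F l y τ = discriminant τ *
      ∑ l, (Matrix.of fun l x => F l x τ)⁻¹ x l * (Matrix.of fun l x => F l x τ) l y := by
    rw [Finset.mul_sum]
    refine Finset.sum_congr rfl fun l _ => ?_
    simp only [dualFam, Matrix.of_apply]
    ring
  rw [h3, h2]
  simp

lemma sum_mul_dualFam (hdet : ∀ τ, (Matrix.of fun l x => F l x τ).det ≠ 0) (l m : (SL(2, ℤ) ⧸ Γ)) (τ : ℍ) :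
    ∑ x, F l x τ * dualFam F m x τ = if l = m then discriminant τ else 0 := by
  have h := Matrix.mul_nonsing_inv _ (isUnit_iff_ne_zero.2 (hdet τ))
  have h2 := congrFun (congrFun h l) m
  rw [Matrix.mul_apply, Matrix.one_apply] at h2
  have h3 : ∑ x, F l x τ * dualFam F m x τ = discriminant τ *
      ∑ x, (Matrix.of fun l x => F l x τ) l x * (Matrix.of fun l x => F l x τ)⁻¹ x m := by
    rw [Finset.mul_sum]
    refine Finset.sum_congr rfl fun x _ => ?_
    simp only [dualFam, Matrix.of_apply]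
    ring
  rw [h3, h2]
  simp

lemma VS_mul' {a b c : ℤ} {f : ℍ → ℂ} {F : (SL(2, ℤ) ⧸ Γ) → ℍ → ℂ} (hf : f ∈ R a)
    (hF : F ∈ VS Γ b) (h : a + b = c) : (fun x => f * F x) ∈ VS Γ c := by
  subst h
  refine ⟨fun h x => by rw [mul_slash_SL2, hf.1, hF.1], fun x => hf.2.1.mul (hF.2.1 x),
    fun x => ?_⟩
  have := Filter.ZeroAtFilter.mul_boundedAtFilter (hF.2.2 x) hf.2.2
  exact Tendsto.congr (fun τ => by simp [mul_comm]) this

/-- The structure theorem for `VM`. -/
noncomputable def structVM (hF : ∀ l, F l ∈ VM Γ (2 * (κ l : ℤ)))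
    (hdet : ∀ τ, (Matrix.of fun l x => F l x τ).det ≠ 0)
    (hG : ∀ l, dualFam F l ∈ VS Γ (12 - 2 * (κ l : ℤ))) (k : ℤ) :
    VM Γ k ≃ₗ[ℂ] (∀ l, R (k - 2 * (κ l : ℤ))) where
  toFun f := fun l => ⟨fun τ => (∑ x, f.1 x τ * dualFam F l x τ) / discriminant τ,
    pairing_div_mem_R f.2 (hG l) (by ring)⟩
  invFun P := ⟨fun x τ => ∑ l, (P l).1 τ * F l x τ, by
    have h : (∑ l, fun x => (P l).1 * F l x) ∈ VM Γ k :=
      Submodule.sum_mem _ fun l _ => VM_mul' (P l).2 (hF l) (by ring)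
    convert h using 1
    ext x τ
    simp [Finset.sum_apply]⟩
  map_add' f g := by
    funext l
    apply Subtype.ext
    funext τ
    show (∑ x, (f.1 x τ + g.1 x τ) * dualFam F l x τ) / discriminant τ =
      (∑ x, f.1 x τ * dualFam F l x τ) / discriminant τ +
        (∑ x, g.1 x τ * dualFam F l x τ) / discriminant τ
    rw [← add_div, ← Finset.sum_add_distrib]
    congr 1
    exact Finset.sum_congr rfl fun x _ => by ring
  map_smul' c f := by
    funext l
    apply Subtype.ext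
    funext τ
    show (∑ x, (c * f.1 x τ) * dualFam F l x τ) / discriminant τ =
      c * ((∑ x, f.1 x τ * dualFam F l x τ) / discriminant τ)
    rw [← mul_div_assoc, Finset.mul_sum]
    congr 1
    exact Finset.sum_congr rfl fun x _ => by ring
  left_inv f := by
    apply Subtype.ext
    funext y τ
    show ∑ l, (∑ x, f.1 x τ * dualFam F l x τ) / discriminant τ * F l y τ = f.1 y τ
    have hd := discriminant_ne_zero τ
    have h1 : ∑ l, (∑ x, f.1 x τ * dualFam F l x τ) / discriminant τ * F l y τ =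
        (∑ x, f.1 x τ * ∑ l, dualFam F l x τ * F l y τ) / discriminant τ := by
      simp_rw [Finset.mul_sum]
      rw [Finset.sum_comm, Finset.sum_div]
      refine Finset.sum_congr rfl fun l _ => ?_
      rw [div_mul_eq_mul_div, Finset.sum_mul]
      congr 1
      exact Finset.sum_congr rfl fun x _ => by ring
    rw [h1]
    simp_rw [sum_dualFam_mul hdet]
    simp [hd]
  right_inv P := by
    funext m
    apply Subtype.ext
    funext τ
    show (∑ x, (∑ l, (P l).1 τ * F l x τ) * dualFam F m x τ) / discriminant τ = (P m).1 τ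
    have hd := discriminant_ne_zero τ
    have h1 : ∑ x, (∑ l, (P l).1 τ * F l x τ) * dualFam F m x τ =
        ∑ l, (P l).1 τ * ∑ x, F l x τ * dualFam F m x τ := by
      simp_rw [Finset.sum_mul, Finset.mul_sum]
      rw [Finset.sum_comm]
      exact Finset.sum_congr rfl fun l _ => Finset.sum_congr rfl fun x _ => by ring
    rw [h1]
    simp_rw [sum_mul_dualFam hdet]
    simp [hd]

/-- The structure theorem for `VS`. -/
noncomputable def structVS (hF : ∀ l, F l ∈ VM Γ (2 * (κ l : ℤ)))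
    (hdet : ∀ τ, (Matrix.of fun l x => F l x τ).det ≠ 0)
    (hG : ∀ l, dualFam F l ∈ VS Γ (12 - 2 * (κ l : ℤ))) (k : ℤ) :
    VS Γ k ≃ₗ[ℂ] (∀ l, R (k - 12 + 2 * (κ l : ℤ))) where
  toFun f := fun l => ⟨fun τ => (∑ x, F l x τ * f.1 x τ) / discriminant τ,
    pairing_div_mem_R (hF l) f.2 (by ring)⟩
  invFun P := ⟨fun x τ => ∑ l, (P l).1 τ * dualFam F l x τ, by
    have h : (∑ l, fun x => (P l).1 * dualFam F l x) ∈ VS Γ k :=
      Submodule.sum_mem _ fun l _ => VS_mul' (P l).2 (hG l) (by ring)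
    convert h using 1
    ext x τ
    simp [Finset.sum_apply]⟩
  map_add' f g := by
    funext l
    apply Subtype.ext
    funext τ
    show (∑ x, F l x τ * (f.1 x τ + g.1 x τ)) / discriminant τ =
      (∑ x, F l x τ * f.1 x τ) / discriminant τ + (∑ x, F l x τ * g.1 x τ) / discriminant τ
    rw [← add_div, ← Finset.sum_add_distrib]
    congr 1
    exact Finset.sum_congr rfl fun x _ => by ring
  map_smul' c f := by
    funext l
    apply Subtype.ext
    funext τ
    show (∑ x, F l x τ * (c * f.1 x τ)) / discriminant τ =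
      c * ((∑ x, F l x τ * f.1 x τ) / discriminant τ)
    rw [← mul_div_assoc, Finset.mul_sum]
    congr 1
    exact Finset.sum_congr rfl fun x _ => by ring
  left_inv f := by
    apply Subtype.ext
    funext y τ
    show ∑ l, (∑ x, F l x τ * f.1 x τ) / discriminant τ * dualFam F l y τ = f.1 y τ
    have hd := discriminant_ne_zero τ
    have h1 : ∑ l, (∑ x, F l x τ * f.1 x τ) / discriminant τ * dualFam F l y τ =
        (∑ x, f.1 x τ * ∑ l, dualFam F l y τ * F l x τ) / discriminant τ := by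
      simp_rw [Finset.mul_sum]
      rw [Finset.sum_comm, Finset.sum_div]
      refine Finset.sum_congr rfl fun l _ => ?_
      rw [div_mul_eq_mul_div, Finset.sum_mul]
      congr 1
      exact Finset.sum_congr rfl fun x _ => by ring
    rw [h1]
    simp_rw [sum_dualFam_mul hdet]
    simp [hd]
  right_inv P := by
    funext m
    apply Subtype.ext
    funext τ
    show (∑ x, F m x τ * ∑ l, (P l).1 τ * dualFam F l x τ) / discriminant τ = (P m).1 τ
    have hd := discriminant_ne_zero τ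
    have h1 : ∑ x, F m x τ * ∑ l, (P l).1 τ * dualFam F l x τ =
        ∑ l, (P l).1 τ * ∑ x, F m x τ * dualFam F l x τ := by
      simp_rw [Finset.mul_sum]
      rw [Finset.sum_comm]
      exact Finset.sum_congr rfl fun l _ => Finset.sum_congr rfl fun x _ => by ring
    rw [h1]
    simp_rw [sum_mul_dualFam hdet]
    simp [hd]

instance finiteDimensional_R (k : ℤ) : FiniteDimensional ℂ (R k) :=
  (REquiv k).symm.finiteDimensional

/-- DUAL: dimension formulas from the structure theorem. -/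
theorem finrank_VM_VS (hF : ∀ l, F l ∈ VM Γ (2 * (κ l : ℤ)))
    (hdet : ∀ τ, (Matrix.of fun l x => F l x τ).det ≠ 0)
    (hn : 0 < n) (hT : ∀ x : (SL(2, ℤ) ⧸ Γ), ModularGroup.T ^ n • x = x) (C : Matrix (SL(2, ℤ) ⧸ Γ) (SL(2, ℤ) ⧸ Γ) ℂ) (hC : C.det ≠ 0)
    (hlim : ∀ l, Tendsto (fun τ => untw Γ n τ (fun y => F l y τ)) atImInfty (𝓝 (C l))) :
    (∀ k : ℤ, Module.finrank ℂ (VM Γ k) = ∑ l, Module.finrank ℂ (R (k - 2 * (κ l : ℤ)))) ∧
    (∀ k : ℤ, Module.finrank ℂ (VS Γ k) = ∑ l, Module.finrank ℂ (R (k - 12 + 2 * (κ l : ℤ)))) := by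
  have hG := dualFam_mem_VS hF hdet hn hT hC hlim
  refine ⟨fun k => ?_, fun k => ?_⟩
  · rw [(structVM hF hdet hG k).finrank_eq, Module.finrank_pi_fintype]
  · rw [(structVS hF hdet hG k).finrank_eq, Module.finrank_pi_fintype]

theorem finiteDimensional_VM (hF : ∀ l, F l ∈ VM Γ (2 * (κ l : ℤ)))
    (hdet : ∀ τ, (Matrix.of fun l x => F l x τ).det ≠ 0)
    (hn : 0 < n) (hT : ∀ x : (SL(2, ℤ) ⧸ Γ), ModularGroup.T ^ n • x = x) (C : Matrix (SL(2, ℤ) ⧸ Γ) (SL(2, ℤ) ⧸ Γ) ℂ) (hC : C.det ≠ 0)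
    (hlim : ∀ l, Tendsto (fun τ => untw Γ n τ (fun y => F l y τ)) atImInfty (𝓝 (C l))) (k : ℤ) :
    FiniteDimensional ℂ (VM Γ k) :=
  (structVM hF hdet (dualFam_mem_VS hF hdet hn hT hC hlim) k).symm.finiteDimensional

end Main

end Fermat.Agent.VVMF
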