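import Mathlib
import Fermat.Agent.VVMF.Package
import Fermat.Agent.VVMF.Structure
import Fermat.Agent.VVMF.Traces
import Fermat.Agent.VVMF.Count
import Fermat.Agent.VVMF.CuspEval

set_option autoImplicit false

open Filter Topology UpperHalfPlane ModularForm EisensteinSeries Derivative
open scoped MatrixGroups Manifold Topology ModularForm

namespace Fermat.Agent.VVMF

/-- `κ l ≤ 5`. -/
lemma kappa_le_five {Γ : Subgroup SL(2, ℤ)} [Γ.FiniteIndex] [Fintype (SL(2, ℤ) ⧸ Γ)]
    {κ : (SL(2, ℤ) ⧸ Γ) → ℕ}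
    (hS : ∀ k : ℤ, Module.finrank ℂ (VS Γ k) =
      ∑ l, Module.finrank ℂ (R (k - 12 + 2 * (κ l : ℤ)))) (l : SL(2, ℤ) ⧸ Γ) : κ l ≤ 5 := by
  have h0 := hS 0
  have h1 := hS (-2)
  rw [finrank_VS_nonpos _ le_rfl, eq_comm, Finset.sum_eq_zero_iff] at h0
  rw [finrank_VS_nonpos _ (by norm_num), eq_comm, Finset.sum_eq_zero_iff] at h1
  by_contra hl
  push Not at hl
  obtain ⟨m, hm⟩ := Nat.exists_eq_add_of_lt hl
  have h0l := h0 l (Finset.mem_univ l)
  have h1l := h1 l (Finset.mem_univ l)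
  rw [finrank_R_even' m (by rw [hm]; push_cast; ring)] at h0l
  by_cases hm1 : m = 1
  · subst hm1
    rw [finrank_R_even' 0 (by rw [hm]; norm_num)] at h1l
    simp [Nat.ModEq] at h1l
  · split_ifs at h0l with h
    simp only [Nat.ModEq] at h
    omega

theorem finrank_cuspForm_eq (N : ℕ) [NeZero N] :
    (Module.finrank ℂ (CuspForm (CongruenceSubgroup.Gamma0 N) 2) : ℚ) =
      ModularCurve.genusFormula N := by
  classical
  have : Finite (SL(2, ℤ) ⧸ CongruenceSubgroup.Gamma0 N) := Gamma0Count.finite_quotient N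
  have : Fintype (SL(2, ℤ) ⧸ CongruenceSubgroup.Gamma0 N) := Fintype.ofFinite _
  obtain ⟨F, κ, n, C, hn, hT, hF, hdet, hC, hlim⟩ := exists_package N
  obtain ⟨hM, hS⟩ := finrank_VM_VS hF hdet hn hT C hC hlim
  have : FiniteDimensional ℂ (VM (CongruenceSubgroup.Gamma0 N) 24) :=
    finiteDimensional_VM hF hdet hn hT C hC hlim 24
  refine finrank_cuspForm_eq_genusFormula N κ hM hS
    (cusp_eval hn hT κ F hF C hC hlim (fun l => (kappa_le_five hS l).trans (by norm_num)))
    (Traces.sum_neg_one_pow_of_det κ F (fun j g x => (hF j).1 g x) (hdet _))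
    ⟨Traces.omega, Traces.omega_isPrimitiveRoot,
      Traces.sum_omega_pow_of_det κ F (fun j g x => (hF j).1 g x) (hdet _)⟩

end Fermat.Agent.VVMF
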