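import Mathlib
import Fermat.Agent.VVMF.Defs

set_option autoImplicit false
set_option linter.unusedSectionVars false

namespace Fermat.Agent.VVMF

open UpperHalfPlane CongruenceSubgroup
open scoped MatrixGroups ModularForm Manifold

variable {X : Type*} [MulAction SL(2, ℤ) X] [Fintype X]

/-- A homogeneous basis of the vector valued modular forms over `ℂ[E₄, E₆]`, indexed by `X`. -/
structure IsBasis (k : X → ℤ) (F : X → X → ℍ → ℂ) : Prop where
  mem : ∀ j, F j ∈ vvm X (k j)
  gen : ∀ (l : ℤ), ∀ G ∈ vvm X l, ∃ a : ∀ j, ModularForm 𝒮ℒ (l - k j),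
    ∀ x z, G x z = ∑ j, a j z * F j x z
  indep : ∀ (l : ℤ) (a : ∀ j, ModularForm 𝒮ℒ (l - k j)),
    (∀ x z, ∑ j, a j z * F j x z = 0) → ∀ j, a j = 0

end Fermat.Agent.VVMF
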