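import Mathlib

/-!
# Determinants of families closed under the Serre derivative

If a square family `F l x` of holomorphic functions on `ℍ` (weights `k l`) satisfies
`∂_{k l} F l x = ∑ m, A l m * F m x` with `∑ l, A l l = 0`, then `det F = c * η ^ (2 * ∑ k l)`.
-/

set_option autoImplicit false

open UpperHalfPlane hiding I
open Complex ModularForm Derivative
open scoped Manifold Topology Real

namespace Fermat.Agent.VVMF.DetOde

variable {ι : Type*} [Fintype ι] [DecidableEq ι]

/-- The determinant as a continuous multilinear map of the rows. -/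
noncomputable def detCM : ContinuousMultilinearMap ℂ (fun _ : ι => (ι → ℂ)) ℂ where
  toMultilinearMap := (Matrix.detRowAlternating : (ι → ℂ) [⋀^ι]→ₗ[ℂ] ℂ).toMultilinearMap
  cont := by
    show Continuous fun M : ι → ι → ℂ => Matrix.det (M : Matrix ι ι ℂ)
    exact Continuous.matrix_det continuous_id

theorem detCM_apply (M : ι → ι → ℂ) : detCM M = Matrix.det (M : Matrix ι ι ℂ) := rfl

/-- Jacobi's formula for solutions of a linear ODE `M' = B M`. -/
theorem hasDerivAt_det {M : ℂ → ι → ι → ℂ} {z : ℂ} {B : ι → ι → ℂ}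
    (h : ∀ i j, HasDerivAt (fun w => M w i j) (∑ m, B i m * M z m j) z) :
    HasDerivAt (fun w => Matrix.det (M w : Matrix ι ι ℂ))
      ((∑ i, B i i) * Matrix.det (M z : Matrix ι ι ℂ)) z := by
  have h1 : HasDerivAt M (fun i j => ∑ m, B i m * M z m j) z := by
    rw [hasDerivAt_pi]
    intro i
    rw [hasDerivAt_pi]
    intro j
    exact h i j
  have h2 := (ContinuousMultilinearMap.hasFDerivAt (detCM (ι := ι)) (M z)).comp_hasDerivAt z h1
  have h3 : (detCM (ι := ι)).linearDeriv (M z) (fun i j => ∑ m, B i m * M z m j)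
      = (∑ i, B i i) * Matrix.det (M z : Matrix ι ι ℂ) := by
    rw [ContinuousMultilinearMap.linearDeriv_apply, Finset.sum_mul]
    refine Finset.sum_congr rfl fun i _ => ?_
    have h4 := Matrix.det_updateRow_sum (M z : Matrix ι ι ℂ) i (B i)
    rw [smul_eq_mul] at h4
    rw [← h4, detCM_apply]
    congr 1
    ext a b
    by_cases hab : a = i
    · subst hab
      simp [Finset.sum_apply]
    · simp [Function.update_of_ne hab, Matrix.updateRow_ne hab]
  rw [h3] at h2
  exact h2

/-- The main statement: the determinant of a family closed under the Serre derivative with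
traceless coefficients is a constant multiple of a power of `η`. -/
theorem det_eq_eta (F : ι → ι → ℍ → ℂ) (k : ι → ℤ) (A : ι → ι → ℍ → ℂ)
    (hF : ∀ l x, MDiff (F l x))
    (hA : ∀ l x z, serreDerivative (k l) (F l x) z = ∑ m, A l m z * F m x z)
    (htr : ∀ z, ∑ l, A l l z = 0) :
    ∃ c : ℂ, ∀ z : ℍ, Matrix.det (fun l x => F l x z : Matrix ι ι ℂ)
      = c * (ModularForm.eta z) ^ (2 * ∑ l, k l) := by
  set K : ℤ := ∑ l, k l with hK
  set M : ℂ → ι → ι → ℂ := fun w l x => (F l x ∘ ofComplex) w with hM
  -- derivative of the determinant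
  have hdet : ∀ z : ℍ, HasDerivAt (fun w => Matrix.det (M w : Matrix ι ι ℂ))
      ((2 * π * I) * ((K : ℂ) * 12⁻¹ * EisensteinSeries.E2 z)
        * Matrix.det (M z : Matrix ι ι ℂ)) (z : ℂ) := by
    intro z
    have key := hasDerivAt_det (M := M) (z := (z : ℂ))
      (B := fun l m => (2 * π * I) * (A l m z + if l = m then
        (k l : ℂ) * 12⁻¹ * EisensteinSeries.E2 z else 0)) (by
        intro l x
        have hd : HasDerivAt (F l x ∘ ofComplex) (deriv (F l x ∘ ofComplex) z) (z : ℂ) :=
          (UpperHalfPlane.mdifferentiableAt_iff.mp (hF l x z)).hasDerivAt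
        have h1 := hA l x z
        rw [serreDerivative_apply, normalizedDerivOfComplex] at h1
        have h2pi : (2 * (π : ℂ) * I) ≠ 0 := by
          simp [Real.pi_ne_zero]
        have h3 : deriv (F l x ∘ ofComplex) z = (2 * π * I) *
            (∑ m, A l m z * F m x z + (k l : ℂ) * 12⁻¹ * EisensteinSeries.E2 z * F l x z) := by
          rw [← h1]
          field_simp
          ring
        rw [h3] at hd
        convert hd using 1
        simp only [hM, Function.comp_apply, ofComplex_apply, mul_add, add_mul, Finset.sum_add_distrib,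
          Finset.mul_sum, ite_mul, mul_ite, zero_mul, mul_zero, Finset.sum_ite_eq,
          Finset.mem_univ, if_true]
        congr 1
        · exact Finset.sum_congr rfl fun m _ => by ring
        · ring)
    convert key using 1
    congr 1
    rw [← Finset.mul_sum, Finset.sum_add_distrib, htr z, zero_add]
    simp only [if_true]
    rw [← Finset.sum_mul, ← Finset.sum_mul, hK]
    push_cast
    ring
  -- derivative of eta
  have heta : ∀ z : ℍ, HasDerivAt ModularForm.eta
      ((π * I / 12) * EisensteinSeries.E2 z * ModularForm.eta z) (z : ℂ) := by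
    intro z
    have h1 := (differentiableAt_eta_of_mem_upperHalfPlaneSet z.2).hasDerivAt
    have h2 := logDeriv_eta_eq_E2 z
    rw [logDeriv_apply, div_eq_iff (eta_ne_zero z.2)] at h2
    rw [← h2]
    exact h1
  -- quotient is locally constant
  set g : ℂ → ℂ := fun w => Matrix.det (M w : Matrix ι ι ℂ) * (ModularForm.eta w) ^ (-(2 * K))
    with hg
  have hgd : ∀ z : ℍ, HasDerivAt g 0 (z : ℂ) := by
    intro z
    have he := eta_ne_zero z.2
    have h3 : (ModularForm.eta z) ^ (-(2 * K)) =
        (ModularForm.eta z) ^ (-(2 * K) - 1) * (ModularForm.eta z) := by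
      rw [← zpow_add_one₀ he]
      congr 1
      ring
    have h1 := (hasDerivAt_zpow (-(2 * K)) (ModularForm.eta z) (Or.inl he)).comp (z : ℂ) (heta z)
    have h2 := (hdet z).mul h1
    have h4 : (2 * π * I) * ((K : ℂ) * 12⁻¹ * EisensteinSeries.E2 z)
        * Matrix.det (M z : Matrix ι ι ℂ) * ((fun x => x ^ (-(2 * K))) ∘ ModularForm.eta) (z : ℂ) +
        Matrix.det (M z : Matrix ι ι ℂ) * (((-(2 * K) : ℤ) : ℂ) * (ModularForm.eta z) ^ (-(2 * K) - 1)
          * ((π * I / 12) * EisensteinSeries.E2 z * ModularForm.eta z)) = 0 := by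
      rw [Function.comp_apply, h3]
      push_cast
      ring
    rw [h4] at h2
    exact h2
  have hconn : IsPreconnected upperHalfPlaneSet := by
    have : Convex ℝ upperHalfPlaneSet := convex_halfSpace_im_gt 0
    exact this.isPreconnected
  have hconst : ∀ z : ℍ, g z = g UpperHalfPlane.I := by
    intro z
    refine isOpen_upperHalfPlaneSet.is_const_of_deriv_eq_zero hconn ?_ ?_ z.2
      UpperHalfPlane.I.2
    · intro w hw
      exact ((hgd ⟨w, hw⟩).differentiableAt).differentiableWithinAt
    · intro w hw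
      exact (hgd ⟨w, hw⟩).deriv
  refine ⟨g UpperHalfPlane.I, fun z => ?_⟩
  rw [← hconst z]
  have he := eta_ne_zero z.2
  simp only [hg, hM, Function.comp_apply, ofComplex_apply]
  rw [mul_assoc, ← zpow_add₀ he]
  simp

/-- Either the determinant vanishes identically or it vanishes nowhere. -/
theorem det_ne_zero_of_exists (F : ι → ι → ℍ → ℂ) (k : ι → ℤ) (A : ι → ι → ℍ → ℂ)
    (hF : ∀ l x, MDiff (F l x))
    (hA : ∀ l x z, serreDerivative (k l) (F l x) z = ∑ m, A l m z * F m x z)
    (htr : ∀ z, ∑ l, A l l z = 0)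
    (hne : ∃ z : ℍ, Matrix.det (fun l x => F l x z : Matrix ι ι ℂ) ≠ 0) (z : ℍ) :
    Matrix.det (fun l x => F l x z : Matrix ι ι ℂ) ≠ 0 := by
  obtain ⟨c, hc⟩ := det_eq_eta F k A hF hA htr
  obtain ⟨z₀, hz₀⟩ := hne
  rw [hc z]
  refine mul_ne_zero ?_ (zpow_ne_zero _ (eta_ne_zero z.2))
  rintro rfl
  exact hz₀ (by rw [hc z₀, zero_mul])

end Fermat.Agent.VVMF.DetOde
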