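import Mathlib
import Fermat.Agent.VVMF.Basis
import Fermat.Agent.VVMF.DetOde

/-!
# P3: the determinant of a homogeneous basis is a power of `η`

The Serre derivative maps `vvm X k` to `vvm X (k + 2)`; expanding in the basis, the trace of the
coefficient matrix is a level one form of weight `2`, hence zero.
-/

set_option autoImplicit false

namespace Fermat.Agent.VVMF

open UpperHalfPlane CongruenceSubgroup Derivative Filter
open scoped MatrixGroups ModularForm Manifold Topology

/-- The derivative of a function bounded at `i∞` is bounded at `i∞` (Cauchy estimate). -/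
lemma isBoundedAtImInfty_normalizedDeriv {f : ℍ → ℂ} (hf : MDiff f) (hb : IsBoundedAtImInfty f) :
    IsBoundedAtImInfty (normalizedDerivOfComplex f) := by
  rw [isBoundedAtImInfty_iff] at hb ⊢
  obtain ⟨M, A, hA⟩ := hb
  refine ⟨‖((2 * Real.pi * Complex.I : ℂ))⁻¹‖ * (M / 1), max A 0 + 1, fun z hz => ?_⟩
  rw [normalizedDerivOfComplex, norm_mul]
  refine mul_le_mul_of_nonneg_left ?_ (norm_nonneg _)
  have hball : ∀ w ∈ Metric.closedBall (z : ℂ) 1, max A 0 ≤ w.im := by
    intro w hw
    rw [Metric.mem_closedBall, dist_eq_norm] at hw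
    have h1 : |(w - z).im| ≤ 1 := (Complex.abs_im_le_norm _).trans hw
    rw [Complex.sub_im, abs_le] at h1
    have : (z : ℂ).im = z.im := rfl
    linarith [h1.1]
  have hballpos : ∀ w ∈ Metric.ball (z : ℂ) 1, 0 < w.im := by
    intro w hw
    rw [Metric.mem_ball, dist_eq_norm] at hw
    have h1 : |(w - z).im| < 1 := (Complex.abs_im_le_norm _).trans_lt hw
    rw [Complex.sub_im, abs_lt] at h1
    have h0 : 0 ≤ max A 0 := le_max_right _ _
    have : (z : ℂ).im = z.im := rfl
    linarith [h1.1]
  -- work on a slightly smaller ball to stay inside the upper half plane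
  have key : ∀ r : ℝ, 0 < r → r < 1 → ‖deriv (f ∘ ofComplex) z‖ ≤ M / r := by
    intro r hr hr1
    have hsub : Metric.closedBall (z : ℂ) r ⊆ upperHalfPlaneSet := fun w hw =>
      hballpos w (Metric.closedBall_subset_ball hr1 hw)
    have hd : DiffContOnCl ℂ (f ∘ ofComplex) (Metric.ball (z : ℂ) r) := by
      have h2 := UpperHalfPlane.mdifferentiable_iff.1 hf
      exact (h2.mono hsub).diffContOnCl_ball (le_refl _)
    refine Complex.norm_deriv_le_of_forall_mem_sphere_norm_le hr hd fun w hw => ?_
    have hw' : w ∈ Metric.closedBall (z : ℂ) r := Metric.sphere_subset_closedBall hw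
    have hpos : 0 < w.im := hsub hw'
    rw [Function.comp_apply, ofComplex_apply_of_im_pos hpos]
    refine hA ⟨w, hpos⟩ ?_
    exact (le_max_left A 0).trans (hball w (Metric.closedBall_subset_closedBall hr1.le hw'))
  have hlim : Tendsto (fun r : ℝ => M / r) (𝓝[<] 1) (𝓝 (M / 1)) := by
    refine Tendsto.mono_left ?_ nhdsWithin_le_nhds
    exact (continuousAt_const.div continuousAt_id one_ne_zero)
  refine ge_of_tendsto hlim ?_
  have h01 : Set.Ioo (0 : ℝ) 1 ∈ 𝓝[<] (1 : ℝ) := Ioo_mem_nhdsLT one_pos
  filter_upwards [h01] with r hr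
  exact key r hr.1 hr.2

/-- The Serre derivative of a function bounded at `i∞` is bounded at `i∞`. -/
lemma isBoundedAtImInfty_serreDerivative {f : ℍ → ℂ} (k : ℂ) (hf : MDiff f)
    (hb : IsBoundedAtImInfty f) : IsBoundedAtImInfty (serreDerivative k f) := by
  have h1 := isBoundedAtImInfty_normalizedDeriv hf hb
  have h2 : IsBoundedAtImInfty (fun z => EisensteinSeries.E2 z * f z) :=
    EisensteinSeries.isBoundedAtImInfty_E2.mul hb
  have h3 : serreDerivative k f = normalizedDerivOfComplex f -
      (k * 12⁻¹) • (fun z => EisensteinSeries.E2 z * f z) := by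
    ext z
    simp [mul_assoc]
  rw [h3]
  exact h1.sub (h2.smul _)

variable {X : Type*} [MulAction SL(2, ℤ) X]

/-- The Serre derivative on vector valued forms. -/
lemma serreDerivative_mem_vvm {k : ℤ} {F : X → ℍ → ℂ} (hF : F ∈ vvm X k) :
    (fun x => serreDerivative k (F x)) ∈ vvm X (k + 2) := by
  refine ⟨fun x => serreDerivative_mdifferentiable _ (hF.1 x), fun g x => ?_, fun x =>
    isBoundedAtImInfty_serreDerivative _ (hF.1 x) (hF.2.2 x)⟩
  rw [serreDerivative_slash_equivariant (hF.1 x), hF.2.1]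

/-- A level one form of weight `2` vanishes. -/
lemma levelOne_weight_two_eq_zero {k : ℤ} (hk : k = 2) (f : ModularForm 𝒮ℒ k) : f = 0 := by
  subst hk
  exact rank_zero_iff_forall_zero.1 ModularForm.levelOne_weight_two_rank_zero f

variable [Fintype X] [DecidableEq X]

/-- P3. -/
theorem det_eq_eta (k : X → ℤ) (F : X → X → ℍ → ℂ) (h : IsBasis k F)
    (hne : ∃ z, (Matrix.of fun j x => F j x z).det ≠ 0) :
    ∃ c : ℂ, c ≠ 0 ∧ ∀ z : ℍ, (Matrix.of fun j x => F j x z).det =
      c * (ModularForm.eta z) ^ (2 * ∑ j, k j) := by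
  have hS : ∀ j, ∃ a : ∀ m, ModularForm 𝒮ℒ (k j + 2 - k m),
      ∀ x z, serreDerivative (k j) (F j x) z = ∑ m, a m z * F m x z :=
    fun j => h.gen _ _ (serreDerivative_mem_vvm (h.mem j))
  choose a ha using hS
  obtain ⟨c, hc⟩ := DetOde.det_eq_eta F k (fun j m z => a j m z) (fun l x => (h.mem l).1 x)
    (fun l x z => ha l x z) (fun z => by
      refine Finset.sum_eq_zero fun l _ => ?_
      rw [levelOne_weight_two_eq_zero (by ring) (a l l)]
      rfl)
  refine ⟨c, ?_, fun z => hc z⟩
  rintro rfl
  obtain ⟨z, hz⟩ := hne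
  exact hz (by
    have := hc z
    rw [zero_mul] at this
    exact this)

end Fermat.Agent.VVMF
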